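import Mathlib

/-!
# T1B / TORIC50 (helper98): regular elements on truncations (the field `reg01` of `GlueInput`)

`W` a ring, `π : W` generating a maximal ideal, `B` a flat `W`-module, `f : B →ₗ[W] B` injective
modulo `π` (i.e. `f x ∈ π B → x ∈ π B`).  Then `M ⊗ f` is injective on `M ⊗[W] B` for every
`W`-module `M` killed by a power of `π` (`injective_lTensor_of_pow_smul_eq_zero`).

Application (`mem_nonZeroDivisors_tmul`): for a `W`-algebra `Λ` in which `π` is nilpotent and a flat
`W`-algebra `B` with `s : B` regular modulo `π`, the element `1 ⊗ s` is a non-zero-divisor of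
`Λ ⊗[W] B`.
-/

set_option autoImplicit false

namespace Fermat.Agent.T1B.Toric98

open TensorProduct

section Devissage

variable {W : Type*} [CommRing W] (π : W) {B : Type*} [AddCommGroup B] [Module W B]
  (f : B →ₗ[W] B)

/-- `k ⊗ f` is injective on `(W/π) ⊗ B` when `f` is injective modulo `π`. -/
theorem injective_lTensor_quotient
    (hf : ∀ x : B, f x ∈ (Ideal.span {π} • ⊤ : Submodule W B) → x ∈ (Ideal.span {π} • ⊤ : Submodule W B)) :
    Function.Injective (f.lTensor (W ⧸ Ideal.span {π})) := by
  set I : Ideal W := Ideal.span {π} with hI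
  set e := TensorProduct.quotTensorEquivQuotSMul B I with he
  -- the induced map on the quotient
  have hle : (I • ⊤ : Submodule W B) ≤ (I • ⊤ : Submodule W B).comap f := by
    intro x hx
    rw [Submodule.mem_comap]
    refine Submodule.smul_induction_on hx ?_ ?_
    · intro r hr n _
      rw [map_smul]
      exact Submodule.smul_mem_smul hr Submodule.mem_top
    · intro x y hx hy
      rw [map_add]
      exact Submodule.add_mem _ hx hy
  set g := (I • ⊤ : Submodule W B).mapQ (I • ⊤ : Submodule W B) f hle with hg
  have hginj : Function.Injective g := by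
    rw [← LinearMap.ker_eq_bot, LinearMap.ker_eq_bot']
    intro x hx
    obtain ⟨x, rfl⟩ := Submodule.Quotient.mk_surjective _ x
    rw [hg, Submodule.mapQ_apply, Submodule.Quotient.mk_eq_zero] at hx
    rw [Submodule.Quotient.mk_eq_zero]
    exact hf x hx
  have hcomm : (e.toLinearMap).comp (f.lTensor (W ⧸ I)) = g.comp e.toLinearMap := by
    apply TensorProduct.ext'
    intro a b
    obtain ⟨a, rfl⟩ := Ideal.Quotient.mk_surjective a
    simp only [LinearMap.coe_comp, Function.comp_apply, LinearMap.lTensor_tmul,
      LinearEquiv.coe_coe]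
    rw [he, TensorProduct.quotTensorEquivQuotSMul_mk_tmul,
      TensorProduct.quotTensorEquivQuotSMul_mk_tmul, hg, Submodule.mapQ_apply, map_smul]
  intro x y hxy
  apply e.injective
  apply hginj
  have h1 := congrArg (fun φ => φ x) hcomm
  have h2 := congrArg (fun φ => φ y) hcomm
  simp only [LinearMap.coe_comp, Function.comp_apply, LinearEquiv.coe_coe] at h1 h2
  rw [← h1, ← h2, hxy]

/-- **Base case**: `M ⊗ f` is injective for `M` killed by `π`, when `(π)` is maximal. -/
theorem injective_lTensor_of_smul_eq_zero [hmax : (Ideal.span {π}).IsMaximal]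
    (hf : ∀ x : B, f x ∈ (Ideal.span {π} • ⊤ : Submodule W B) → x ∈ (Ideal.span {π} • ⊤ : Submodule W B))
    (M : Type*) [AddCommGroup M] [Module W M] (hM : ∀ m : M, π • m = 0) :
    Function.Injective (f.lTensor M) := by
  set I : Ideal W := Ideal.span {π} with hI
  have htors : Module.IsTorsionBySet W M I := by
    rw [hI, Module.isTorsionBySet_span_singleton_iff]
    exact hM
  let _ : Field (W ⧸ I) := Ideal.Quotient.field I
  let _ : Module (W ⧸ I) M := htors.module
  have : IsScalarTower W (W ⧸ I) M := htors.isScalarTower
  set e := TensorProduct.AlgebraTensorModule.cancelBaseChange W (W ⧸ I) (W ⧸ I) M B with he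
  set g : (W ⧸ I) ⊗[W] B →ₗ[W ⧸ I] (W ⧸ I) ⊗[W] B := f.baseChange (W ⧸ I) with hg
  have hginj : Function.Injective g := by
    have := injective_lTensor_quotient π f hf
    intro x y hxy
    exact this hxy
  have h2 : Function.Injective (g.lTensor M) :=
    Module.Flat.lTensor_preserves_injective_linearMap g hginj
  have hcomm : ∀ z, e (g.lTensor M z) = f.lTensor M (e z) := by
    intro z
    induction z using TensorProduct.induction_on with
    | zero => simp
    | add x y hx hy => simp only [map_add, hx, hy]
    | tmul m y =>
      induction y using TensorProduct.induction_on with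
      | zero => simp
      | add x y hx hy =>
        simp only [TensorProduct.tmul_add, map_add, hx, hy]
      | tmul a b =>
        rw [LinearMap.lTensor_tmul, hg, LinearMap.baseChange_tmul, he,
          TensorProduct.AlgebraTensorModule.cancelBaseChange_tmul,
          TensorProduct.AlgebraTensorModule.cancelBaseChange_tmul, LinearMap.lTensor_tmul]
  intro x y hxy
  have hx := hcomm (e.symm x)
  have hy := hcomm (e.symm y)
  rw [LinearEquiv.apply_symm_apply] at hx hy
  have : g.lTensor M (e.symm x) = g.lTensor M (e.symm y) := by
    apply e.injective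
    rw [hx, hy, hxy]
  exact e.symm.injective (h2 this)

/-- **Dévissage**: `M ⊗ f` is injective for every `M` killed by a power of `π`, when `(π)` is
maximal, `B` is flat and `f` is injective modulo `π`. -/
theorem injective_lTensor_of_pow_smul_eq_zero [hmax : (Ideal.span {π}).IsMaximal] [Module.Flat W B]
    (hf : ∀ x : B, f x ∈ (Ideal.span {π} • ⊤ : Submodule W B) → x ∈ (Ideal.span {π} • ⊤ : Submodule W B))
    (N : ℕ) : ∀ (M : Type*) [AddCommGroup M] [Module W M], (∀ m : M, π ^ N • m = 0) →
      Function.Injective (f.lTensor M) := by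
  induction N with
  | zero =>
    intro M _ _ hM
    have : Subsingleton M := ⟨fun a b => by
      have ha := hM a
      have hb := hM b
      rw [pow_zero, one_smul] at ha hb
      rw [ha, hb]⟩
    intro x y _
    exact Subsingleton.elim _ _
  | succ N ih =>
    intro M _ _ hM
    -- the submodule `π M`
    set M' : Submodule W M := LinearMap.range (LinearMap.lsmul W M π) with hM'
    have h' : ∀ m : M', π ^ N • m = 0 := by
      rintro ⟨m, x, rfl⟩
      apply Subtype.ext
      rw [Submodule.coe_smul, Submodule.coe_zero]
      show π ^ N • (π • x) = 0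
      rw [smul_smul, ← pow_succ]
      exact hM x
    have h'' : ∀ m : M ⧸ M', π • m = 0 := by
      intro m
      obtain ⟨m, rfl⟩ := Submodule.Quotient.mk_surjective _ m
      rw [← Submodule.Quotient.mk_smul, Submodule.Quotient.mk_eq_zero]
      exact ⟨m, rfl⟩
    have i' := ih M' h'
    have i'' := injective_lTensor_of_smul_eq_zero π f hf (M ⧸ M') h''
    have hex : Function.Exact (M'.subtype.rTensor B) (M'.mkQ.rTensor B) :=
      rTensor_exact B (LinearMap.exact_subtype_mkQ M') (Submodule.mkQ_surjective M')
    have hinj : Function.Injective (M'.subtype.rTensor B) :=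
      Module.Flat.rTensor_preserves_injective_linearMap _ (Submodule.injective_subtype M')
    rw [← LinearMap.ker_eq_bot, LinearMap.ker_eq_bot']
    intro z hz
    have h1 : f.lTensor (M ⧸ M') (M'.mkQ.rTensor B z) = 0 := by
      have := congrArg (fun φ => φ z) (LinearMap.lTensor_comp_rTensor (R := W) (f := M'.mkQ) (g := f))
      have h3 := congrArg (fun φ => φ z) (LinearMap.rTensor_comp_lTensor (R := W) (f := M'.mkQ) (g := f))
      simp only [LinearMap.coe_comp, Function.comp_apply] at this h3
      rw [this, ← h3, hz, map_zero]
    have h2 : M'.mkQ.rTensor B z = 0 := i'' (by rw [h1, map_zero])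
    obtain ⟨z', rfl⟩ := (hex z).1 h2
    have h3 : f.lTensor M' z' = 0 := by
      apply hinj
      have := congrArg (fun φ => φ z') (LinearMap.lTensor_comp_rTensor (R := W) (f := M'.subtype) (g := f))
      have h4 := congrArg (fun φ => φ z') (LinearMap.rTensor_comp_lTensor (R := W) (f := M'.subtype) (g := f))
      simp only [LinearMap.coe_comp, Function.comp_apply] at this h4
      rw [h4, ← this, hz, map_zero]
    have h4 : z' = 0 := i' (by rw [h3, map_zero])
    rw [h4, map_zero]

/-- **The other side**: if `M` is killed by `π` (with `(π)` maximal) and `f : M → M` is injective,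
then `X ⊗ f` is injective for EVERY `W`-module `X` (no flatness: `X ⊗[W] M = (X/π) ⊗[W/π] M`). -/
theorem injective_lTensor_of_smul_eq_zero_right {W : Type*} [CommRing W] (π : W)
    [hmax : (Ideal.span {π}).IsMaximal] {M : Type*} [AddCommGroup M] [Module W M]
    (hM : ∀ m : M, π • m = 0) (f : M →ₗ[W] M) (hf : Function.Injective f)
    (X : Type*) [AddCommGroup X] [Module W X] : Function.Injective (f.lTensor X) := by
  set I : Ideal W := Ideal.span {π} with hI
  have htors : Module.IsTorsionBySet W M I := by
    rw [hI, Module.isTorsionBySet_span_singleton_iff]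
    exact hM
  let _ : Field (W ⧸ I) := Ideal.Quotient.field I
  let _ : Module (W ⧸ I) M := htors.module
  have : IsScalarTower W (W ⧸ I) M := htors.isScalarTower
  -- `f` is linear over the residue field
  let f' : M →ₗ[W ⧸ I] M :=
    { toFun := f
      map_add' := f.map_add
      map_smul' := by
        intro c m
        obtain ⟨w, rfl⟩ := Ideal.Quotient.mk_surjective c
        show f (Ideal.Quotient.mk I w • m) = Ideal.Quotient.mk I w • f m
        have h1 : Ideal.Quotient.mk I w • m = w • m := rfl
        have h2 : Ideal.Quotient.mk I w • f m = w • f m := rfl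
        rw [h1, h2, map_smul] }
  have hf' : Function.Injective f' := hf
  set e := TensorProduct.AlgebraTensorModule.cancelBaseChange W (W ⧸ I) (W ⧸ I) M X with he
  have h2 : Function.Injective (f'.rTensor ((W ⧸ I) ⊗[W] X)) :=
    Module.Flat.rTensor_preserves_injective_linearMap f' hf'
  have hcomm : ∀ z, e (f'.rTensor ((W ⧸ I) ⊗[W] X) z) = f.rTensor X (e z) := by
    intro z
    induction z using TensorProduct.induction_on with
    | zero => simp
    | add x y hx hy => simp only [map_add, hx, hy]
    | tmul m y =>
      induction y using TensorProduct.induction_on with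
      | zero => simp
      | add x y hx hy =>
        simp only [TensorProduct.tmul_add, map_add, hx, hy]
      | tmul a x =>
        rw [LinearMap.rTensor_tmul, he,
          TensorProduct.AlgebraTensorModule.cancelBaseChange_tmul,
          TensorProduct.AlgebraTensorModule.cancelBaseChange_tmul, LinearMap.rTensor_tmul]
        congr 1
        exact (f'.map_smul a m).symm
  have h3 : Function.Injective (f.rTensor X) := by
    intro x y hxy
    have hx := hcomm (e.symm x)
    have hy := hcomm (e.symm y)
    rw [LinearEquiv.apply_symm_apply] at hx hy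
    have : f'.rTensor ((W ⧸ I) ⊗[W] X) (e.symm x) = f'.rTensor ((W ⧸ I) ⊗[W] X) (e.symm y) := by
      apply e.injective
      rw [hx, hy, hxy]
    exact e.symm.injective (h2 this)
  -- transfer along the commutativity of the tensor product
  intro x y hxy
  apply (TensorProduct.comm W X M).injective
  apply h3
  have hc : ∀ z, f.rTensor X (TensorProduct.comm W X M z) =
      TensorProduct.comm W X M (f.lTensor X z) := by
    intro z
    induction z using TensorProduct.induction_on with
    | zero => simp
    | add x y hx hy => simp only [map_add, hx, hy]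
    | tmul a b => simp
  rw [hc, hc, hxy]

end Devissage

section Algebra

variable {W : Type*} [CommRing W] (π : W) {B : Type*} [CommRing B] [Algebra W B]

theorem mem_span_smul_top_iff {x : B} :
    x ∈ (Ideal.span {π} • ⊤ : Submodule W B) ↔ x ∈ Ideal.span {algebraMap W B π} := by
  rw [Submodule.ideal_span_singleton_smul, Submodule.mem_smul_pointwise_iff_exists,
    Ideal.mem_span_singleton']
  constructor
  · rintro ⟨y, -, rfl⟩
    exact ⟨y, by rw [Algebra.smul_def, mul_comm]⟩
  · rintro ⟨y, rfl⟩
    exact ⟨y, Submodule.mem_top, by rw [Algebra.smul_def, mul_comm]⟩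

/-- **`reg01` for truncations.**  `W` with `(π)` maximal, `B` a flat `W`-algebra, `s : B` regular
modulo `π`, `Λ` a `W`-algebra in which `π` is nilpotent: `1 ⊗ s` is a non-zero-divisor of
`Λ ⊗[W] B`. -/
theorem mem_nonZeroDivisors_tmul [hmax : (Ideal.span {π}).IsMaximal] [Module.Flat W B] (s : B)
    (hs : ∀ x : B, s * x ∈ Ideal.span {algebraMap W B π} → x ∈ Ideal.span {algebraMap W B π})
    (Λ : Type*) [CommRing Λ] [Algebra W Λ] (N : ℕ) (hN : algebraMap W Λ π ^ N = 0) :
    (1 : Λ) ⊗ₜ[W] s ∈ nonZeroDivisors (Λ ⊗[W] B) := by
  have hinj := injective_lTensor_of_pow_smul_eq_zero π (LinearMap.mulLeft W s)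
    (fun x hx => by
      rw [mem_span_smul_top_iff] at hx ⊢
      exact hs x hx) N Λ (fun m => by
        rw [Algebra.smul_def, map_pow, hN, zero_mul])
  have hmul : ∀ z : Λ ⊗[W] B, (LinearMap.mulLeft W s).lTensor Λ z = (1 : Λ) ⊗ₜ[W] s * z := by
    intro z
    induction z using TensorProduct.induction_on with
    | zero => simp
    | add x y hx hy => rw [map_add, hx, hy, mul_add]
    | tmul a b =>
      rw [LinearMap.lTensor_tmul, LinearMap.mulLeft_apply, Algebra.TensorProduct.tmul_mul_tmul,
        one_mul]
  rw [mem_nonZeroDivisors_iff_right]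
  intro z hz
  apply hinj
  rw [hmul, map_zero, mul_comm, hz]

end Algebra

end Fermat.Agent.T1B.Toric98
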