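import Mathlib
import Fermat.Agent.T1B.Toric98.RegLift

/-!
# T1B / TORIC50 (helper98): base change of chart-level facts to `Λ ⊗[W] B`

Generic lemmas (Mathlib only) used to produce the `GlueInput` of the charts `Λ ⊗[W] B_j` from
`W`-level hypotheses:

* `extI W Λ I` : the extension of an ideal `I ⊂ B` to `Λ ⊗[W] B`; `extI_span_singleton`;
* `finite_quotient_extI`, `isArtinianRing_quotient_extI` : if `B ⧸ I` is a finite `W`-module and `Λ`
  is artinian then `(Λ ⊗ B) ⧸ I(Λ ⊗ B)` is an artinian ring; hence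
  `isMaximal_of_isPrime_of_extI_le`, `finite_setOf_isPrime_extI_le`;
* `isNilpotent_of_mem_extI_inf` : `P(Λ⊗B) ⊓ Q(Λ⊗B)` consists of nilpotents when `P ⊓ Q ⊆ π B` and `π`
  is nilpotent in `Λ`;
* `isNoetherianRing_tensor` : `Λ ⊗[W] B` is noetherian for `B` of finite type and `Λ` noetherian;
* localisation: `comap_injective_of_away`, `exists_prime_of_away`.
-/

set_option autoImplicit false
set_option linter.unusedSectionVars false
set_option linter.style.haveILetI false

namespace Fermat.Agent.T1B.Toric98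

open TensorProduct

section Ext

variable (W : Type*) [CommRing W] {B : Type*} [CommRing B] [Algebra W B]
  (Λ : Type*) [CommRing Λ] [Algebra W Λ]

/-- the extension of an ideal of `B` to `Λ ⊗[W] B` -/
abbrev extI (I : Ideal B) : Ideal (Λ ⊗[W] B) :=
  I.map (Algebra.TensorProduct.includeRight : B →ₐ[W] Λ ⊗[W] B)

theorem tmul_mem_extI {I : Ideal B} {b : B} (hb : b ∈ I) : (1 : Λ) ⊗ₜ[W] b ∈ extI W Λ I :=
  Ideal.mem_map_of_mem _ hb

theorem extI_span_singleton (s : B) :
    extI W Λ (Ideal.span {s}) = Ideal.span {(1 : Λ) ⊗ₜ[W] s} := by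
  rw [extI, Ideal.map_span, Set.image_singleton]
  rfl

theorem extI_span_singleton_le_iff (s : B) (p : Ideal (Λ ⊗[W] B)) :
    extI W Λ (Ideal.span {s}) ≤ p ↔ (1 : Λ) ⊗ₜ[W] s ∈ p := by
  rw [extI_span_singleton, Ideal.span_singleton_le_iff_mem]

/-- `(Λ ⊗ B) ⧸ I(Λ ⊗ B)` is a finite `Λ`-module when `B ⧸ I` is a finite `W`-module. -/
theorem finite_quotient_extI (I : Ideal B) [Module.Finite W (B ⧸ I)] :
    Module.Finite Λ ((Λ ⊗[W] B) ⧸ extI W Λ I) :=
  Module.Finite.equiv
    (Algebra.TensorProduct.tensorQuotientEquiv (R := W) Λ B Λ I).toLinearEquiv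

theorem isArtinianRing_quotient_extI [IsArtinianRing Λ] (I : Ideal B) [Module.Finite W (B ⧸ I)] :
    IsArtinianRing ((Λ ⊗[W] B) ⧸ extI W Λ I) := by
  have := finite_quotient_extI W Λ I
  exact IsArtinianRing.of_finite Λ _

end Ext

section Quot

variable {T : Type*} [CommRing T] (J : Ideal T) [IsArtinianRing (T ⧸ J)]

/-- In a ring with artinian quotient `T ⧸ J`, the primes containing `J` are maximal. -/
theorem isMaximal_of_isPrime_of_le (p : Ideal T) [hp : p.IsPrime] (h : J ≤ p) : p.IsMaximal := by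
  have hker : RingHom.ker (Ideal.Quotient.mk J) ≤ p := by rwa [Ideal.mk_ker]
  have hprime : (p.map (Ideal.Quotient.mk J)).IsPrime :=
    Ideal.map_isPrime_of_surjective Ideal.Quotient.mk_surjective hker
  have hmax : (p.map (Ideal.Quotient.mk J)).IsMaximal := IsArtinianRing.isMaximal_of_isPrime _
  have hcm : (p.map (Ideal.Quotient.mk J)).comap (Ideal.Quotient.mk J) = p := by
    rw [Ideal.comap_map_of_surjective _ Ideal.Quotient.mk_surjective, ← RingHom.ker_eq_comap_bot]
    exact sup_eq_left.2 hker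
  rw [← hcm]
  exact Ideal.comap_isMaximal_of_surjective _ Ideal.Quotient.mk_surjective

/-- ... and they are finite in number. -/
theorem finite_setOf_isPrime_le : {p : Ideal T | p.IsPrime ∧ J ≤ p}.Finite := by
  refine (Set.finite_range
    (fun q : PrimeSpectrum (T ⧸ J) => q.asIdeal.comap (Ideal.Quotient.mk J))).subset ?_
  rintro p ⟨hp, h⟩
  have hker : RingHom.ker (Ideal.Quotient.mk J) ≤ p := by rwa [Ideal.mk_ker]
  have hprime : (p.map (Ideal.Quotient.mk J)).IsPrime :=
    Ideal.map_isPrime_of_surjective Ideal.Quotient.mk_surjective hker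
  refine ⟨⟨_, hprime⟩, ?_⟩
  show (p.map (Ideal.Quotient.mk J)).comap (Ideal.Quotient.mk J) = p
  rw [Ideal.comap_map_of_surjective _ Ideal.Quotient.mk_surjective, ← RingHom.ker_eq_comap_bot]
  exact sup_eq_left.2 hker

end Quot

section Nil

variable (W : Type*) [CommRing W] {B : Type*} [CommRing B] [Algebra W B]
  (Λ : Type*) [CommRing Λ] [Algebra W Λ] (π : W)

/-- `P(Λ ⊗ B) ⊓ Q(Λ ⊗ B)` consists of nilpotent elements when `P ⊓ Q ⊆ π B` and `π` is nilpotent
in `Λ`. -/
theorem isNilpotent_of_mem_extI_inf (hπ : IsNilpotent (algebraMap W Λ π)) (P Q : Ideal B)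
    (hred : ∀ b ∈ P ⊓ Q, ∃ b' : B, b = π • b') :
    ∀ y ∈ extI W Λ P ⊓ extI W Λ Q, IsNilpotent y := by
  intro y hy
  have h1 : y * y ∈ extI W Λ (P * Q) := by
    rw [extI, Ideal.map_mul]
    exact Ideal.mul_mem_mul hy.1 hy.2
  have h2 : extI W Λ (P * Q) ≤ Ideal.span {algebraMap W Λ π ⊗ₜ[W] (1 : B)} := by
    rw [extI, Ideal.map_le_iff_le_comap]
    intro b hb
    obtain ⟨b', rfl⟩ := hred b (Ideal.mul_le_inf hb)
    rw [Ideal.mem_comap, Ideal.mem_span_singleton']
    refine ⟨(1 : Λ) ⊗ₜ[W] b', ?_⟩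
    rw [Algebra.TensorProduct.includeRight_apply, Algebra.TensorProduct.tmul_mul_tmul, one_mul,
      mul_one, TensorProduct.tmul_smul, TensorProduct.smul_tmul', Algebra.smul_def, mul_one]
  have h3 := h2 h1
  rw [Ideal.mem_span_singleton'] at h3
  obtain ⟨z, hz⟩ := h3
  have hnil : IsNilpotent (y * y) := by
    rw [← hz]
    have : IsNilpotent (algebraMap W Λ π ⊗ₜ[W] (1 : B)) := by
      obtain ⟨n, hn⟩ := hπ
      refine ⟨n, ?_⟩
      rw [Algebra.TensorProduct.tmul_pow, hn, TensorProduct.zero_tmul]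
    exact (Commute.all _ _).isNilpotent_mul_left this
  obtain ⟨n, hn⟩ := hnil
  refine ⟨2 * n, ?_⟩
  rw [pow_mul, pow_two, hn]

end Nil

section Sat

variable (W : Type*) [CommRing W] {B : Type*} [CommRing B] [Algebra W B]
  (Λ : Type*) [CommRing Λ] [Algebra W Λ] (π : W)

/-- membership in the extended ideal is the vanishing in `Λ ⊗ (B ⧸ P)` -/
theorem mem_extI_iff (P : Ideal B) (x : Λ ⊗[W] B) :
    x ∈ extI W Λ P ↔
      Algebra.TensorProduct.map (AlgHom.id W Λ) (Ideal.Quotient.mkₐ W P) x = 0 := by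
  have h := Algebra.TensorProduct.lTensor_ker (R := W) (A := Λ) (Ideal.Quotient.mkₐ W P)
    (Ideal.Quotient.mkₐ_surjective W P)
  have hk : RingHom.ker (Ideal.Quotient.mkₐ W P) = P := by
    ext y
    rw [RingHom.mem_ker]
    exact Ideal.Quotient.eq_zero_iff_mem
  rw [hk] at h
  rw [extI, ← h, RingHom.mem_ker]

/-- **Saturation over `Λ`**: if `s` is regular modulo `P ∋ π` (with `(π)` maximal), then `1 ⊗ s` is
regular modulo `P(Λ ⊗ B)`, for EVERY `W`-algebra `Λ`. -/
theorem mem_extI_of_mul_mem [hmax : (Ideal.span {π}).IsMaximal] (P : Ideal B)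
    (hπ : algebraMap W B π ∈ P) (s : B) (hs : ∀ x : B, s * x ∈ P → x ∈ P)
    (x : Λ ⊗[W] B) (hx : (1 : Λ) ⊗ₜ[W] s * x ∈ extI W Λ P) : x ∈ extI W Λ P := by
  rw [mem_extI_iff] at hx ⊢
  set φ := Algebra.TensorProduct.map (AlgHom.id W Λ) (Ideal.Quotient.mkₐ W P) with hφ
  set f : (B ⧸ P) →ₗ[W] (B ⧸ P) := LinearMap.mulLeft W (Ideal.Quotient.mk P s) with hf
  have hfinj : Function.Injective f := by
    rw [← LinearMap.ker_eq_bot, LinearMap.ker_eq_bot']
    intro y hy
    obtain ⟨y, rfl⟩ := Ideal.Quotient.mk_surjective y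
    rw [hf, LinearMap.mulLeft_apply, ← map_mul, Ideal.Quotient.eq_zero_iff_mem] at hy
    rw [Ideal.Quotient.eq_zero_iff_mem]
    exact hs y hy
  have hM : ∀ m : B ⧸ P, π • m = 0 := by
    intro m
    obtain ⟨m, rfl⟩ := Ideal.Quotient.mk_surjective m
    have : π • (Ideal.Quotient.mk P m) = Ideal.Quotient.mk P (algebraMap W B π * m) := by
      rw [map_mul, Algebra.smul_def]
      rfl
    rw [this, Ideal.Quotient.eq_zero_iff_mem]
    exact P.mul_mem_right _ hπ
  have hinj := injective_lTensor_of_smul_eq_zero_right π hM f hfinj Λ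
  have hmul : ∀ z : Λ ⊗[W] (B ⧸ P), f.lTensor Λ z = (1 : Λ) ⊗ₜ[W] (Ideal.Quotient.mk P s) * z := by
    intro z
    induction z using TensorProduct.induction_on with
    | zero => simp
    | add x y hx hy => rw [map_add, hx, hy, mul_add]
    | tmul a b =>
      rw [LinearMap.lTensor_tmul, hf, LinearMap.mulLeft_apply,
        Algebra.TensorProduct.tmul_mul_tmul, one_mul]
  apply hinj
  rw [hmul, map_zero]
  rw [map_mul] at hx
  exact hx

end Sat

section Noeth

variable (W : Type*) [CommRing W] (B : Type*) [CommRing B] [Algebra W B]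
  (Λ : Type*) [CommRing Λ] [Algebra W Λ]

theorem isNoetherianRing_tensor [Algebra.FiniteType W B] [IsNoetherianRing Λ] :
    IsNoetherianRing (Λ ⊗[W] B) :=
  Algebra.FiniteType.isNoetherianRing Λ (Λ ⊗[W] B)

/-- scoped instance form of `isNoetherianRing_tensor` -/
scoped instance (priority := 100) instIsNoetherianRingTensor98 [Algebra.FiniteType W B]
    [IsNoetherianRing Λ] : IsNoetherianRing (Λ ⊗[W] B) :=
  isNoetherianRing_tensor W B Λ

end Noeth

section Away

variable {T T' : Type*} [CommRing T] [CommRing T'] (r : T →+* T') (t : T)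
  (hloc : letI := r.toAlgebra; IsLocalization.Away t T')
include hloc

/-- contraction is injective on the ideals of a localisation -/
theorem comap_injective_of_away : Function.Injective (fun J : Ideal T' => J.comap r) := by
  letI := r.toAlgebra
  intro J J' h
  have h1 := IsLocalization.map_under (Submonoid.powers t) T' J
  have h2 := IsLocalization.map_under (Submonoid.powers t) T' J'
  rw [← h1, ← h2]
  exact congrArg (Ideal.map (algebraMap T T')) h

/-- a prime not containing `t` is the contraction of a prime of the localisation -/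
theorem exists_prime_of_away (p : Ideal T) [hp : p.IsPrime] (ht : t ∉ p) :
    ∃ p' : Ideal T', p'.IsPrime ∧ p'.comap r = p := by
  letI := r.toAlgebra
  have hd : Disjoint ((Submonoid.powers t : Submonoid T) : Set T) (p : Set T) := by
    rw [Set.disjoint_left]
    rintro x ⟨n, rfl⟩ hx
    exact ht (hp.mem_of_pow_mem n hx)
  exact ⟨p.map (algebraMap T T'),
    IsLocalization.isPrime_of_isPrime_disjoint (Submonoid.powers t) T' p hp hd,
    IsLocalization.under_map_of_isPrime_disjoint (Submonoid.powers t) T' hp hd⟩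

end Away

section AwayTensor

/-- `Λ ⊗ B[1/t]` is the localisation of `Λ ⊗ B` away from `1 ⊗ t` (algebra structures from the
ring maps, no instance needed). -/
theorem away_tmul {W B C : Type*} [CommRing W] [CommRing B] [CommRing C] [Algebra W B] [Algebra W C]
    (ρ : B →ₐ[W] C) (t : B)
    (h : letI := (ρ : B →+* C).toAlgebra; IsLocalization.Away t C)
    (Λ : Type*) [CommRing Λ] [Algebra W Λ] :
    letI := ((Algebra.TensorProduct.map (AlgHom.id Λ Λ) ρ : Λ ⊗[W] B →ₐ[Λ] Λ ⊗[W] C) :
      Λ ⊗[W] B →+* Λ ⊗[W] C).toAlgebra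
    IsLocalization.Away ((1 : Λ) ⊗ₜ[W] t) (Λ ⊗[W] C) := by
  letI algBC : Algebra B C := (ρ : B →+* C).toAlgebra
  have tower : IsScalarTower W B C :=
    IsScalarTower.of_algebraMap_eq (fun w => (ρ.commutes w).symm)
  letI alg : Algebra (Λ ⊗[W] B) (Λ ⊗[W] C) :=
    ((Algebra.TensorProduct.map (AlgHom.id Λ Λ) ρ : Λ ⊗[W] B →ₐ[Λ] Λ ⊗[W] C) :
      Λ ⊗[W] B →+* Λ ⊗[W] C).toAlgebra
  have tower2 : IsScalarTower Λ (Λ ⊗[W] B) (Λ ⊗[W] C) :=
    IsScalarTower.of_algebraMap_eq (fun a =>
      ((Algebra.TensorProduct.map (AlgHom.id Λ Λ) ρ).commutes a).symm)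
  have hloc : IsLocalization (Submonoid.powers t) C := h
  have := IsLocalization.tensorProduct_tensorProduct_right W Λ (Submonoid.powers t) C
    (by
      ext b
      show (Algebra.TensorProduct.map (AlgHom.id Λ Λ) ρ) ((1 : Λ) ⊗ₜ[W] b) = (1 : Λ) ⊗ₜ[W] ρ b
      simp)
  rw [Submonoid.map_powers] at this
  exact this

/-- an `IsLocalization.Away` for an `Algebra` instance, restated for the `toAlgebra` of a ring map
equal to the `algebraMap`. -/
theorem away_toAlgebra_of_eq {R S : Type*} [CommRing R] [CommRing S] [Algebra R S] (t : R)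
    [h : IsLocalization.Away t S] (ρ : R →+* S) (hρ : ∀ x, ρ x = algebraMap R S x) :
    letI := ρ.toAlgebra; IsLocalization.Away t S := by
  have : ρ = algebraMap R S := RingHom.ext hρ
  subst this
  have h2 : (algebraMap R S).toAlgebra = ‹Algebra R S› := Algebra.algebra_ext _ _ (fun _ => rfl)
  rw [h2]
  exact h

end AwayTensor

end Fermat.Agent.T1B.Toric98
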