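import Mathlib
import Fermat.Agent.T1B.Toric50.Glue

/-!
# T1B / TORIC50, brick TORIC-INST-ABS (helper98), chart level

`T` a noetherian ring, `Nil` a nil ideal (`Nil = ker (T → T̄)`, `T̄` the special fibre of the chart),
`s ∈ T`, `Ts = T[1/s]`, `P Q` two ideals of `T` (the two components of the special fibre, pulled back
to `T`) with `P ⊓ Q ≤ Nil` (reduced special fibre) and `s ^ k ∈ P ⊔ Q` (the components meet only on
`s = 0`), a finite family of pairwise distinct maximal ideals `n e` which are exactly the primes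
containing `s`.

* `exists_unique_branchIdem` : there is a unique idempotent `ε ∈ Ts` with `1 - ε ∈ P Ts`,
  `ε ∈ Q Ts` (the **branch idempotent**: `1` on the first component, `0` on the second).
* `exists_pow_regAt` : **(H-prim)** for every `x ∈ Ts` there is `M` such that `a • x` is regular at
  `n e` for all `a ∈ (n e) ^ M`.
* `exists_sep` : the separating functions `h e = χ_e • ε` (the hypothesis `sep` of `Glue.GlueData`).
* `injective_algebraMap_of_mem_nonZeroDivisors`.
-/

set_option autoImplicit false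

namespace Fermat.Agent.T1B.Toric98

open Fermat.Agent.T1B.Toric50.Glue

section Idem

variable {A : Type*} [CommRing A]

/-- an idempotent nilpotent element vanishes -/
theorem eq_zero_of_idem_of_isNilpotent {y : A} (hy : y * y = y) (hn : IsNilpotent y) : y = 0 := by
  obtain ⟨k, hk⟩ := hn
  have : ∀ j : ℕ, y ^ (j + 1) = y := by
    intro j
    induction j with
    | zero => simp
    | succ j ih => rw [pow_succ, ih, hy]
  cases k with
  | zero =>
    have h1 : (1 : A) = 0 := by simpa using hk
    calc y = y * 1 := (mul_one y).symm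
      _ = 0 := by rw [h1, mul_zero]
  | succ k => rw [← this k]; exact hk

/-- two idempotents of a commutative ring differing by a nilpotent element are equal -/
theorem idem_eq_of_isNilpotent_sub {e e' : A} (he : e * e = e) (he' : e' * e' = e')
    (hn : IsNilpotent (e - e')) : e = e' := by
  have h1 : e * (1 - e') = 0 := by
    apply eq_zero_of_idem_of_isNilpotent
    · have : e * (1 - e') * (e * (1 - e')) = (e * e) * (1 - e' - e' + e' * e') := by ring
      rw [this, he, he']; ring
    · have : e * (1 - e') = e * (e - e') := by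
        rw [mul_sub, mul_sub, mul_one, he]
      rw [this]
      exact (Commute.all e (e - e')).isNilpotent_mul_left hn
  have h2 : e' * (1 - e) = 0 := by
    apply eq_zero_of_idem_of_isNilpotent
    · have : e' * (1 - e) * (e' * (1 - e)) = (e' * e') * (1 - e - e + e * e) := by ring
      rw [this, he, he']; ring
    · have : e' * (1 - e) = -(e' * (e - e')) := by
        rw [mul_sub, mul_sub, mul_one, he']; ring
      rw [this]
      exact ((Commute.all e' (e - e')).isNilpotent_mul_left hn).neg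
  have h3 : e = e * e' := by linear_combination h1
  have h4 : e' = e * e' := by linear_combination h2
  rw [h3]; exact h4.symm

end Idem

section Chart

variable {T : Type*} [CommRing T] {Ts : Type*} [CommRing Ts] [Algebra T Ts]
  (s : T) [hloc : IsLocalization.Away s Ts]

include hloc in
/-- elements of `P Ts ⊓ Q Ts` are nilpotent when `P ⊓ Q` is nil -/
theorem isNilpotent_of_mem_map_inf (P Q : Ideal T) (hPQ : ∀ y ∈ P ⊓ Q, IsNilpotent y) {x : Ts}
    (hP : x ∈ P.map (algebraMap T Ts)) (hQ : x ∈ Q.map (algebraMap T Ts)) : IsNilpotent x := by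
  rw [IsLocalization.mem_map_algebraMap_iff (Submonoid.powers s)] at hP hQ
  obtain ⟨⟨p, u⟩, hp⟩ := hP
  obtain ⟨⟨q, v⟩, hq⟩ := hQ
  simp only at hp hq
  -- `p v = q u` in `Ts`
  have h1 : algebraMap T Ts ((p : T) * (v : T)) = algebraMap T Ts ((q : T) * (u : T)) := by
    rw [map_mul, map_mul, ← hp, ← hq]; ring
  obtain ⟨c, hc⟩ := (IsLocalization.eq_iff_exists (Submonoid.powers s) Ts).1 h1
  obtain ⟨y, hy⟩ : ∃ y : T, y = (c : T) * ((p : T) * (v : T)) := ⟨_, rfl⟩
  have hyP : y ∈ P := by rw [hy]; exact P.mul_mem_left _ (P.mul_mem_right _ p.2)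
  have hyQ : y ∈ Q := by rw [hy, hc]; exact Q.mul_mem_left _ (Q.mul_mem_right _ q.2)
  have hynil : IsNilpotent y := hPQ y ⟨hyP, hyQ⟩
  -- `x * (u v c) = y`
  have hxy : x * algebraMap T Ts ((u : T) * (v : T) * (c : T)) = algebraMap T Ts y := by
    rw [hy, map_mul, map_mul, map_mul, map_mul, ← hp]; ring
  have hunit : IsUnit (algebraMap T Ts ((u : T) * (v : T) * (c : T))) :=
    IsLocalization.map_units Ts (u * v * c)
  obtain ⟨w, hw⟩ := hunit
  have hx : x = algebraMap T Ts y * ((w⁻¹ : Tsˣ) : Ts) := by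
    rw [← hxy, ← hw, mul_assoc, Units.mul_inv, mul_one]
  rw [hx]
  exact (Commute.all _ _).isNilpotent_mul_right (hynil.map (algebraMap T Ts))

include hloc in
/-- **The branch idempotent** exists and is unique. -/
theorem exists_unique_branchIdem (P Q : Ideal T) (hPQ : ∀ y ∈ P ⊓ Q, IsNilpotent y)
    (hs : ∃ k : ℕ, s ^ k ∈ P ⊔ Q) :
    ∃! ε : Ts, ε * ε = ε ∧ 1 - ε ∈ P.map (algebraMap T Ts) ∧ ε ∈ Q.map (algebraMap T Ts) := by
  obtain ⟨k, hk⟩ := hs
  obtain ⟨p, hp, q, hq, hpq⟩ := Submodule.mem_sup.1 hk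
  have hsu : IsUnit (algebraMap T Ts (s ^ k)) :=
    IsLocalization.map_units Ts (⟨s ^ k, k, rfl⟩ : Submonoid.powers s)
  obtain ⟨w, hw⟩ := hsu
  set u : Ts := algebraMap T Ts p * ((w⁻¹ : Tsˣ) : Ts) with hu
  set v : Ts := algebraMap T Ts q * ((w⁻¹ : Tsˣ) : Ts) with hv
  have huP : u ∈ P.map (algebraMap T Ts) := Ideal.mul_mem_right _ _ (Ideal.mem_map_of_mem _ hp)
  have hvQ : v ∈ Q.map (algebraMap T Ts) := Ideal.mul_mem_right _ _ (Ideal.mem_map_of_mem _ hq)
  have huv : u + v = 1 := by
    rw [hu, hv, ← add_mul, ← map_add, hpq, ← hw, Units.mul_inv]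
  set I : Ideal Ts := P.map (algebraMap T Ts) ⊓ Q.map (algebraMap T Ts) with hI
  have hker : ∀ x ∈ RingHom.ker (Ideal.Quotient.mk I), IsNilpotent x := by
    intro x hx
    rw [Ideal.mk_ker] at hx
    exact isNilpotent_of_mem_map_inf s P Q hPQ hx.1 hx.2
  have hidem : IsIdempotentElem (Ideal.Quotient.mk I v) := by
    unfold IsIdempotentElem
    rw [← map_mul, Ideal.Quotient.eq]
    have : v * v - v = -(u * v) := by
      have : u = 1 - v := by linear_combination huv
      rw [this]; ring
    rw [this]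
    exact I.neg_mem ⟨Ideal.mul_mem_right _ _ huP, Ideal.mul_mem_left _ _ hvQ⟩
  obtain ⟨ε, hε, hεv⟩ := exists_isIdempotentElem_eq_of_ker_isNilpotent (Ideal.Quotient.mk I) hker
    _ ⟨v, rfl⟩ hidem
  have hεvI : ε - v ∈ I := Ideal.Quotient.eq.1 hεv
  refine ⟨ε, ⟨hε, ?_, ?_⟩, ?_⟩
  · have : 1 - ε = u - (ε - v) := by linear_combination -huv
    rw [this]
    exact Ideal.sub_mem _ huP hεvI.1
  · have : ε = v + (ε - v) := by ring
    rw [this]
    exact Ideal.add_mem _ hvQ hεvI.2
  · rintro ε' ⟨hε', h1, h2⟩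
    apply idem_eq_of_isNilpotent_sub hε' hε
    apply isNilpotent_of_mem_map_inf s P Q hPQ
    · have : ε' - ε = (1 - ε) - (1 - ε') := by ring
      rw [this]
      have hε1 : 1 - ε ∈ P.map (algebraMap T Ts) := by
        have : 1 - ε = u - (ε - v) := by linear_combination -huv
        rw [this]
        exact Ideal.sub_mem _ huP hεvI.1
      exact Ideal.sub_mem _ hε1 h1
    · have hε2 : ε ∈ Q.map (algebraMap T Ts) := by
        have : ε = v + (ε - v) := by ring
        rw [this]
        exact Ideal.add_mem _ hvQ hεvI.2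
      exact Ideal.sub_mem _ h2 hε2

include hloc in
theorem injective_algebraMap_of_mem_nonZeroDivisors (hs : s ∈ nonZeroDivisors T) :
    Function.Injective (algebraMap T Ts) :=
  IsLocalization.injective Ts (Submonoid.powers_le.2 hs)

variable {E : Type*} [Fintype E] [DecidableEq E] (n : E → Ideal T)

/-- an element of all the other nodes which does not lie in `n e` -/
theorem exists_mem_inf_erase_notMem (hmax : ∀ e, (n e).IsMaximal) (hinj : Function.Injective n)
    (e : E) : ∃ y : T, y ∈ (Finset.univ.erase e).inf n ∧ y ∉ n e := by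
  by_contra hcon
  push Not at hcon
  have hle : (Finset.univ.erase e).inf n ≤ n e := fun y hy => hcon y hy
  obtain ⟨e', he', hle'⟩ := ((hmax e).isPrime.inf_le').1 hle
  have : n e' = n e := (hmax e').eq_of_le (hmax e).ne_top hle'
  exact (Finset.ne_of_mem_erase he') (hinj this)

variable [IsNoetherianRing T]

include hloc in
/-- **(H-prim)**: functions vanishing to high order at a node kill the poles of any `x ∈ T[1/s]`
there. -/
theorem exists_pow_regAt (hmax : ∀ e, (n e).IsMaximal) (hinj : Function.Injective n)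
    (hprime : ∀ p : Ideal T, p.IsPrime → s ∈ p → ∃ e, p = n e) (x : Ts) :
    ∃ M : ℕ, ∀ e, ∀ a ∈ (n e) ^ M, RegAt (n e) ⊤ (algebraMap T Ts a * x) := by
  obtain ⟨⟨c0, sk⟩, hx⟩ := IsLocalization.surj (Submonoid.powers s) x
  obtain ⟨k, hk⟩ := sk.2
  have hk' : (sk : T) = s ^ k := hk.symm
  simp only at hx
  rw [hk'] at hx
  -- `J = ⨅ n e ≤ radical (s^k)`
  set J : Ideal T := Finset.univ.inf n with hJ
  have hJrad : J ≤ (Ideal.span {s ^ k}).radical := by
    rw [Ideal.radical_eq_sInf, le_sInf_iff]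
    rintro p ⟨hsp, hp⟩
    have hsk : s ^ k ∈ p := hsp (Ideal.subset_span rfl)
    obtain ⟨e, rfl⟩ := hprime p hp (hp.mem_of_pow_mem _ hsk)
    exact Finset.inf_le (Finset.mem_univ e)
  obtain ⟨M, hM⟩ := (Ideal.span {s ^ k}).exists_radical_pow_le_of_fg
    (Ideal.span {s ^ k}).radical.fg_of_isNoetherianRing
  have hJM : J ^ M ≤ Ideal.span {s ^ k} := (Ideal.pow_right_mono hJrad M).trans hM
  refine ⟨M, fun e a ha => ?_⟩
  obtain ⟨y, hy, hye⟩ := exists_mem_inf_erase_notMem n hmax hinj e
  have hprime_e : (n e).IsPrime := (hmax e).isPrime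
  have hda : y ^ M * a ∈ J ^ M := by
    have h1 : y ^ M * a ∈ ((Finset.univ.erase e).inf n) ^ M * (n e) ^ M :=
      Ideal.mul_mem_mul (Ideal.pow_mem_pow hy M) ha
    rw [← mul_pow] at h1
    refine Ideal.pow_right_mono ?_ M h1
    refine Ideal.mul_le_inf.trans ?_
    rw [hJ]
    refine Finset.le_inf fun e' _ => ?_
    by_cases h : e' = e
    · rw [h]; exact inf_le_right
    · exact inf_le_left.trans (Finset.inf_le (Finset.mem_erase.2 ⟨h, Finset.mem_univ e'⟩))
  obtain ⟨b, hb⟩ := Ideal.mem_span_singleton'.1 (hJM hda)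
  refine ⟨y ^ M, fun h => hye (hprime_e.mem_of_pow_mem _ h), b * c0, trivial, ?_⟩
  calc algebraMap T Ts (y ^ M) * (algebraMap T Ts a * x)
      = algebraMap T Ts (y ^ M * a) * x := by rw [map_mul]; ring
    _ = algebraMap T Ts (b * s ^ k) * x := by rw [hb]
    _ = algebraMap T Ts b * (x * algebraMap T Ts (s ^ k)) := by rw [map_mul]; ring
    _ = algebraMap T Ts (b * c0) := by rw [hx, map_mul]

include hloc in
/-- **Separating functions** `h e = χ_e • ε`. -/
theorem exists_sep (hmax : ∀ e, (n e).IsMaximal) (hinj : Function.Injective n)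
    (hprime : ∀ p : Ideal T, p.IsPrime → s ∈ p → ∃ e, p = n e) (ε : Ts) (hε : ε * ε = ε) :
    ∀ e, ∃ h : Ts, h * ε = h ∧ RegAt (n e) ⊤ (h - ε) ∧ ∀ e', e' ≠ e → RegAt (n e') ⊤ h := by
  obtain ⟨M, hM⟩ := exists_pow_regAt s n hmax hinj hprime ε
  intro e
  have hcop : Pairwise (Function.onFun IsCoprime fun e => (n e) ^ M) := by
    intro e1 e2 h12
    have := hmax e1
    have := hmax e2
    exact (Ideal.isCoprime_of_isMaximal (fun h => h12 (hinj h))).pow
  obtain ⟨χ, hχ⟩ := Ideal.exists_forall_sub_mem_ideal hcop (fun e' => if e' = e then (1 : T) else 0)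
  refine ⟨algebraMap T Ts χ * ε, by rw [mul_assoc, hε], ?_, fun e' he' => ?_⟩
  · have h1 := hχ e
    rw [if_pos rfl] at h1
    have : algebraMap T Ts χ * ε - ε = algebraMap T Ts (χ - 1) * ε := by
      rw [map_sub, map_one]; ring
    rw [this]
    exact hM e _ h1
  · have h1 := hχ e'
    rw [if_neg he', sub_zero] at h1
    exact hM e' _ h1

end Chart

end Fermat.Agent.T1B.Toric98
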