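import Mathlib
import Fermat.Agent.T1B.Toric98.GlueChart

/-!
# T1B / TORIC50, brick TORIC-INST-ABS (helper98): the three-chart assembly into `Glue.GlueData`

`branchIdem s P Q hPQ hs : Ts` is the branch idempotent of a chart (`GlueChart.exists_unique_branchIdem`)
with its characterisation `branchIdem_unique`.  `glueData` assembles, for a Čech package
`Pk : Pkg Λ T0 T1 T01 g` with noetherian charts, the data of `Toric50.Glue.GlueData` from
special-fibre hypotheses: ideals `P01 Q01 ⊂ T01` (the two components; `P_j = r_j⁻¹ P01`), nodes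
`n01 e ⊂ T01` (`n_j e = r_j⁻¹ (n01 e)`), supersingular functions `s_j` with `r_j s_j` a unit of
`S01 = T01[1/s01]`.
-/

set_option autoImplicit false
set_option linter.unusedSectionVars false
set_option linter.style.haveILetI false

namespace Fermat.Agent.T1B.Toric98

open Fermat.Agent.T1B.Toric50.Glue Fermat.Agent.T1.CechFormal70

section BranchIdem

variable {T : Type*} [CommRing T] {Ts : Type*} [CommRing Ts] [Algebra T Ts]
  (s : T) [hloc : IsLocalization.Away s Ts]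

/-- The branch idempotent of a chart: `1` on the first component, `0` on the second. -/
noncomputable def branchIdem (P Q : Ideal T) (hPQ : ∀ y ∈ P ⊓ Q, IsNilpotent y)
    (hs : ∃ k : ℕ, s ^ k ∈ P ⊔ Q) : Ts :=
  (exists_unique_branchIdem (Ts := Ts) s P Q hPQ hs).exists.choose

variable (P Q : Ideal T) (hPQ : ∀ y ∈ P ⊓ Q, IsNilpotent y) (hs : ∃ k : ℕ, s ^ k ∈ P ⊔ Q)

theorem branchIdem_idem :
    branchIdem (Ts := Ts) s P Q hPQ hs * branchIdem (Ts := Ts) s P Q hPQ hs =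
      branchIdem (Ts := Ts) s P Q hPQ hs :=
  (exists_unique_branchIdem (Ts := Ts) s P Q hPQ hs).exists.choose_spec.1

theorem one_sub_branchIdem_mem :
    1 - branchIdem (Ts := Ts) s P Q hPQ hs ∈ P.map (algebraMap T Ts) :=
  (exists_unique_branchIdem (Ts := Ts) s P Q hPQ hs).exists.choose_spec.2.1

theorem branchIdem_mem : branchIdem (Ts := Ts) s P Q hPQ hs ∈ Q.map (algebraMap T Ts) :=
  (exists_unique_branchIdem (Ts := Ts) s P Q hPQ hs).exists.choose_spec.2.2

/-- **Uniqueness of the branch idempotent.** -/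
theorem branchIdem_unique {ε : Ts} (h1 : ε * ε = ε) (h2 : 1 - ε ∈ P.map (algebraMap T Ts))
    (h3 : ε ∈ Q.map (algebraMap T Ts)) : ε = branchIdem (Ts := Ts) s P Q hPQ hs :=
  (exists_unique_branchIdem (Ts := Ts) s P Q hPQ hs).unique ⟨h1, h2, h3⟩
    ⟨branchIdem_idem s P Q hPQ hs, one_sub_branchIdem_mem s P Q hPQ hs,
      branchIdem_mem s P Q hPQ hs⟩

end BranchIdem

section Transport

variable {T T' : Type*} [CommRing T] [CommRing T'] {Ts Ts' : Type*} [CommRing Ts] [CommRing Ts']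
  [Algebra T Ts] [Algebra T' Ts']

/-- the image of `I Ts` under a map of localised charts lies in `I' Ts'` -/
theorem map_mem_map_of_comm (r : T →+* T') (q : Ts →+* Ts')
    (hq : ∀ x, q (algebraMap T Ts x) = algebraMap T' Ts' (r x)) (I : Ideal T) (I' : Ideal T')
    (hI : ∀ x ∈ I, r x ∈ I') {x : Ts} (hx : x ∈ I.map (algebraMap T Ts)) :
    q x ∈ I'.map (algebraMap T' Ts') := by
  have h1 : I.map (algebraMap T Ts) ≤ (I'.map (algebraMap T' Ts')).comap q := by
    rw [Ideal.map_le_iff_le_comap]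
    intro y hy
    rw [Ideal.mem_comap, Ideal.mem_comap, hq]
    exact Ideal.mem_map_of_mem _ (hI y hy)
  exact h1 hx

/-- **The branch idempotent is functorial** (base change, restriction to the overlap, Galois
twists): any ring map of localised charts compatible with the component ideals carries the branch
idempotent to the branch idempotent. -/
theorem map_branchIdem (s : T) [IsLocalization.Away s Ts] (s' : T') [IsLocalization.Away s' Ts']
    (r : T →+* T') (q : Ts →+* Ts')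
    (hq : ∀ x, q (algebraMap T Ts x) = algebraMap T' Ts' (r x))
    (P Q : Ideal T) (hPQ : ∀ y ∈ P ⊓ Q, IsNilpotent y) (hs : ∃ k : ℕ, s ^ k ∈ P ⊔ Q)
    (P' Q' : Ideal T') (hPQ' : ∀ y ∈ P' ⊓ Q', IsNilpotent y) (hs' : ∃ k : ℕ, s' ^ k ∈ P' ⊔ Q')
    (hP : ∀ x ∈ P, r x ∈ P') (hQ : ∀ x ∈ Q, r x ∈ Q') :
    q (branchIdem (Ts := Ts) s P Q hPQ hs) = branchIdem (Ts := Ts') s' P' Q' hPQ' hs' := by
  apply branchIdem_unique
  · rw [← map_mul, branchIdem_idem]
  · have := map_mem_map_of_comm r q hq P P' hP (one_sub_branchIdem_mem (Ts := Ts) s P Q hPQ hs)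
    rwa [map_sub, map_one] at this
  · exact map_mem_map_of_comm r q hq Q Q' hQ (branchIdem_mem (Ts := Ts) s P Q hPQ hs)

end Transport

section Assembly

variable {Λ : Type*} [CommRing Λ]
variable {T0 T1 T01 : Type*} [CommRing T0] [CommRing T1] [CommRing T01]
  [Algebra Λ T0] [Algebra Λ T1] [Algebra Λ T01] {g : ℕ}
variable (S0 S1 S01 : Type*) [CommRing S0] [CommRing S1] [CommRing S01]
  [Algebra T0 S0] [Algebra T1 S1] [Algebra T01 S01]
  [Algebra Λ S0] [Algebra Λ S1] [Algebra Λ S01]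
  [IsScalarTower Λ T0 S0] [IsScalarTower Λ T1 S1] [IsScalarTower Λ T01 S01]
  [IsNoetherianRing T0] [IsNoetherianRing T1] [IsNoetherianRing T01]

/-- The hypotheses of the three-chart assembly.  `P_j, Q_j ⊂ T_j` are ideals of functions vanishing
on the first/second component of the special fibre (only `P_j ⊓ Q_j ⊆ nilradical`,
`s_j^k ∈ P_j + Q_j` and the compatibility `r_j P_j ⊆ P01`, `r_j Q_j ⊆ Q01` are used; the branch
idempotents do not depend on the choice).  The index set `E` may contain more points than the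
nodes: only "every prime containing `s_j` is some `n_j e`" is required. -/
structure GlueInput (Pk : Pkg Λ T0 T1 T01 g) (E : Type*) where
  s0 : T0
  s1 : T1
  s01 : T01
  loc0 : IsLocalization.Away s0 S0
  loc1 : IsLocalization.Away s1 S1
  loc01 : IsLocalization.Away s01 S01
  unit0 : IsUnit (algebraMap T01 S01 (Pk.r0 s0))
  unit1 : IsUnit (algebraMap T01 S01 (Pk.r1 s1))
  /-- functions vanishing on the first component of the special fibre -/
  P0 : Ideal T0
  P1 : Ideal T1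
  P01 : Ideal T01
  /-- functions vanishing on the second component -/
  Q0 : Ideal T0
  Q1 : Ideal T1
  Q01 : Ideal T01
  hP0 : ∀ x ∈ P0, Pk.r0 x ∈ P01
  hQ0 : ∀ x ∈ Q0, Pk.r0 x ∈ Q01
  hP1 : ∀ x ∈ P1, Pk.r1 x ∈ P01
  hQ1 : ∀ x ∈ Q1, Pk.r1 x ∈ Q01
  nil0 : ∀ y ∈ P0 ⊓ Q0, IsNilpotent y
  nil1 : ∀ y ∈ P1 ⊓ Q1, IsNilpotent y
  nil01 : ∀ y ∈ P01 ⊓ Q01, IsNilpotent y
  meet0 : ∃ k : ℕ, s0 ^ k ∈ P0 ⊔ Q0
  meet1 : ∃ k : ℕ, s1 ^ k ∈ P1 ⊔ Q1
  meet01 : ∃ k : ℕ, s01 ^ k ∈ P01 ⊔ Q01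
  /-- the points of `V(s01)` (nodes and possibly more), as maximal ideals of the overlap -/
  n01 : E → Ideal T01
  max01 : ∀ e, (n01 e).IsMaximal
  max0 : ∀ e, ((n01 e).comap (Pk.r0 : T0 →+* T01)).IsMaximal
  max1 : ∀ e, ((n01 e).comap (Pk.r1 : T1 →+* T01)).IsMaximal
  inj01 : Function.Injective n01
  inj0 : Function.Injective fun e => (n01 e).comap (Pk.r0 : T0 →+* T01)
  inj1 : Function.Injective fun e => (n01 e).comap (Pk.r1 : T1 →+* T01)
  prime01 : ∀ p : Ideal T01, p.IsPrime → s01 ∈ p → ∃ e, p = n01 e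
  prime0 : ∀ p : Ideal T0, p.IsPrime → s0 ∈ p → ∃ e, p = (n01 e).comap (Pk.r0 : T0 →+* T01)
  prime1 : ∀ p : Ideal T1, p.IsPrime → s1 ∈ p → ∃ e, p = (n01 e).comap (Pk.r1 : T1 →+* T01)
  reg01 : s01 ∈ nonZeroDivisors T01

variable {S0 S1 S01}
variable {Pk : Pkg Λ T0 T1 T01 g} {E : Type*} [Fintype E] [DecidableEq E]

namespace GlueInput

variable (G : GlueInput S0 S1 S01 Pk E)

/-- the branch idempotent of the chart `0` -/
noncomputable def ε0 : S0 :=
  haveI := G.loc0
  branchIdem (Ts := S0) G.s0 G.P0 G.Q0 G.nil0 G.meet0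

/-- the branch idempotent of the chart `1` -/
noncomputable def ε1 : S1 :=
  haveI := G.loc1
  branchIdem (Ts := S1) G.s1 G.P1 G.Q1 G.nil1 G.meet1

/-- the branch idempotent of the overlap -/
noncomputable def ε01 : S01 :=
  haveI := G.loc01
  branchIdem (Ts := S01) G.s01 G.P01 G.Q01 G.nil01 G.meet01

/-- restriction `S0 → S01` -/
noncomputable def q0 : S0 →+* S01 :=
  haveI := G.loc0
  IsLocalization.Away.lift (S := S0) G.s0 (g := (algebraMap T01 S01).comp (Pk.r0 : T0 →+* T01))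
    G.unit0

/-- restriction `S1 → S01` -/
noncomputable def q1 : S1 →+* S01 :=
  haveI := G.loc1
  IsLocalization.Away.lift (S := S1) G.s1 (g := (algebraMap T01 S01).comp (Pk.r1 : T1 →+* T01))
    G.unit1

theorem q0_comm (x : T0) : G.q0 (algebraMap T0 S0 x) = algebraMap T01 S01 (Pk.r0 x) := by
  haveI := G.loc0
  exact IsLocalization.Away.lift_eq (S := S0) G.s0 G.unit0 x

theorem q1_comm (x : T1) : G.q1 (algebraMap T1 S1 x) = algebraMap T01 S01 (Pk.r1 x) := by
  haveI := G.loc1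
  exact IsLocalization.Away.lift_eq (S := S1) G.s1 G.unit1 x

theorem q0_ε : G.q0 G.ε0 = G.ε01 := by
  haveI := G.loc0
  haveI := G.loc01
  exact map_branchIdem G.s0 G.s01 (Pk.r0 : T0 →+* T01) G.q0 G.q0_comm _ _ G.nil0 G.meet0 _ _
    G.nil01 G.meet01 G.hP0 G.hQ0

theorem q1_ε : G.q1 G.ε1 = G.ε01 := by
  haveI := G.loc1
  haveI := G.loc01
  exact map_branchIdem G.s1 G.s01 (Pk.r1 : T1 →+* T01) G.q1 G.q1_comm _ _ G.nil1 G.meet1 _ _
    G.nil01 G.meet01 G.hP1 G.hQ1

theorem ε0_idem : G.ε0 * G.ε0 = G.ε0 := by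
  haveI := G.loc0
  exact branchIdem_idem (Ts := S0) G.s0 _ _ G.nil0 G.meet0

theorem ε1_idem : G.ε1 * G.ε1 = G.ε1 := by
  haveI := G.loc1
  exact branchIdem_idem (Ts := S1) G.s1 _ _ G.nil1 G.meet1

theorem ε01_idem : G.ε01 * G.ε01 = G.ε01 := by
  haveI := G.loc01
  exact branchIdem_idem (Ts := S01) G.s01 _ _ G.nil01 G.meet01

theorem one_sub_ε0_mem : 1 - G.ε0 ∈ G.P0.map (algebraMap T0 S0) := by
  haveI := G.loc0
  exact one_sub_branchIdem_mem (Ts := S0) G.s0 _ _ G.nil0 G.meet0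

theorem one_sub_ε1_mem : 1 - G.ε1 ∈ G.P1.map (algebraMap T1 S1) := by
  haveI := G.loc1
  exact one_sub_branchIdem_mem (Ts := S1) G.s1 _ _ G.nil1 G.meet1

theorem one_sub_ε01_mem : 1 - G.ε01 ∈ G.P01.map (algebraMap T01 S01) := by
  haveI := G.loc01
  exact one_sub_branchIdem_mem (Ts := S01) G.s01 _ _ G.nil01 G.meet01

theorem ε0_mem : G.ε0 ∈ G.Q0.map (algebraMap T0 S0) := by
  haveI := G.loc0
  exact branchIdem_mem (Ts := S0) G.s0 _ _ G.nil0 G.meet0

theorem ε1_mem : G.ε1 ∈ G.Q1.map (algebraMap T1 S1) := by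
  haveI := G.loc1
  exact branchIdem_mem (Ts := S1) G.s1 _ _ G.nil1 G.meet1

theorem ε01_mem : G.ε01 ∈ G.Q01.map (algebraMap T01 S01) := by
  haveI := G.loc01
  exact branchIdem_mem (Ts := S01) G.s01 _ _ G.nil01 G.meet01

/-- **TORIC-INST-ABS**: the gluing data of the toric map. -/
noncomputable def glueData : GlueData S0 S1 S01 Pk E where
  n0 e := (G.n01 e).comap (Pk.r0 : T0 →+* T01)
  n1 e := (G.n01 e).comap (Pk.r1 : T1 →+* T01)
  n01 := G.n01
  prime0 e := (G.max0 e).isPrime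
  prime1 e := (G.max1 e).isPrime
  prime01 e := (G.max01 e).isPrime
  s0 := G.s0
  s1 := G.s1
  s01 := G.s01
  loc0 := G.loc0
  loc1 := G.loc1
  loc01 := G.loc01
  max0 M hM hs := G.prime0 M hM.isPrime hs
  max1 M hM hs := G.prime1 M hM.isPrime hs
  max01 M hM hs := G.prime01 M hM.isPrime hs
  ε0 := G.ε0
  ε1 := G.ε1
  ε01 := G.ε01
  idem0 := by
    haveI := G.loc0
    exact branchIdem_idem (Ts := S0) G.s0 _ _ G.nil0 G.meet0
  idem1 := by
    haveI := G.loc1
    exact branchIdem_idem (Ts := S1) G.s1 _ _ G.nil1 G.meet1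
  idem01 := by
    haveI := G.loc01
    exact branchIdem_idem (Ts := S01) G.s01 _ _ G.nil01 G.meet01
  q0 := G.q0
  q1 := G.q1
  q0_comm := G.q0_comm
  q1_comm := G.q1_comm
  q0_ε := G.q0_ε
  q1_ε := G.q1_ε
  n0_eq _ := rfl
  n1_eq _ := rfl
  sep0 := by
    haveI := G.loc0
    exact exists_sep (Ts := S0) G.s0 _ G.max0 G.inj0 G.prime0 G.ε0
      (branchIdem_idem (Ts := S0) G.s0 _ _ G.nil0 G.meet0)
  sep1 := by
    haveI := G.loc1
    exact exists_sep (Ts := S1) G.s1 _ G.max1 G.inj1 G.prime1 G.ε1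
      (branchIdem_idem (Ts := S1) G.s1 _ _ G.nil1 G.meet1)
  inj01 := by
    haveI := G.loc01
    exact injective_algebraMap_of_mem_nonZeroDivisors (Ts := S01) G.s01 G.reg01

@[simp] theorem glueData_ε0 : G.glueData.ε0 = G.ε0 := rfl
@[simp] theorem glueData_ε1 : G.glueData.ε1 = G.ε1 := rfl
@[simp] theorem glueData_ε01 : G.glueData.ε01 = G.ε01 := rfl
@[simp] theorem glueData_q0 : G.glueData.q0 = G.q0 := rfl
@[simp] theorem glueData_q1 : G.glueData.q1 = G.q1 := rfl
@[simp] theorem glueData_n01 : G.glueData.n01 = G.n01 := rfl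
@[simp] theorem glueData_s0 : G.glueData.s0 = G.s0 := rfl
@[simp] theorem glueData_s1 : G.glueData.s1 = G.s1 := rfl
@[simp] theorem glueData_s01 : G.glueData.s01 = G.s01 := rfl
theorem glueData_n0 (e : E) :
    G.glueData.n0 e = (G.n01 e).comap (Pk.r0 : T0 →+* T01) := rfl
theorem glueData_n1 (e : E) :
    G.glueData.n1 e = (G.n01 e).comap (Pk.r1 : T1 →+* T01) := rfl

end GlueInput

end Assembly

end Fermat.Agent.T1B.Toric98
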