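import Mathlib
import Fermat.Agent.T1B.Toric98.GlueAssembly
import Fermat.Agent.T1B.Toric50.Transport

/-!
# T1B / TORIC50 (helper98): naturality of `GlueInput.glueData`

For two `GlueInput`s `G`, `G'` over packages `Pk`, `Pk'`, a morphism of packages `h : PkgHom Pk Pk' f`
carrying `s_j` to `s_j'`, `P_j` into `P_j'`, `Q_j` into `Q_j'`, and a contraction map `c : E' → E`
of the index sets (`(n01' e').comap h.t01 = n01 (c e')`), `GlueInput.glueHomC` is the morphism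
`GlueHomC G.glueData G'.glueData h c` of helper50's `Toric50/Transport.lean`; hence
`Pkg.JhatMap h hmm (G.glueData.iota hm z) = G'.glueData.iota hm' (z ∘ c)`.
-/

set_option autoImplicit false
set_option linter.unusedSectionVars false
set_option linter.style.haveILetI false

namespace Fermat.Agent.T1B.Toric98

open Fermat.Agent.T1B.Toric50.Glue Fermat.Agent.T1.CechFormal70

section Nat

variable {Λ : Type*} [CommRing Λ]
variable {T0 T1 T01 : Type*} [CommRing T0] [CommRing T1] [CommRing T01]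
  [Algebra Λ T0] [Algebra Λ T1] [Algebra Λ T01] {g : ℕ}
variable {S0 S1 S01 : Type*} [CommRing S0] [CommRing S1] [CommRing S01]
  [Algebra T0 S0] [Algebra T1 S1] [Algebra T01 S01]
  [Algebra Λ S0] [Algebra Λ S1] [Algebra Λ S01]
  [IsScalarTower Λ T0 S0] [IsScalarTower Λ T1 S1] [IsScalarTower Λ T01 S01]
  [IsNoetherianRing T0] [IsNoetherianRing T1] [IsNoetherianRing T01]
variable {Λ' : Type*} [CommRing Λ']
variable {T0' T1' T01' : Type*} [CommRing T0'] [CommRing T1'] [CommRing T01']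
  [Algebra Λ' T0'] [Algebra Λ' T1'] [Algebra Λ' T01']
variable {S0' S1' S01' : Type*} [CommRing S0'] [CommRing S1'] [CommRing S01']
  [Algebra T0' S0'] [Algebra T1' S1'] [Algebra T01' S01']
  [Algebra Λ' S0'] [Algebra Λ' S1'] [Algebra Λ' S01']
  [IsScalarTower Λ' T0' S0'] [IsScalarTower Λ' T1' S1'] [IsScalarTower Λ' T01' S01']
  [IsNoetherianRing T0'] [IsNoetherianRing T1'] [IsNoetherianRing T01']
variable {Pk : Pkg Λ T0 T1 T01 g} {Pk' : Pkg Λ' T0' T1' T01' g} {E E' : Type*}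
  [Fintype E] [DecidableEq E] [Fintype E'] [DecidableEq E']

namespace GlueInput

variable (G : GlueInput S0 S1 S01 Pk E) (G' : GlueInput S0' S1' S01' Pk' E') {f : Λ →+* Λ'}
  (h : PkgHom Pk Pk' f)

/-- the induced map `S0 → S0'` -/
noncomputable def k0 (hs0 : h.t0 G.s0 = G'.s0) : S0 →+* S0' :=
  haveI := G.loc0
  haveI := G'.loc0
  IsLocalization.Away.lift (S := S0) G.s0 (g := (algebraMap T0' S0').comp h.t0) (by
    rw [RingHom.comp_apply, hs0]
    exact IsLocalization.Away.algebraMap_isUnit G'.s0)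

/-- the induced map `S1 → S1'` -/
noncomputable def k1 (hs1 : h.t1 G.s1 = G'.s1) : S1 →+* S1' :=
  haveI := G.loc1
  haveI := G'.loc1
  IsLocalization.Away.lift (S := S1) G.s1 (g := (algebraMap T1' S1').comp h.t1) (by
    rw [RingHom.comp_apply, hs1]
    exact IsLocalization.Away.algebraMap_isUnit G'.s1)

/-- the induced map `S01 → S01'` -/
noncomputable def k01 (hs01 : h.t01 G.s01 = G'.s01) : S01 →+* S01' :=
  haveI := G.loc01
  haveI := G'.loc01
  IsLocalization.Away.lift (S := S01) G.s01 (g := (algebraMap T01' S01').comp h.t01) (by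
    rw [RingHom.comp_apply, hs01]
    exact IsLocalization.Away.algebraMap_isUnit G'.s01)

theorem k0_comm (hs0 : h.t0 G.s0 = G'.s0) (x : T0) :
    G.k0 G' h hs0 (algebraMap T0 S0 x) = algebraMap T0' S0' (h.t0 x) := by
  haveI := G.loc0
  exact IsLocalization.Away.lift_eq (S := S0) G.s0 _ x

theorem k1_comm (hs1 : h.t1 G.s1 = G'.s1) (x : T1) :
    G.k1 G' h hs1 (algebraMap T1 S1 x) = algebraMap T1' S1' (h.t1 x) := by
  haveI := G.loc1
  exact IsLocalization.Away.lift_eq (S := S1) G.s1 _ x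

theorem k01_comm (hs01 : h.t01 G.s01 = G'.s01) (x : T01) :
    G.k01 G' h hs01 (algebraMap T01 S01 x) = algebraMap T01' S01' (h.t01 x) := by
  haveI := G.loc01
  exact IsLocalization.Away.lift_eq (S := S01) G.s01 _ x

theorem k_q0 (hs0 : h.t0 G.s0 = G'.s0) (hs01 : h.t01 G.s01 = G'.s01) (x : S0) :
    G.k01 G' h hs01 (G.q0 x) = G'.q0 (G.k0 G' h hs0 x) := by
  haveI := G.loc0
  have : (G.k01 G' h hs01).comp G.q0 = G'.q0.comp (G.k0 G' h hs0) := by
    apply IsLocalization.ringHom_ext (Submonoid.powers G.s0)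
    ext y
    simp only [RingHom.comp_apply]
    rw [G.q0_comm, k01_comm, k0_comm, G'.q0_comm, h.r0_comm]
  exact congrArg (fun φ => φ x) this

theorem k_q1 (hs1 : h.t1 G.s1 = G'.s1) (hs01 : h.t01 G.s01 = G'.s01) (x : S1) :
    G.k01 G' h hs01 (G.q1 x) = G'.q1 (G.k1 G' h hs1 x) := by
  haveI := G.loc1
  have : (G.k01 G' h hs01).comp G.q1 = G'.q1.comp (G.k1 G' h hs1) := by
    apply IsLocalization.ringHom_ext (Submonoid.powers G.s1)
    ext y
    simp only [RingHom.comp_apply]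
    rw [G.q1_comm, k01_comm, k1_comm, G'.q1_comm, h.r1_comm]
  exact congrArg (fun φ => φ x) this

theorem k0_ε (hs0 : h.t0 G.s0 = G'.s0) (hP : ∀ x ∈ G.P0, h.t0 x ∈ G'.P0)
    (hQ : ∀ x ∈ G.Q0, h.t0 x ∈ G'.Q0) : G.k0 G' h hs0 G.ε0 = G'.ε0 := by
  haveI := G.loc0
  haveI := G'.loc0
  exact map_branchIdem G.s0 G'.s0 h.t0 (G.k0 G' h hs0) (G.k0_comm G' h hs0) _ _ G.nil0 G.meet0
    _ _ G'.nil0 G'.meet0 hP hQ

theorem k1_ε (hs1 : h.t1 G.s1 = G'.s1) (hP : ∀ x ∈ G.P1, h.t1 x ∈ G'.P1)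
    (hQ : ∀ x ∈ G.Q1, h.t1 x ∈ G'.Q1) : G.k1 G' h hs1 G.ε1 = G'.ε1 := by
  haveI := G.loc1
  haveI := G'.loc1
  exact map_branchIdem G.s1 G'.s1 h.t1 (G.k1 G' h hs1) (G.k1_comm G' h hs1) _ _ G.nil1 G.meet1
    _ _ G'.nil1 G'.meet1 hP hQ

theorem k01_ε (hs01 : h.t01 G.s01 = G'.s01) (hP : ∀ x ∈ G.P01, h.t01 x ∈ G'.P01)
    (hQ : ∀ x ∈ G.Q01, h.t01 x ∈ G'.Q01) : G.k01 G' h hs01 G.ε01 = G'.ε01 := by
  haveI := G.loc01
  haveI := G'.loc01
  exact map_branchIdem G.s01 G'.s01 h.t01 (G.k01 G' h hs01) (G.k01_comm G' h hs01) _ _ G.nil01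
    G.meet01 _ _ G'.nil01 G'.meet01 hP hQ

/-- **Naturality of the assembly**: the morphism of gluing data induced by a morphism of packages
compatible with the inputs; `c : E' → E` is the contraction of the points of `V(s01)`. -/
noncomputable def glueHomC (c : E' → E)
    (hs0 : h.t0 G.s0 = G'.s0) (hs1 : h.t1 G.s1 = G'.s1) (hs01 : h.t01 G.s01 = G'.s01)
    (hP0 : ∀ x ∈ G.P0, h.t0 x ∈ G'.P0) (hQ0 : ∀ x ∈ G.Q0, h.t0 x ∈ G'.Q0)
    (hP1 : ∀ x ∈ G.P1, h.t1 x ∈ G'.P1) (hQ1 : ∀ x ∈ G.Q1, h.t1 x ∈ G'.Q1)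
    (hc : ∀ e', (G'.n01 e').comap h.t01 = G.n01 (c e')) :
    GlueHomC G.glueData G'.glueData h c where
  k0 := G.k0 G' h hs0
  k1 := G.k1 G' h hs1
  k01 := G.k01 G' h hs01
  k0_comm := G.k0_comm G' h hs0
  k1_comm := G.k1_comm G' h hs1
  k01_comm := G.k01_comm G' h hs01
  k_q0 := G.k_q0 G' h hs0 hs01
  k_q1 := G.k_q1 G' h hs1 hs01
  k0_ε := G.k0_ε G' h hs0 hP0 hQ0
  k1_ε := G.k1_ε G' h hs1 hP1 hQ1
  n0_le e' d hd := by
    intro hmem
    apply hd
    rw [glueData_n0, Ideal.mem_comap] at hmem ⊢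
    rw [← hc e', Ideal.mem_comap]
    have := h.r0_comm d
    rw [RingHom.coe_coe, this]
    exact hmem
  n1_le e' d hd := by
    intro hmem
    apply hd
    rw [glueData_n1, Ideal.mem_comap] at hmem ⊢
    rw [← hc e', Ideal.mem_comap]
    have := h.r1_comm d
    rw [RingHom.coe_coe, this]
    exact hmem

end GlueInput

end Nat

end Fermat.Agent.T1B.Toric98
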