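import Mathlib
import Fermat.Agent.T1.CechFormal70.Functorial
import Fermat.Agent.T1B.Toric98.GlueNat
import Fermat.Agent.T1B.Toric98.GlueBC

/-!
# T1B / TORIC50 (helper98), brick (P1): the `GlueInput` of `D.pkg Λ` from `W`-level hypotheses

`ToricBase D π` lists the `W`-level facts about a two-chart nodal model (`D : CechData W B0 B1 B01 g`,
`π : W` generating a maximal ideal): coordinates `t_j` with `B01 = B_j[1/t_j]`, the vertical ideals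
`P, Q ⊂ B01`, functions `s_j` with `V(s_j, π) ⊇ nodes`, finite, contained in `U01`.

For every artinian `W`-algebra `Λ` in which `π` is nilpotent, `ToricBase.glueInput H Λ hπ` is the
`GlueInput` for the package `D.pkg Λ` on the charts `Λ ⊗[W] B_j`, with index set
`H.Pts Λ = {p : Ideal (Λ ⊗[W] B01) // p.IsPrime ∧ 1 ⊗ s01 ∈ p}` and
`S_j = Localization.Away (1 ⊗ s_j)`; `ToricBase.glueData` is the resulting `GlueData`.
-/

set_option autoImplicit false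
set_option linter.unusedSectionVars false
set_option linter.style.haveILetI false

namespace Fermat.Agent.T1B.Toric98

open TensorProduct Fermat.Agent.T1.CechFormal70 Fermat.Agent.T1B.Toric50.Glue

variable {W B0 B1 B01 : Type*} [CommRing W] [CommRing B0] [CommRing B1] [CommRing B01]
  [Algebra W B0] [Algebra W B1] [Algebra W B01] {g : ℕ}

/-- The `W`-level hypotheses of the toric gluing. -/
structure ToricBase (D : CechData W B0 B1 B01 g) (π : W) where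
  /-- the coordinate of the chart `0` (`U01 = D(t0) ⊂ U0`) -/
  t0 : B0
  /-- the coordinate of the chart `1` -/
  t1 : B1
  away0 : letI := (D.ρ0 : B0 →+* B01).toAlgebra; IsLocalization.Away t0 B01
  away1 : letI := (D.ρ1 : B1 →+* B01).toAlgebra; IsLocalization.Away t1 B01
  /-- functions on `U01` vanishing on the first component of the special fibre -/
  P : Ideal B01
  /-- functions on `U01` vanishing on the second component -/
  Q : Ideal B01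
  s0 : B0
  s1 : B1
  s01 : B01
  hs0 : D.ρ0 s0 = s01
  hs1 : ∃ v : B01ˣ, D.ρ1 s1 = v * s01
  /-- `V(s0) ⊂ U01` -/
  com0 : ∃ a b : B0, a * s0 + b * t0 = 1
  /-- `V(s1) ⊂ U01` -/
  com1 : ∃ a b : B1, a * s1 + b * t1 = 1
  /-- the components meet only inside `V(s_j)` -/
  meet0 : ∃ k : ℕ, s0 ^ k ∈ P.comap (D.ρ0 : B0 →+* B01) ⊔ Q.comap (D.ρ0 : B0 →+* B01)
  meet1 : ∃ k : ℕ, s1 ^ k ∈ P.comap (D.ρ1 : B1 →+* B01) ⊔ Q.comap (D.ρ1 : B1 →+* B01)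
  meet01 : ∃ k : ℕ, s01 ^ k ∈ P ⊔ Q
  /-- the special fibre is reduced -/
  red0 : ∀ b : B0, D.ρ0 b ∈ P → D.ρ0 b ∈ Q → ∃ b' : B0, b = π • b'
  red1 : ∀ b : B1, D.ρ1 b ∈ P → D.ρ1 b ∈ Q → ∃ b' : B1, b = π • b'
  red01 : ∀ b : B01, b ∈ P → b ∈ Q → ∃ b' : B01, b = π • b'
  /-- `V(s_j)` is finite over `W` -/
  fin0 : Module.Finite W (B0 ⧸ Ideal.span {s0})
  fin1 : Module.Finite W (B1 ⧸ Ideal.span {s1})
  fin01 : Module.Finite W (B01 ⧸ Ideal.span {s01})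
  /-- `s01` is regular modulo `π` -/
  reg01 : ∀ x : B01, s01 * x ∈ Ideal.span {algebraMap W B01 π} →
    x ∈ Ideal.span {algebraMap W B01 π}

namespace ToricBase

variable {D : CechData W B0 B1 B01 g} {π : W} (H : ToricBase D π)
  (Λ : Type*) [CommRing Λ] [Algebra W Λ]

attribute [instance] ToricBase.fin0 ToricBase.fin1 ToricBase.fin01

/-- the points of `V(1 ⊗ s01)` in `Spec (Λ ⊗ B01)` -/
def Pts : Type _ := {p : Ideal (Λ ⊗[W] B01) // p.IsPrime ∧ (1 : Λ) ⊗ₜ[W] H.s01 ∈ p}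

instance [IsArtinianRing Λ] : Finite (H.Pts Λ) := by
  have := isArtinianRing_quotient_extI W Λ (Ideal.span {H.s01})
  have hfin := finite_setOf_isPrime_le (extI W Λ (Ideal.span {H.s01}))
  have : {p : Ideal (Λ ⊗[W] B01) | p.IsPrime ∧ (1 : Λ) ⊗ₜ[W] H.s01 ∈ p} =
      {p | p.IsPrime ∧ extI W Λ (Ideal.span {H.s01}) ≤ p} := by
    ext p
    simp only [Set.mem_ofPred_eq, extI_span_singleton_le_iff]
  rw [← this] at hfin
  exact hfin.to_subtype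

noncomputable instance [IsArtinianRing Λ] : Fintype (H.Pts Λ) := Fintype.ofFinite _

noncomputable instance : DecidableEq (H.Pts Λ) := Classical.decEq _

/-- `S_j`, the chart `j` with `V(s_j)` removed. -/
abbrev S0 : Type _ := Localization.Away ((1 : Λ) ⊗ₜ[W] H.s0)
abbrev S1 : Type _ := Localization.Away ((1 : Λ) ⊗ₜ[W] H.s1)
abbrev S01 : Type _ := Localization.Away ((1 : Λ) ⊗ₜ[W] H.s01)

theorem r0_tmul (a : Λ) (b : B0) : (D.pkg Λ).r0 (a ⊗ₜ[W] b) = a ⊗ₜ[W] D.ρ0 b := rfl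
theorem r1_tmul (a : Λ) (b : B1) : (D.pkg Λ).r1 (a ⊗ₜ[W] b) = a ⊗ₜ[W] D.ρ1 b := rfl

theorem r0_s0 : (D.pkg Λ).r0 ((1 : Λ) ⊗ₜ[W] H.s0) = (1 : Λ) ⊗ₜ[W] H.s01 := by
  rw [r0_tmul, H.hs0]

theorem exists_r1_s1 : ∃ v : (Λ ⊗[W] B01)ˣ,
    (D.pkg Λ).r1 ((1 : Λ) ⊗ₜ[W] H.s1) = v * (1 : Λ) ⊗ₜ[W] H.s01 := by
  obtain ⟨v, hv⟩ := H.hs1
  refine ⟨Units.map (Algebra.TensorProduct.includeRight : B01 →ₐ[W] Λ ⊗[W] B01).toMonoidHom v, ?_⟩
  rw [r1_tmul, hv]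
  show (1 : Λ) ⊗ₜ[W] ((v : B01) * H.s01) = (1 : Λ) ⊗ₜ[W] (v : B01) * (1 : Λ) ⊗ₜ[W] H.s01
  rw [Algebra.TensorProduct.tmul_mul_tmul, one_mul]

theorem away0_Λ : letI := ((D.pkg Λ).r0 : Λ ⊗[W] B0 →+* Λ ⊗[W] B01).toAlgebra
    IsLocalization.Away ((1 : Λ) ⊗ₜ[W] H.t0) (Λ ⊗[W] B01) :=
  away_tmul D.ρ0 H.t0 H.away0 Λ

theorem away1_Λ : letI := ((D.pkg Λ).r1 : Λ ⊗[W] B1 →+* Λ ⊗[W] B01).toAlgebra
    IsLocalization.Away ((1 : Λ) ⊗ₜ[W] H.t1) (Λ ⊗[W] B01) :=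
  away_tmul D.ρ1 H.t1 H.away1 Λ

section Input

variable [hmax : (Ideal.span {π}).IsMaximal] [Algebra.FiniteType W B0] [Algebra.FiniteType W B1]
  [Algebra.FiniteType W B01] [IsArtinianRing Λ]

theorem isMaximal_of_mem01 (p : Ideal (Λ ⊗[W] B01)) [p.IsPrime]
    (hp : (1 : Λ) ⊗ₜ[W] H.s01 ∈ p) : p.IsMaximal := by
  have := isArtinianRing_quotient_extI W Λ (Ideal.span {H.s01})
  exact isMaximal_of_isPrime_of_le (extI W Λ (Ideal.span {H.s01})) p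
    ((extI_span_singleton_le_iff W Λ H.s01 p).2 hp)

theorem isMaximal_of_mem0 (p : Ideal (Λ ⊗[W] B0)) [p.IsPrime]
    (hp : (1 : Λ) ⊗ₜ[W] H.s0 ∈ p) : p.IsMaximal := by
  have := isArtinianRing_quotient_extI W Λ (Ideal.span {H.s0})
  exact isMaximal_of_isPrime_of_le (extI W Λ (Ideal.span {H.s0})) p
    ((extI_span_singleton_le_iff W Λ H.s0 p).2 hp)

theorem isMaximal_of_mem1 (p : Ideal (Λ ⊗[W] B1)) [p.IsPrime]
    (hp : (1 : Λ) ⊗ₜ[W] H.s1 ∈ p) : p.IsMaximal := by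
  have := isArtinianRing_quotient_extI W Λ (Ideal.span {H.s1})
  exact isMaximal_of_isPrime_of_le (extI W Λ (Ideal.span {H.s1})) p
    ((extI_span_singleton_le_iff W Λ H.s1 p).2 hp)

theorem s0_mem_comap (e : H.Pts Λ) :
    (1 : Λ) ⊗ₜ[W] H.s0 ∈ e.1.comap ((D.pkg Λ).r0 : Λ ⊗[W] B0 →+* Λ ⊗[W] B01) := by
  rw [Ideal.mem_comap, RingHom.coe_coe, H.r0_s0]
  exact e.2.2

theorem s1_mem_comap (e : H.Pts Λ) :
    (1 : Λ) ⊗ₜ[W] H.s1 ∈ e.1.comap ((D.pkg Λ).r1 : Λ ⊗[W] B1 →+* Λ ⊗[W] B01) := by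
  obtain ⟨v, hv⟩ := H.exists_r1_s1 Λ
  rw [Ideal.mem_comap, RingHom.coe_coe, hv]
  exact e.1.mul_mem_left _ e.2.2

theorem t0_notMem (p : Ideal (Λ ⊗[W] B0)) [hp : p.IsPrime] (hs : (1 : Λ) ⊗ₜ[W] H.s0 ∈ p) :
    (1 : Λ) ⊗ₜ[W] H.t0 ∉ p := by
  intro ht
  obtain ⟨a, b, hab⟩ := H.com0
  apply hp.ne_top
  rw [Ideal.eq_top_iff_one]
  have : (1 : Λ ⊗[W] B0) = (1 : Λ) ⊗ₜ[W] a * (1 : Λ) ⊗ₜ[W] H.s0 +
      (1 : Λ) ⊗ₜ[W] b * (1 : Λ) ⊗ₜ[W] H.t0 := by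
    rw [Algebra.TensorProduct.tmul_mul_tmul, Algebra.TensorProduct.tmul_mul_tmul, one_mul,
      ← TensorProduct.tmul_add, hab]
    rfl
  rw [this]
  exact p.add_mem (p.mul_mem_left _ hs) (p.mul_mem_left _ ht)

theorem t1_notMem (p : Ideal (Λ ⊗[W] B1)) [hp : p.IsPrime] (hs : (1 : Λ) ⊗ₜ[W] H.s1 ∈ p) :
    (1 : Λ) ⊗ₜ[W] H.t1 ∉ p := by
  intro ht
  obtain ⟨a, b, hab⟩ := H.com1
  apply hp.ne_top
  rw [Ideal.eq_top_iff_one]
  have : (1 : Λ ⊗[W] B1) = (1 : Λ) ⊗ₜ[W] a * (1 : Λ) ⊗ₜ[W] H.s1 +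
      (1 : Λ) ⊗ₜ[W] b * (1 : Λ) ⊗ₜ[W] H.t1 := by
    rw [Algebra.TensorProduct.tmul_mul_tmul, Algebra.TensorProduct.tmul_mul_tmul, one_mul,
      ← TensorProduct.tmul_add, hab]
    rfl
  rw [this]
  exact p.add_mem (p.mul_mem_left _ hs) (p.mul_mem_left _ ht)

theorem tmul_pow_mem_sup {B : Type*} [CommRing B] [Algebra W B] (s : B) (I J : Ideal B)
    (h : ∃ k : ℕ, s ^ k ∈ I ⊔ J) :
    ∃ k : ℕ, ((1 : Λ) ⊗ₜ[W] s) ^ k ∈ extI W Λ I ⊔ extI W Λ J := by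
  obtain ⟨k, hk⟩ := h
  refine ⟨k, ?_⟩
  rw [Algebra.TensorProduct.tmul_pow, one_pow, ← Ideal.map_sup]
  exact tmul_mem_extI W Λ hk

/-- **Brick (P1)**: the `GlueInput` of the charts `Λ ⊗[W] B_j`. -/
noncomputable def glueInput (hπ : IsNilpotent (algebraMap W Λ π)) :
    GlueInput (H.S0 Λ) (H.S1 Λ) (H.S01 Λ) (D.pkg Λ) (H.Pts Λ) where
  s0 := (1 : Λ) ⊗ₜ[W] H.s0
  s1 := (1 : Λ) ⊗ₜ[W] H.s1
  s01 := (1 : Λ) ⊗ₜ[W] H.s01
  loc0 := inferInstance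
  loc1 := inferInstance
  loc01 := inferInstance
  unit0 := by
    rw [H.r0_s0]
    exact IsLocalization.Away.algebraMap_isUnit _
  unit1 := by
    obtain ⟨v, hv⟩ := H.exists_r1_s1 Λ
    rw [hv, map_mul]
    exact (v.isUnit.map _).mul (IsLocalization.Away.algebraMap_isUnit _)
  P0 := extI W Λ (H.P.comap (D.ρ0 : B0 →+* B01))
  P1 := extI W Λ (H.P.comap (D.ρ1 : B1 →+* B01))
  P01 := extI W Λ H.P
  Q0 := extI W Λ (H.Q.comap (D.ρ0 : B0 →+* B01))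
  Q1 := extI W Λ (H.Q.comap (D.ρ1 : B1 →+* B01))
  Q01 := extI W Λ H.Q
  hP0 := by
    intro x hx
    have : extI W Λ (H.P.comap (D.ρ0 : B0 →+* B01)) ≤
        (extI W Λ H.P).comap ((D.pkg Λ).r0 : Λ ⊗[W] B0 →+* Λ ⊗[W] B01) := by
      rw [extI, Ideal.map_le_iff_le_comap]
      intro b hb
      exact tmul_mem_extI W Λ hb
    exact this hx
  hQ0 := by
    intro x hx
    have : extI W Λ (H.Q.comap (D.ρ0 : B0 →+* B01)) ≤
        (extI W Λ H.Q).comap ((D.pkg Λ).r0 : Λ ⊗[W] B0 →+* Λ ⊗[W] B01) := by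
      rw [extI, Ideal.map_le_iff_le_comap]
      intro b hb
      exact tmul_mem_extI W Λ hb
    exact this hx
  hP1 := by
    intro x hx
    have : extI W Λ (H.P.comap (D.ρ1 : B1 →+* B01)) ≤
        (extI W Λ H.P).comap ((D.pkg Λ).r1 : Λ ⊗[W] B1 →+* Λ ⊗[W] B01) := by
      rw [extI, Ideal.map_le_iff_le_comap]
      intro b hb
      exact tmul_mem_extI W Λ hb
    exact this hx
  hQ1 := by
    intro x hx
    have : extI W Λ (H.Q.comap (D.ρ1 : B1 →+* B01)) ≤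
        (extI W Λ H.Q).comap ((D.pkg Λ).r1 : Λ ⊗[W] B1 →+* Λ ⊗[W] B01) := by
      rw [extI, Ideal.map_le_iff_le_comap]
      intro b hb
      exact tmul_mem_extI W Λ hb
    exact this hx
  nil0 := isNilpotent_of_mem_extI_inf W Λ π hπ _ _ (fun b hb => H.red0 b hb.1 hb.2)
  nil1 := isNilpotent_of_mem_extI_inf W Λ π hπ _ _ (fun b hb => H.red1 b hb.1 hb.2)
  nil01 := isNilpotent_of_mem_extI_inf W Λ π hπ _ _ (fun b hb => H.red01 b hb.1 hb.2)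
  meet0 := tmul_pow_mem_sup Λ H.s0 _ _ H.meet0
  meet1 := tmul_pow_mem_sup Λ H.s1 _ _ H.meet1
  meet01 := tmul_pow_mem_sup Λ H.s01 _ _ H.meet01
  n01 e := e.1
  max01 e := by
    haveI := e.2.1
    exact H.isMaximal_of_mem01 Λ e.1 e.2.2
  max0 e := by
    haveI := e.2.1
    haveI : (e.1.comap ((D.pkg Λ).r0 : Λ ⊗[W] B0 →+* Λ ⊗[W] B01)).IsPrime :=
      Ideal.comap_isPrime _ _
    exact H.isMaximal_of_mem0 Λ _ (H.s0_mem_comap Λ e)
  max1 e := by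
    haveI := e.2.1
    haveI : (e.1.comap ((D.pkg Λ).r1 : Λ ⊗[W] B1 →+* Λ ⊗[W] B01)).IsPrime :=
      Ideal.comap_isPrime _ _
    exact H.isMaximal_of_mem1 Λ _ (H.s1_mem_comap Λ e)
  inj01 := Subtype.val_injective
  inj0 := (comap_injective_of_away _ _ (H.away0_Λ Λ)).comp Subtype.val_injective
  inj1 := (comap_injective_of_away _ _ (H.away1_Λ Λ)).comp Subtype.val_injective
  prime01 p hp hs := ⟨⟨p, hp, hs⟩, rfl⟩
  prime0 p hp hs := by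
    obtain ⟨p', hp', hcomap⟩ := exists_prime_of_away _ _ (H.away0_Λ Λ) p (H.t0_notMem Λ p hs)
    refine ⟨⟨p', hp', ?_⟩, hcomap.symm⟩
    rw [← H.r0_s0 Λ]
    have : (1 : Λ) ⊗ₜ[W] H.s0 ∈ p'.comap ((D.pkg Λ).r0 : Λ ⊗[W] B0 →+* Λ ⊗[W] B01) := by
      rw [hcomap]; exact hs
    exact this
  prime1 p hp hs := by
    obtain ⟨p', hp', hcomap⟩ := exists_prime_of_away _ _ (H.away1_Λ Λ) p (H.t1_notMem Λ p hs)
    refine ⟨⟨p', hp', ?_⟩, hcomap.symm⟩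
    obtain ⟨v, hv⟩ := H.exists_r1_s1 Λ
    have : (1 : Λ) ⊗ₜ[W] H.s1 ∈ p'.comap ((D.pkg Λ).r1 : Λ ⊗[W] B1 →+* Λ ⊗[W] B01) := by
      rw [hcomap]; exact hs
    rw [Ideal.mem_comap, RingHom.coe_coe, hv] at this
    exact (Ideal.unit_mul_mem_iff_mem _ v.isUnit).1 this
  reg01 := by
    haveI := D.flat01
    obtain ⟨N, hN⟩ := hπ
    exact mem_nonZeroDivisors_tmul π H.s01 H.reg01 Λ N hN

/-- the gluing data of the toric map at level `Λ` -/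
noncomputable def glueData (hπ : IsNilpotent (algebraMap W Λ π)) :
    GlueData (H.S0 Λ) (H.S1 Λ) (H.S01 Λ) (D.pkg Λ) (H.Pts Λ) :=
  (H.glueInput Λ hπ).glueData

end Input

/-! ### Brick (P2): naturality in `Λ` -/

section PtsMap

variable {Λ} {Λ' : Type*} [CommRing Λ'] [Algebra W Λ'] (f : Λ →ₐ[W] Λ')

theorem pkgHom_t0_tmul (a : Λ) (b : B0) : (D.pkgHom f).t0 (a ⊗ₜ[W] b) = f a ⊗ₜ[W] b := rfl
theorem pkgHom_t1_tmul (a : Λ) (b : B1) : (D.pkgHom f).t1 (a ⊗ₜ[W] b) = f a ⊗ₜ[W] b := rfl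

/-- the contraction of the points of `V(s01)` along `f ⊗ id` -/
noncomputable def ptsMap (p' : H.Pts Λ') : H.Pts Λ :=
  ⟨p'.1.comap (D.pkgHom f).t01, by
    haveI := p'.2.1
    exact Ideal.comap_isPrime _ _, by
    rw [Ideal.mem_comap, CechData.pkgHom_t01_tmul, map_one]
    exact p'.2.2⟩

theorem ptsMap_val (p' : H.Pts Λ') : (H.ptsMap f p').1 = p'.1.comap (D.pkgHom f).t01 := rfl

end PtsMap

section Nat

variable [hmax : (Ideal.span {π}).IsMaximal] [Algebra.FiniteType W B0] [Algebra.FiniteType W B1]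
  [Algebra.FiniteType W B01] [IsArtinianRing Λ]
  (Λ' : Type*) [CommRing Λ'] [Algebra W Λ'] [IsArtinianRing Λ'] (f : Λ →ₐ[W] Λ')

variable {Λ Λ'}

theorem extI_le_comap {B : Type*} [CommRing B] [Algebra W B] (I : Ideal B) :
    extI W Λ I ≤ (extI W Λ' I).comap
      (Algebra.TensorProduct.map f (AlgHom.id W B) : Λ ⊗[W] B →+* Λ' ⊗[W] B) := by
  rw [extI, Ideal.map_le_iff_le_comap]
  intro b hb
  rw [Ideal.mem_comap, Ideal.mem_comap]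
  show Algebra.TensorProduct.map f (AlgHom.id W B) ((1 : Λ) ⊗ₜ[W] b) ∈ extI W Λ' I
  rw [Algebra.TensorProduct.map_tmul, map_one]
  exact tmul_mem_extI W Λ' hb

/-- **Brick (P2)**: the morphism of gluing data induced by a `W`-algebra map `Λ → Λ'` (residue
field extensions, truncations, Galois twists). -/
noncomputable def glueHomC (hπ : IsNilpotent (algebraMap W Λ π))
    (hπ' : IsNilpotent (algebraMap W Λ' π)) :
    GlueHomC (H.glueData Λ hπ) (H.glueData Λ' hπ') (D.pkgHom f) (H.ptsMap f) :=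
  (H.glueInput Λ hπ).glueHomC (H.glueInput Λ' hπ') (D.pkgHom f) (H.ptsMap f)
    (by show (D.pkgHom f).t0 ((1 : Λ) ⊗ₜ[W] H.s0) = (1 : Λ') ⊗ₜ[W] H.s0
        rw [pkgHom_t0_tmul, map_one])
    (by show (D.pkgHom f).t1 ((1 : Λ) ⊗ₜ[W] H.s1) = (1 : Λ') ⊗ₜ[W] H.s1
        rw [pkgHom_t1_tmul, map_one])
    (by show (D.pkgHom f).t01 ((1 : Λ) ⊗ₜ[W] H.s01) = (1 : Λ') ⊗ₜ[W] H.s01
        rw [CechData.pkgHom_t01_tmul, map_one])
    (fun x hx => extI_le_comap f _ hx) (fun x hx => extI_le_comap f _ hx)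
    (fun x hx => extI_le_comap f _ hx) (fun x hx => extI_le_comap f _ hx)
    (fun _ => rfl)

/-- **Naturality of the toric map in `Λ`.** -/
theorem iota_natural (hπ : IsNilpotent (algebraMap W Λ π))
    (hπ' : IsNilpotent (algebraMap W Λ' π)) {m : Ideal Λ} {m' : Ideal Λ'}
    (hm : IsNilpotent m) (hm' : IsNilpotent m') (hmm : m ≤ m'.comap (f : Λ →+* Λ'))
    (z : H.Pts Λ → unitsOne m) :
    D.JhatMap f hmm ((H.glueData Λ hπ).iota hm z) =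
      (H.glueData Λ' hπ').iota hm' (fun e' => unitsOneMap (f : Λ →+* Λ') hmm (z (H.ptsMap f e'))) :=
  (H.glueHomC f hπ hπ').iota_natural hm hm' hmm z

end Nat

end ToricBase

end Fermat.Agent.T1B.Toric98
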