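import Mathlib

/-!
# T1B / TORIC50, brick T-LIN (helper98), part (L2a): the special fibre of a nodal two-chart curve

Abstract setting.  `R` a commutative ring, `π : R`, a two-chart datum `ρ0 : C0 → C01 ← C1 : ρ1` of
`R`-algebras (the charts of the nodal model), two ideals `P Q ⊂ C01` (the functions vanishing on the
components `X₁`, `X₂` of the special fibre; `P_j = ρ_j⁻¹ P`, `Q_j = ρ_j⁻¹ Q`), a finite set `E` of
rational nodes, all lying in `U01`, with evaluations `ev e : C01 →ₐ[R] κ`.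

`Z = ρ0 C0 + ρ1 C1 + π C01` (so `C01 / Z = H¹(X_s, 𝒪)`), `ZP = ρ0 C0 + ρ1 C1 + P`
(`C01 / ZP = H¹(X₁, 𝒪)`), `ZQ` likewise.

`IsToric z d` : `d ∈ C01` represents the image of `z : E → κ` under the connecting homomorphism
`δ : κ^E → H¹(X_s, 𝒪)` of `0 → 𝒪_{X_s} → 𝒪_{X₁} × 𝒪_{X₂} → ∏_e κ → 0`.

Main results (`FibreDatum`):
* `isToric_of_mem` : **exactness** `ker (H¹(X_s) → H¹(X₁) × H¹(X₂)) ⊆ im δ`;
* `IsToric.sub_mem_Z` : `δ` is well defined;  `IsToric.const_of_mem_Z` : `ker δ` = constants;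
* `exists_sub_sum_mem_Z`, `forall_mem_span_of_sum_mem_Z` : the statements (SF1), (SF2) for a family
  `d k` of toric elements at the nodes `≠ e0`.
-/

set_option autoImplicit false

namespace Fermat.Agent.T1B.Toric98

variable {R : Type*} [CommRing R] {C0 C1 C01 : Type*} [CommRing C0] [CommRing C1] [CommRing C01]
  [Algebra R C0] [Algebra R C1] [Algebra R C01]

/-- `Z = ρ0 C0 + ρ1 C1 + π C01`. -/
def MemZ (π : R) (ρ0 : C0 →ₐ[R] C01) (ρ1 : C1 →ₐ[R] C01) (f : C01) : Prop :=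
  ∃ (a0 : C0) (a1 : C1) (c : C01), f = ρ0 a0 + ρ1 a1 + π • c

/-- `ρ0 C0 + ρ1 C1 + J` for an ideal `J` of `C01`. -/
def MemZI (ρ0 : C0 →ₐ[R] C01) (ρ1 : C1 →ₐ[R] C01) (J : Ideal C01) (f : C01) : Prop :=
  ∃ (a0 : C0) (a1 : C1), f - (ρ0 a0 + ρ1 a1) ∈ J

/-- The special-fibre datum of a nodal two-chart curve (all nodes rational and in `U01`). -/
structure FibreDatum (π : R) (ρ0 : C0 →ₐ[R] C01) (ρ1 : C1 →ₐ[R] C01) (E : Type*) (κ : Type*)
    [Field κ] [Algebra R κ] where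
  /-- functions vanishing on the first component -/
  P : Ideal C01
  /-- functions vanishing on the second component -/
  Q : Ideal C01
  /-- evaluation at the nodes -/
  ev : E → C01 →ₐ[R] κ
  pi_mem_P : ∀ c : C01, π • c ∈ P
  pi_mem_Q : ∀ c : C01, π • c ∈ Q
  /-- the special fibre is reduced -/
  reduced : ∀ c : C01, c ∈ P → c ∈ Q → ∃ c' : C01, c = π • c'
  /-- `H⁰(X₁, 𝒪) = κ` -/
  h0P : ∀ (a : C0) (b : C1), ρ0 a + ρ1 b ∈ P →
    ∃ l : R, ρ0 (a - algebraMap R C0 l) ∈ P ∧ ρ1 (b + algebraMap R C1 l) ∈ P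
  /-- `H⁰(X₂, 𝒪) = κ` -/
  h0Q : ∀ (a : C0) (b : C1), ρ0 a + ρ1 b ∈ Q →
    ∃ l : R, ρ0 (a - algebraMap R C0 l) ∈ Q ∧ ρ1 (b + algebraMap R C1 l) ∈ Q
  ev_P : ∀ e, ∀ c ∈ P, ev e c = 0
  ev_Q : ∀ e, ∀ c ∈ Q, ev e c = 0
  /-- the components meet transversally, exactly at the nodes (chart 0) -/
  node0 : ∀ c : C0, (∀ e, ev e (ρ0 c) = 0) → ∃ p q : C0, ρ0 p ∈ P ∧ ρ0 q ∈ Q ∧ c = p + q
  /-- the components meet transversally, exactly at the nodes (chart 1) -/
  node1 : ∀ c : C1, (∀ e, ev e (ρ1 c) = 0) → ∃ p q : C1, ρ1 p ∈ P ∧ ρ1 q ∈ Q ∧ c = p + q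

namespace FibreDatum

variable {π : R} {ρ0 : C0 →ₐ[R] C01} {ρ1 : C1 →ₐ[R] C01} {E : Type*} {κ : Type*}
  [Field κ] [Algebra R κ] (D : FibreDatum π ρ0 ρ1 E κ)

/-- `d` represents `δ z`: on `X₁` it is `x0 - x1`, on `X₂` it is `y0 - y1`, and the normalised
sections `(x_j, y_j)` have jump `z e` at the node `e`. -/
def IsToric (z : E → κ) (d : C01) : Prop :=
  ∃ (x0 y0 : C0) (x1 y1 : C1), d - (ρ0 x0 - ρ1 x1) ∈ D.P ∧ d - (ρ0 y0 - ρ1 y1) ∈ D.Q ∧
    (∀ e, D.ev e (ρ0 (x0 - y0)) = z e) ∧ (∀ e, D.ev e (ρ1 (x1 - y1)) = z e)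

theorem isToric_zero : D.IsToric 0 0 :=
  ⟨0, 0, 0, 0, by simp, by simp, by simp, by simp⟩

/-- the constant vector goes to zero -/
theorem isToric_const (l : R) : D.IsToric (fun _ => algebraMap R κ l) 0 := by
  refine ⟨algebraMap R C0 l, 0, algebraMap R C1 l, 0, ?_, by simp, ?_, ?_⟩
  · rw [AlgHom.commutes, AlgHom.commutes, sub_self, sub_zero]; exact D.P.zero_mem
  · intro e; rw [sub_zero, AlgHom.commutes, AlgHom.commutes]
  · intro e; rw [sub_zero, AlgHom.commutes, AlgHom.commutes]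

theorem IsToric.add {z z' : E → κ} {d d' : C01} (h : D.IsToric z d) (h' : D.IsToric z' d') :
    D.IsToric (z + z') (d + d') := by
  obtain ⟨x0, y0, x1, y1, hP, hQ, h0, h1⟩ := h
  obtain ⟨x0', y0', x1', y1', hP', hQ', h0', h1'⟩ := h'
  refine ⟨x0 + x0', y0 + y0', x1 + x1', y1 + y1', ?_, ?_, ?_, ?_⟩
  · have := D.P.add_mem hP hP'
    rw [map_add, map_add]
    convert this using 1; ring
  · have := D.Q.add_mem hQ hQ'
    rw [map_add, map_add]
    convert this using 1; ring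
  · intro e
    have : x0 + x0' - (y0 + y0') = (x0 - y0) + (x0' - y0') := by ring
    rw [this, map_add, map_add, h0 e, h0' e]; rfl
  · intro e
    have : x1 + x1' - (y1 + y1') = (x1 - y1) + (x1' - y1') := by ring
    rw [this, map_add, map_add, h1 e, h1' e]; rfl

theorem IsToric.smul {z : E → κ} {d : C01} (h : D.IsToric z d) (r : R) :
    D.IsToric (algebraMap R κ r • z) (r • d) := by
  obtain ⟨x0, y0, x1, y1, hP, hQ, h0, h1⟩ := h
  refine ⟨r • x0, r • y0, r • x1, r • y1, ?_, ?_, ?_, ?_⟩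
  · have := D.P.smul_mem (algebraMap R C01 r) hP
    rw [map_smul, map_smul, ← smul_sub, ← smul_sub, Algebra.smul_def]
    exact this
  · have := D.Q.smul_mem (algebraMap R C01 r) hQ
    rw [map_smul, map_smul, ← smul_sub, ← smul_sub, Algebra.smul_def]
    exact this
  · intro e
    rw [← smul_sub, map_smul, map_smul, h0 e, Algebra.smul_def]; rfl
  · intro e
    rw [← smul_sub, map_smul, map_smul, h1 e, Algebra.smul_def]; rfl

theorem IsToric.neg {z : E → κ} {d : C01} (h : D.IsToric z d) : D.IsToric (-z) (-d) := by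
  have := h.smul D (-1 : R)
  simpa using this

theorem IsToric.sub {z z' : E → κ} {d d' : C01} (h : D.IsToric z d) (h' : D.IsToric z' d') :
    D.IsToric (z - z') (d - d') := by
  rw [sub_eq_add_neg, sub_eq_add_neg]
  exact h.add D (h'.neg D)

theorem IsToric.sum {ι : Type*} (s : Finset ι) {z : ι → E → κ} {d : ι → C01}
    (h : ∀ i ∈ s, D.IsToric (z i) (d i)) : D.IsToric (∑ i ∈ s, z i) (∑ i ∈ s, d i) := by
  classical
  induction s using Finset.induction_on with
  | empty => simpa using D.isToric_zero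
  | insert a s ha ih =>
    rw [Finset.sum_insert ha, Finset.sum_insert ha]
    exact (h a (Finset.mem_insert_self a s)).add D
      (ih fun i hi => h i (Finset.mem_insert_of_mem hi))

/-- a toric element lies in `ZP` and in `ZQ` (so `(Tr₁, Tr₂) ∘ δ = 0`). -/
theorem IsToric.memZP {z : E → κ} {d : C01} (h : D.IsToric z d) : MemZI ρ0 ρ1 D.P d := by
  obtain ⟨x0, y0, x1, y1, hP, hQ, h0, h1⟩ := h
  exact ⟨x0, -x1, by rw [map_neg, ← sub_eq_add_neg]; exact hP⟩

theorem IsToric.memZQ {z : E → κ} {d : C01} (h : D.IsToric z d) : MemZI ρ0 ρ1 D.Q d := by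
  obtain ⟨x0, y0, x1, y1, hP, hQ, h0, h1⟩ := h
  exact ⟨y0, -y1, by rw [map_neg, ← sub_eq_add_neg]; exact hQ⟩

/-- **Exactness**: an element of `ZP ∩ ZQ` is toric. -/
theorem isToric_of_mem {f : C01} (hP : MemZI ρ0 ρ1 D.P f) (hQ : MemZI ρ0 ρ1 D.Q f) :
    ∃ z : E → κ, D.IsToric z f := by
  obtain ⟨a0, a1, ha⟩ := hP
  obtain ⟨b0, b1, hb⟩ := hQ
  refine ⟨fun e => D.ev e (ρ0 (a0 - b0)), a0, b0, -a1, -b1, ?_, ?_, fun e => rfl, ?_⟩
  · rw [map_neg, sub_neg_eq_add]; exact ha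
  · rw [map_neg, sub_neg_eq_add]; exact hb
  · intro e
    -- `ρ0 (a0 - b0) + ρ1 (a1 - b1) = (f - b) - (f - a) ∈ Q + P`
    have h1 : D.ev e (f - (ρ0 a0 + ρ1 a1)) = 0 := D.ev_P e _ ha
    have h2 : D.ev e (f - (ρ0 b0 + ρ1 b1)) = 0 := D.ev_Q e _ hb
    have h3 : ρ1 (-a1 - -b1) = ρ0 (a0 - b0) + ((f - (ρ0 a0 + ρ1 a1)) - (f - (ρ0 b0 + ρ1 b1))) := by
      simp only [map_sub, map_neg]; ring
    have h4 : D.ev e (ρ1 (-a1 - -b1)) = D.ev e (ρ0 (a0 - b0)) +
        (D.ev e (f - (ρ0 a0 + ρ1 a1)) - D.ev e (f - (ρ0 b0 + ρ1 b1))) := by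
      rw [h3, map_add (D.ev e), map_sub (D.ev e)]
    rw [h4, h1, h2, sub_zero, add_zero]

/-- **`δ` is well defined**: a toric element for `z = 0` lies in `Z`. -/
theorem IsToric.memZ_of_zero {d : C01} (h : D.IsToric 0 d) : MemZ π ρ0 ρ1 d := by
  obtain ⟨x0, y0, x1, y1, hP, hQ, h0, h1⟩ := h
  obtain ⟨p0, q0, hp0, hq0, e0⟩ := D.node0 (x0 - y0) (fun e => by simpa using h0 e)
  obtain ⟨p1, q1, hp1, hq1, e1⟩ := D.node1 (x1 - y1) (fun e => by simpa using h1 e)
  -- `u0 = x0 - p0 = y0 + q0`, `u1 = x1 - p1 = y1 + q1`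
  have hu0 : x0 - p0 = y0 + q0 := by linear_combination e0
  have hu1 : x1 - p1 = y1 + q1 := by linear_combination e1
  have hdP : d - (ρ0 (x0 - p0) - ρ1 (x1 - p1)) ∈ D.P := by
    have := D.P.add_mem hP (D.P.sub_mem hp0 hp1)
    convert this using 1
    simp only [map_sub]; ring
  have hdQ : d - (ρ0 (x0 - p0) - ρ1 (x1 - p1)) ∈ D.Q := by
    rw [hu0, hu1]
    have := D.Q.sub_mem hQ (D.Q.sub_mem hq0 hq1)
    convert this using 1
    simp only [map_add]; ring
  obtain ⟨c, hc⟩ := D.reduced _ hdP hdQ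
  refine ⟨x0 - p0, -(x1 - p1), c, ?_⟩
  rw [← hc, map_neg]; ring

theorem IsToric.sub_memZ {z : E → κ} {d d' : C01} (h : D.IsToric z d) (h' : D.IsToric z d') :
    MemZ π ρ0 ρ1 (d - d') := by
  have := h.sub D h'
  rw [sub_self] at this
  exact this.memZ_of_zero D

/-- **The kernel of `δ` consists of the constants.** -/
theorem IsToric.const_of_memZ {z : E → κ} {d : C01} (h : D.IsToric z d) (hd : MemZ π ρ0 ρ1 d) :
    ∃ l : R, ∀ e, z e = algebraMap R κ l := by
  obtain ⟨x0, y0, x1, y1, hP, hQ, h0, h1⟩ := h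
  obtain ⟨a0, a1, c, rfl⟩ := hd
  have hP' : ρ0 (x0 - a0) + ρ1 (-(x1 + a1)) ∈ D.P := by
    have := D.P.sub_mem (D.pi_mem_P c) hP
    convert this using 1
    simp only [map_sub, map_add, map_neg]; ring
  have hQ' : ρ0 (y0 - a0) + ρ1 (-(y1 + a1)) ∈ D.Q := by
    have := D.Q.sub_mem (D.pi_mem_Q c) hQ
    convert this using 1
    simp only [map_sub, map_add, map_neg]; ring
  obtain ⟨l, hl, -⟩ := D.h0P _ _ hP'
  obtain ⟨m, hm, -⟩ := D.h0Q _ _ hQ'
  refine ⟨l - m, fun e => ?_⟩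
  have h3 : ρ0 (x0 - y0) = ρ0 (x0 - a0 - algebraMap R C0 l) - ρ0 (y0 - a0 - algebraMap R C0 m)
      + algebraMap R C01 (l - m) := by
    simp only [map_sub, AlgHom.commutes]; ring
  rw [← h0 e, h3, map_add, map_sub, D.ev_P e _ hl, D.ev_Q e _ hm, sub_zero, zero_add,
    AlgHom.commutes]

/-! ### A basis of the toric part -/

section Family

variable [DecidableEq E] {r : Type*} [Fintype r]

/-- the indicator vector of a node -/
def indic (e : E) : E → κ := fun e' => if e' = e then 1 else 0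

theorem sum_smul_indic_apply (node : r → E) (hnode : Function.Injective node) (c : r → R)
    (e : E) :
    (∑ k, algebraMap R κ (c k) • indic (κ := κ) (node k)) e =
      if h : ∃ k, node k = e then algebraMap R κ (c h.choose) else 0 := by
  classical
  rw [Finset.sum_apply]
  split_ifs with h
  · obtain ⟨k, rfl⟩ := id h
    have hk : h.choose = k := hnode h.choose_spec
    rw [hk, Finset.sum_eq_single k]
    · simp [indic]
    · intro k' _ hk'
      have : node k ≠ node k' := fun hh => hk' (hnode hh.symm)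
      simp [indic, this]
    · simp
  · apply Finset.sum_eq_zero
    intro k _
    have : e ≠ node k := fun hh => h ⟨k, hh.symm⟩
    simp [indic, this]

variable (hsurj : Function.Surjective (algebraMap R κ))
  (node : r → E) (hnode : Function.Injective node) (e0 : E) (he0 : ∀ k, node k ≠ e0)
  (hcov : ∀ e, e ≠ e0 → ∃ k, node k = e)
  (d : r → C01) (hd : ∀ k, D.IsToric (indic (node k)) (d k))

include hsurj hnode hcov hd in
/-- **(SF1)** every class killed by both restrictions is a combination of the `d k`. -/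
theorem exists_sub_sum_memZ {f : C01} (hP : MemZI ρ0 ρ1 D.P f) (hQ : MemZI ρ0 ρ1 D.Q f) :
    ∃ c : r → R, MemZ π ρ0 ρ1 (f - ∑ k, c k • d k) := by
  classical
  obtain ⟨z, hz⟩ := D.isToric_of_mem hP hQ
  obtain ⟨l0, hl0⟩ := hsurj (z e0)
  choose c hc using fun k => hsurj (z (node k) - z e0)
  refine ⟨c, ?_⟩
  have h1 : D.IsToric (∑ k, algebraMap R κ (c k) • indic (κ := κ) (node k)) (∑ k, c k • d k) :=
    IsToric.sum D Finset.univ fun k _ => (hd k).smul D (c k)
  have h2 := h1.add D (D.isToric_const l0)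
  rw [add_zero] at h2
  have h3 : (∑ k, algebraMap R κ (c k) • indic (κ := κ) (node k)) +
      (fun _ => algebraMap R κ l0) = z := by
    funext e
    rw [Pi.add_apply, sum_smul_indic_apply node hnode c e]
    split_ifs with h
    · obtain ⟨k, rfl⟩ := id h
      have hk : h.choose = k := hnode h.choose_spec
      rw [hk, hc, hl0]; ring
    · have : e = e0 := by
        by_contra hne
        exact h (hcov e hne)
      rw [this, hl0, zero_add]
  rw [h3] at h2
  exact hz.sub_memZ D h2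

include hnode he0 hd in
/-- **(SF2)** the classes of the `d k` are linearly independent modulo `π`. -/
theorem forall_eq_zero_of_sum_memZ (c : r → R) (h : MemZ π ρ0 ρ1 (∑ k, c k • d k)) :
    ∀ k, algebraMap R κ (c k) = 0 := by
  classical
  have h1 : D.IsToric (∑ k, algebraMap R κ (c k) • indic (κ := κ) (node k)) (∑ k, c k • d k) :=
    IsToric.sum D Finset.univ fun k _ => (hd k).smul D (c k)
  obtain ⟨l, hl⟩ := h1.const_of_memZ D h
  have hl0 : algebraMap R κ l = 0 := by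
    have := hl e0
    rw [sum_smul_indic_apply node hnode c e0, dif_neg (fun ⟨k, hk⟩ => he0 k hk)] at this
    exact this.symm
  intro k
  have := hl (node k)
  rw [sum_smul_indic_apply node hnode c (node k), dif_pos ⟨k, rfl⟩, hl0] at this
  have hk : (⟨k, rfl⟩ : ∃ k', node k' = node k).choose = k :=
    hnode (⟨k, rfl⟩ : ∃ k', node k' = node k).choose_spec
  rw [hk] at this
  exact this

end Family

end FibreDatum

end Fermat.Agent.T1B.Toric98
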