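import Mathlib

/-!
# T1B / TORIC50, brick T-LIN (helper98), part (L1): the linear algebra of the first-order step

`R` a commutative ring, `I` a maximal ideal (`I = (π)` in the application), `Dι : Matrix g r R`
(first-order toric map in `H¹`-coordinates), `Dβ : Matrix h g R` (first-order push-forward).
If modulo `I` the map `Dι` is injective and `ker Dβ ⊆ range Dι`, then there are matrices
`P : Matrix r g R`, `S : Matrix g h R` with `P * Dι ≡ 1` and `Dι * P + S * Dβ ≡ 1` entrywise mod `I`.
-/

set_option autoImplicit false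

namespace Fermat.Agent.T1B.Toric98

open Matrix

section Field

variable {K V V' : Type*} [Field K] [AddCommGroup V] [Module K V] [AddCommGroup V'] [Module K V']

/-- Over a field, a linear map `e` vanishing on `ker f` factors through `f`. -/
theorem exists_comp_eq_of_ker_le {V'' : Type*} [AddCommGroup V''] [Module K V'']
    (f : V →ₗ[K] V') (e : V →ₗ[K] V'') (h : LinearMap.ker f ≤ LinearMap.ker e) :
    ∃ S : V' →ₗ[K] V'', S.comp f = e := by
  obtain ⟨s, hs⟩ := f.rangeRestrict.exists_rightInverse_of_surjective f.range_rangeRestrict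
  obtain ⟨S, hS⟩ := LinearMap.exists_extend (e.comp s)
  refine ⟨S, ?_⟩
  ext v
  have h1 : S (f v) = (S.comp (LinearMap.range f).subtype) (f.rangeRestrict v) := rfl
  rw [LinearMap.comp_apply, h1, hS, LinearMap.comp_apply]
  have h2 : f.rangeRestrict (s (f.rangeRestrict v)) = f.rangeRestrict v :=
    LinearMap.congr_fun hs (f.rangeRestrict v)
  have h3 : s (f.rangeRestrict v) - v ∈ LinearMap.ker f := by
    rw [LinearMap.mem_ker, map_sub]
    have h5 : f (s (f.rangeRestrict v)) = f v := congrArg Subtype.val h2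
    rw [h5, sub_self]
  have h4 := h h3
  rw [LinearMap.mem_ker, map_sub, sub_eq_zero] at h4
  exact h4

/-- Over a field: `ι` injective and `ker β ≤ range ι` give a retraction `P` of `ι` and `S` with
`ι ∘ P + S ∘ β = id`. -/
theorem exists_retraction_and_section {U : Type*} [AddCommGroup U] [Module K U]
    (ι : U →ₗ[K] V) (β : V →ₗ[K] V') (hι : Function.Injective ι)
    (hβ : LinearMap.ker β ≤ LinearMap.range ι) :
    ∃ (P : V →ₗ[K] U) (S : V' →ₗ[K] V), P.comp ι = LinearMap.id ∧
      ι.comp P + S.comp β = LinearMap.id := by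
  obtain ⟨P, hP⟩ := ι.exists_leftInverse_of_injective (LinearMap.ker_eq_bot.2 hι)
  have hker : LinearMap.ker β ≤ LinearMap.ker (LinearMap.id - ι.comp P) := by
    intro v hv
    obtain ⟨u, rfl⟩ := hβ hv
    rw [LinearMap.mem_ker, LinearMap.sub_apply, LinearMap.id_apply, LinearMap.comp_apply]
    have : P (ι u) = u := LinearMap.congr_fun hP u
    rw [this, sub_self]
  obtain ⟨S, hS⟩ := exists_comp_eq_of_ker_le β (LinearMap.id - ι.comp P) hker
  exact ⟨P, S, hP, by rw [hS]; abel⟩

end Field

section Matrix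

variable {R : Type*} [CommRing R] (I : Ideal R) [hI : I.IsMaximal]
variable {g r h : Type*} [Fintype g] [Fintype r] [Fintype h] [DecidableEq g] [DecidableEq r]
  [DecidableEq h]

/-- Entrywise congruence of matrices modulo an ideal. -/
def MatCongr {m n : Type*} (I : Ideal R) (A B : Matrix m n R) : Prop := ∀ i j, A i j - B i j ∈ I

omit hI in
theorem matCongr_iff_map {m n : Type*} (A B : Matrix m n R) :
    MatCongr I A B ↔ A.map (Ideal.Quotient.mk I) = B.map (Ideal.Quotient.mk I) := by
  constructor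
  · intro hAB
    ext i j
    simp only [Matrix.map_apply]
    exact (Ideal.Quotient.eq).2 (hAB i j)
  · intro hAB i j
    have := congrFun (congrFun hAB i) j
    simp only [Matrix.map_apply] at this
    exact (Ideal.Quotient.eq).1 this

omit hI in
theorem exists_map_eq {m n : Type*} (A : Matrix m n (R ⧸ I)) :
    ∃ A' : Matrix m n R, A'.map (Ideal.Quotient.mk I) = A := by
  refine ⟨fun i j => (Ideal.Quotient.mk_surjective (A i j)).choose, ?_⟩
  ext i j
  exact (Ideal.Quotient.mk_surjective (A i j)).choose_spec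

omit hI [Fintype g] [Fintype h] [DecidableEq g] [DecidableEq r] [DecidableEq h] in
theorem mk_mulVec {m n : Type*} [Fintype n] (A : Matrix m n R) (v : n → R) (i : m) :
    Ideal.Quotient.mk I ((A *ᵥ v) i) =
      ((A.map (Ideal.Quotient.mk I)) *ᵥ (fun k => Ideal.Quotient.mk I (v k))) i := by
  simp only [Matrix.mulVec, dotProduct, map_sum, map_mul, Matrix.map_apply]

omit hI in
theorem exists_mk_eq {n : Type*} (w : n → R ⧸ I) :
    ∃ w' : n → R, (fun k => Ideal.Quotient.mk I (w' k)) = w :=
  ⟨fun k => (Ideal.Quotient.mk_surjective (w k)).choose,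
    funext fun k => (Ideal.Quotient.mk_surjective (w k)).choose_spec⟩

/-- **(L1)**  If `Dι` is injective mod `I` and `ker Dβ ⊆ range Dι` mod `I`, there are `P`, `S` with
`P * Dι ≡ 1` and `Dι * P + S * Dβ ≡ 1` mod `I`. -/
theorem exists_P_S (Dι : Matrix g r R) (Dβ : Matrix h g R)
    (hinj : ∀ c : r → R, (∀ i, (Dι *ᵥ c) i ∈ I) → ∀ k, c k ∈ I)
    (hex : ∀ v : g → R, (∀ j, (Dβ *ᵥ v) j ∈ I) → ∃ c : r → R, ∀ i, v i - (Dι *ᵥ c) i ∈ I) :
    ∃ (P : Matrix r g R) (S : Matrix g h R),
      MatCongr I (P * Dι) 1 ∧ MatCongr I (Dι * P + S * Dβ) 1 := by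
  let _ : Field (R ⧸ I) := Ideal.Quotient.field I
  set mk := Ideal.Quotient.mk I with hmk
  set ιm : Matrix g r (R ⧸ I) := Dι.map mk with hιm
  set βm : Matrix h g (R ⧸ I) := Dβ.map mk with hβm
  have hι : Function.Injective (Matrix.toLin' ιm) := by
    rw [← LinearMap.ker_eq_bot, LinearMap.ker_eq_bot']
    intro w hw
    obtain ⟨c, rfl⟩ := exists_mk_eq I w
    have hc : ∀ k, c k ∈ I := by
      apply hinj
      intro i
      rw [← Ideal.Quotient.eq_zero_iff_mem, mk_mulVec]
      have := congrFun hw i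
      rw [Matrix.toLin'_apply] at this
      exact this
    funext k
    exact Ideal.Quotient.eq_zero_iff_mem.2 (hc k)
  have hβ : LinearMap.ker (Matrix.toLin' βm) ≤ LinearMap.range (Matrix.toLin' ιm) := by
    intro w hw
    obtain ⟨v, rfl⟩ := exists_mk_eq I w
    rw [LinearMap.mem_ker, Matrix.toLin'_apply] at hw
    have hv : ∀ j, (Dβ *ᵥ v) j ∈ I := by
      intro j
      rw [← Ideal.Quotient.eq_zero_iff_mem, mk_mulVec]
      exact congrFun hw j
    obtain ⟨c, hc⟩ := hex v hv
    refine ⟨fun k => mk (c k), ?_⟩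
    rw [Matrix.toLin'_apply]
    funext i
    rw [← mk_mulVec]
    exact ((Ideal.Quotient.eq).2 (hc i)).symm
  obtain ⟨P, S, hP, hS⟩ := exists_retraction_and_section _ _ hι hβ
  obtain ⟨P', hP'⟩ := exists_map_eq I (LinearMap.toMatrix' P)
  obtain ⟨S', hS'⟩ := exists_map_eq I (LinearMap.toMatrix' S)
  refine ⟨P', S', ?_, ?_⟩
  · rw [matCongr_iff_map, Matrix.map_mul, hP', Matrix.map_one _ (map_zero _) (map_one _)]
    have := congrArg LinearMap.toMatrix' hP
    rw [LinearMap.toMatrix'_comp, LinearMap.toMatrix'_toLin', LinearMap.toMatrix'_id] at this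
    exact this
  · rw [matCongr_iff_map, Matrix.map_add _ (map_add _), Matrix.map_mul, Matrix.map_mul, hP', hS',
      Matrix.map_one _ (map_zero _) (map_one _)]
    have := congrArg LinearMap.toMatrix' hS
    rw [map_add, LinearMap.toMatrix'_comp, LinearMap.toMatrix'_comp,
      LinearMap.toMatrix'_toLin', LinearMap.toMatrix'_toLin', LinearMap.toMatrix'_id] at this
    exact this

end Matrix

end Fermat.Agent.T1B.Toric98
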