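import Mathlib
import Fermat.Agent.T1.CechFormal70.BaseChange
import Fermat.Agent.T1B.Toric98.LinAlg
import Fermat.Agent.T1B.Toric98.Fibre

/-!
# T1B / TORIC50, brick T-LIN (helper98): OUTPUT — the matrices `P`, `S` of the first-order step

`D : CechData R C0 C1 C01 g` the nodal two-chart datum (level `M'p`), `D' : CechData R C0' C1' C01' g'`
the smooth one (level `M'`), `FD : FibreDatum π D.ρ0 D.ρ1 E κ` the special fibre of the nodal datum,
`T1 T2 : C01 →ₗ[R] C01'` the two traces, `α β : C01' →ₗ[R] C01` the two pull-backs with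
`α (T1 f) - f ∈ P`, `β (T2 f) - f ∈ Q` (**(K2)**: the trace is the restriction to the component),
`d : r → C01` toric elements at the nodes `≠ e0`.

`Dβ = [coef' (T1 b_i) ; coef' (T2 b_i)]`, `Dι = [coef (d k)]`.  Then there are `P`, `S` with
`P * Dι ≡ 1`, `Dι * P + S * Dβ ≡ 1` mod `π` (`exists_P_S_of_fibre`).
-/

set_option autoImplicit false

namespace Fermat.Agent.T1B.Toric98

open Fermat.Agent.T1.CechFormal70 Matrix

variable {R : Type*} [CommRing R] {C0 C1 C01 : Type*} [CommRing C0] [CommRing C1] [CommRing C01]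
  [Algebra R C0] [Algebra R C1] [Algebra R C01] {g : ℕ} (D : CechData R C0 C1 C01 g)

theorem exists_decomp (y : C01) :
    ∃ (x0 : C0) (x1 : C1), y = ∑ i, D.coef y i • D.b i + D.ρ0 x0 + D.ρ1 x1 :=
  Classical.choose_spec (D.span y)

theorem coef_sum_smul_b (v : Fin g → R) : D.coef (∑ i, v i • D.b i) = v :=
  D.coef_eq (x0 := 0) (x1 := 0) (by simp)

/-- `Z = ρ0 C0 + ρ1 C1 + π C01` is the kernel of `coef` modulo `π`. -/
theorem memZ_iff_coef (π : R) (f : C01) :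
    MemZ π D.ρ0 D.ρ1 f ↔ ∀ i, D.coef f i ∈ Ideal.span {π} := by
  constructor
  · rintro ⟨a0, a1, c, rfl⟩ i
    have h : D.coef (D.ρ0 a0 + D.ρ1 a1 + π • c) = π • D.coef c := by
      have h1 : D.coefₗ (D.ρ0 a0 + D.ρ1 a1 + π • c) =
          D.coefₗ (D.ρ0 a0) + D.coefₗ (D.ρ1 a1) + π • D.coefₗ c := by
        rw [map_add, map_add, map_smul]
      rw [CechData.coefₗ_apply, CechData.coefₗ_apply, CechData.coefₗ_apply, CechData.coefₗ_apply,
        D.coef_ρ0, D.coef_ρ1, add_zero, zero_add] at h1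
      exact h1
    rw [h, Pi.smul_apply, smul_eq_mul]
    exact Ideal.mul_mem_right _ _ (Ideal.mem_span_singleton_self π)
  · intro h
    choose v hv using fun i => Ideal.mem_span_singleton'.1 (h i)
    obtain ⟨x0, x1, hy⟩ := exists_decomp D f
    refine ⟨x0, x1, ∑ i, v i • D.b i, ?_⟩
    have h2 : ∑ i, D.coef f i • D.b i = π • ∑ i, v i • D.b i := by
      rw [Finset.smul_sum]
      refine Finset.sum_congr rfl fun i _ => ?_
      rw [← hv i, smul_smul, mul_comm]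
    rw [← h2]
    linear_combination hy

section Output

variable {C0' C1' C01' : Type*} [CommRing C0'] [CommRing C1'] [CommRing C01']
  [Algebra R C0'] [Algebra R C1'] [Algebra R C01'] {g' : ℕ} (D' : CechData R C0' C1' C01' g')
  (T1 T2 : C01 →ₗ[R] C01') {r : Type*} (d : r → C01)

/-- the first-order push-forward in `H¹`-coordinates -/
noncomputable def Dβ : Matrix (Fin g' ⊕ Fin g') (Fin g) R := fun j i =>
  Sum.elim (fun j' => D'.coef (T1 (D.b i)) j') (fun j' => D'.coef (T2 (D.b i)) j') j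

/-- the first-order toric map in `H¹`-coordinates -/
noncomputable def Dι : Matrix (Fin g) r R := fun i k => D.coef (d k) i

theorem coef_T_sum (T : C01 →ₗ[R] C01') (v : Fin g → R) (j' : Fin g') :
    D'.coef (T (∑ i, v i • D.b i)) j' = ∑ i, D'.coef (T (D.b i)) j' * v i := by
  rw [map_sum]
  have : D'.coef (∑ i, T (v i • D.b i)) = ∑ i, v i • D'.coef (T (D.b i)) := by
    have := map_sum D'.coefₗ (fun i => T (v i • D.b i)) Finset.univ
    simp only [CechData.coefₗ_apply] at this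
    rw [this]
    refine Finset.sum_congr rfl fun i _ => ?_
    rw [map_smul]
    exact D'.coefₗ.map_smul (v i) (T (D.b i))
  rw [this, Finset.sum_apply]
  refine Finset.sum_congr rfl fun i _ => ?_
  rw [Pi.smul_apply, smul_eq_mul, mul_comm]

theorem Dβ_mulVec_inl (v : Fin g → R) (j' : Fin g') :
    (Dβ D D' T1 T2 *ᵥ v) (Sum.inl j') = D'.coef (T1 (∑ i, v i • D.b i)) j' := by
  rw [coef_T_sum]; rfl

theorem Dβ_mulVec_inr (v : Fin g → R) (j' : Fin g') :
    (Dβ D D' T1 T2 *ᵥ v) (Sum.inr j') = D'.coef (T2 (∑ i, v i • D.b i)) j' := by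
  rw [coef_T_sum]; rfl

theorem Dι_mulVec [Fintype r] (c : r → R) (i : Fin g) :
    (Dι D d *ᵥ c) i = D.coef (∑ k, c k • d k) i := by
  have : D.coef (∑ k, c k • d k) = ∑ k, c k • D.coef (d k) := by
    have := map_sum D.coefₗ (fun k => c k • d k) Finset.univ
    simp only [CechData.coefₗ_apply] at this
    rw [this]
    refine Finset.sum_congr rfl fun k _ => ?_
    exact D.coefₗ.map_smul (c k) (d k)
  rw [this, Finset.sum_apply]
  simp only [Matrix.mulVec, dotProduct, Dι, Pi.smul_apply, smul_eq_mul]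
  refine Finset.sum_congr rfl fun k _ => ?_
  rw [mul_comm]

variable {π : R} {E κ : Type*} [Field κ] [Algebra R κ] (FD : FibreDatum π D.ρ0 D.ρ1 E κ)

/-- the pull-back `α : C01' → C01` maps `Z'` into `Z` -/
theorem memZ_of_memZ' (α : C01' →ₗ[R] C01)
    (hα0 : ∀ a : C0', ∃ a0 : C0, α (D'.ρ0 a) = D.ρ0 a0)
    (hα1 : ∀ a : C1', ∃ a1 : C1, α (D'.ρ1 a) = D.ρ1 a1) {x : C01'}
    (hx : MemZ π D'.ρ0 D'.ρ1 x) : MemZ π D.ρ0 D.ρ1 (α x) := by
  obtain ⟨a0, a1, c, rfl⟩ := hx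
  obtain ⟨b0, hb0⟩ := hα0 a0
  obtain ⟨b1, hb1⟩ := hα1 a1
  exact ⟨b0, b1, α c, by rw [map_add, map_add, map_smul, hb0, hb1]⟩

omit [Field κ] [Algebra R κ] in
/-- **(K2) ⇒** a class with trace in `Z'` lies in `ZP`. -/
theorem memZI_of_trace (J : Ideal C01) (hJ : ∀ c : C01, π • c ∈ J) (T : C01 →ₗ[R] C01')
    (α : C01' →ₗ[R] C01)
    (hα0 : ∀ a : C0', ∃ a0 : C0, α (D'.ρ0 a) = D.ρ0 a0)
    (hα1 : ∀ a : C1', ∃ a1 : C1, α (D'.ρ1 a) = D.ρ1 a1)
    (hK2 : ∀ f : C01, α (T f) - f ∈ J) {f : C01} (hf : MemZ π D'.ρ0 D'.ρ1 (T f)) :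
    MemZI D.ρ0 D.ρ1 J f := by
  obtain ⟨b0, b1, c, hc⟩ := memZ_of_memZ' D D' α hα0 hα1 hf
  refine ⟨b0, b1, ?_⟩
  have h1 : f - (D.ρ0 b0 + D.ρ1 b1) = π • c - (α (T f) - f) := by rw [hc]; ring
  rw [h1]
  exact J.sub_mem (hJ c) (hK2 f)

variable [DecidableEq E] [Fintype r] [DecidableEq r]

/-- **T-LIN, OUTPUT.**  The matrices `P`, `S` of the first-order step. -/
theorem exists_P_S_of_fibre [hmax : (Ideal.span {π}).IsMaximal]
    (hsurj : Function.Surjective (algebraMap R κ))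
    (hker : ∀ x : R, algebraMap R κ x = 0 → x ∈ Ideal.span {π})
    (α β : C01' →ₗ[R] C01)
    (hα0 : ∀ a : C0', ∃ a0 : C0, α (D'.ρ0 a) = D.ρ0 a0)
    (hα1 : ∀ a : C1', ∃ a1 : C1, α (D'.ρ1 a) = D.ρ1 a1)
    (hβ0 : ∀ a : C0', ∃ a0 : C0, β (D'.ρ0 a) = D.ρ0 a0)
    (hβ1 : ∀ a : C1', ∃ a1 : C1, β (D'.ρ1 a) = D.ρ1 a1)
    (hK2α : ∀ f : C01, α (T1 f) - f ∈ FD.P) (hK2β : ∀ f : C01, β (T2 f) - f ∈ FD.Q)
    (node : r → E) (hnode : Function.Injective node) (e0 : E) (he0 : ∀ k, node k ≠ e0)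
    (hcov : ∀ e, e ≠ e0 → ∃ k, node k = e)
    (hd : ∀ k, FD.IsToric (FibreDatum.indic (node k)) (d k)) :
    ∃ (P : Matrix r (Fin g) R) (S : Matrix (Fin g) (Fin g' ⊕ Fin g') R),
      MatCongr (Ideal.span {π}) (P * Dι D d) 1 ∧
      MatCongr (Ideal.span {π}) (Dι D d * P + S * Dβ D D' T1 T2) 1 := by
  apply exists_P_S (Ideal.span {π}) (Dι D d) (Dβ D D' T1 T2)
  · -- (SF2')
    intro c hc k
    have h1 : MemZ π D.ρ0 D.ρ1 (∑ k, c k • d k) := by
      rw [memZ_iff_coef]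
      intro i
      rw [← Dι_mulVec]
      exact hc i
    exact hker _ (FD.forall_eq_zero_of_sum_memZ node hnode e0 he0 d hd c h1 k)
  · -- (SF1')
    intro v hv
    set f : C01 := ∑ i, v i • D.b i with hf
    have hT1 : MemZ π D'.ρ0 D'.ρ1 (T1 f) := by
      rw [memZ_iff_coef]
      intro j'
      rw [← Dβ_mulVec_inl D D' T1 T2]
      exact hv _
    have hT2 : MemZ π D'.ρ0 D'.ρ1 (T2 f) := by
      rw [memZ_iff_coef]
      intro j'
      rw [← Dβ_mulVec_inr D D' T1 T2]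
      exact hv _
    have hP := memZI_of_trace D D' FD.P FD.pi_mem_P T1 α hα0 hα1 hK2α hT1
    have hQ := memZI_of_trace D D' FD.Q FD.pi_mem_Q T2 β hβ0 hβ1 hK2β hT2
    obtain ⟨c, hc⟩ := FD.exists_sub_sum_memZ hsurj node hnode e0 hcov d hd hP hQ
    refine ⟨c, fun i => ?_⟩
    rw [memZ_iff_coef] at hc
    have := hc i
    have h2 : D.coef (f - ∑ k, c k • d k) = D.coef f - D.coef (∑ k, c k • d k) :=
      D.coefₗ.map_sub f (∑ k, c k • d k)
    rw [h2, Pi.sub_apply, hf, coef_sum_smul_b, ← Dι_mulVec] at this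
    exact this

end Output

end Fermat.Agent.T1B.Toric98
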