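import Mathlib

/-!
# T1B / TORIC50, brick T-LIN (helper98), part (L3): **(K2)** the trace is the restriction to the
component

`F / F₀` a field extension of degree `p + 1` (`F₀ = α(F')`, the function field of level `M'` inside
that of level `M'p`), `O1 O2` two valuation subrings of `F` with the same restriction `O₀` to `F₀`,
`ϖ ∈ F₀` a uniformiser of `O1` (hence of `O₀`), non-unit in `O2`.  Suppose
* `w ∈ F` with `w ≡ 1 mod ϖ O1`, `w ≡ 0 mod ϖ O2` (approximation);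
* `θ ∈ O1 ∩ O2` with `θ ^ p ≡ a mod ϖ O2`, `a ∈ O₀` (Kronecker: functions of level `M'` are `p`-th
  powers along the second component) and `1, θ, …, θ^(p-1)` residually independent over `O₀` in `O2`;
* `p ∈ ϖ O₀`.
Then for every `f ∈ O1 ∩ O2`: `Tr_{F/F₀} f ∈ O₀` and `Tr_{F/F₀} f - f ∈ ϖ O1`
(`K2Datum.trace_mem`, `K2Datum.trace_sub_self`).

Elementary proof: `w, (1 - w) θ^i` (`i < p`) is an `O₀`-basis of `O1 ∩ O2`; modulo `ϖ` the matrix of
the multiplication by `f` is block diagonal with blocks `f mod 𝔪₁` and the multiplication by `f` on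
`κ₀[θ] / (θ^p - a)`, whose trace is `p · c₀ = 0`.
-/

set_option autoImplicit false

namespace Fermat.Agent.T1B.Toric98

variable {F₀ F : Type*} [Field F₀] [Field F] [Algebra F₀ F]

/-- `x ∈ ϖ O`. -/
def PiO (ϖ : F₀) (O : ValuationSubring F) (x : F) : Prop :=
  ∃ c ∈ O, x = algebraMap F₀ F ϖ * c

namespace PiO

variable {ϖ : F₀} {O : ValuationSubring F} {x y : F}

theorem zero : PiO ϖ O 0 := ⟨0, O.zero_mem, by simp⟩

theorem add (hx : PiO ϖ O x) (hy : PiO ϖ O y) : PiO ϖ O (x + y) := by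
  obtain ⟨c, hc, rfl⟩ := hx
  obtain ⟨c', hc', rfl⟩ := hy
  exact ⟨c + c', O.add_mem _ _ hc hc', by ring⟩

theorem neg (hx : PiO ϖ O x) : PiO ϖ O (-x) := by
  obtain ⟨c, hc, rfl⟩ := hx
  exact ⟨-c, O.neg_mem _ hc, by ring⟩

theorem sub (hx : PiO ϖ O x) (hy : PiO ϖ O y) : PiO ϖ O (x - y) := by
  rw [sub_eq_add_neg]; exact hx.add hy.neg

theorem mul_left (hx : PiO ϖ O x) (hy : y ∈ O) : PiO ϖ O (y * x) := by
  obtain ⟨c, hc, rfl⟩ := hx
  exact ⟨y * c, O.mul_mem _ _ hy hc, by ring⟩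

theorem mul_right (hx : PiO ϖ O x) (hy : y ∈ O) : PiO ϖ O (x * y) := by
  rw [mul_comm]; exact hx.mul_left hy

theorem sum {ι : Type*} (s : Finset ι) {g : ι → F} (h : ∀ i ∈ s, PiO ϖ O (g i)) :
    PiO ϖ O (∑ i ∈ s, g i) := by
  classical
  induction s using Finset.induction_on with
  | empty => simpa using PiO.zero
  | insert a s ha ih =>
    rw [Finset.sum_insert ha]
    exact (h a (Finset.mem_insert_self a s)).add (ih fun i hi => h i (Finset.mem_insert_of_mem hi))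

theorem mem (hϖ : algebraMap F₀ F ϖ ∈ O) (hx : PiO ϖ O x) : x ∈ O := by
  obtain ⟨c, hc, rfl⟩ := hx
  exact O.mul_mem _ _ hϖ hc

end PiO

/-- The valuation-theoretic input of (K2). -/
structure K2Datum (ϖ : F₀) (p : ℕ) (O1 O2 : ValuationSubring F) where
  w : F
  θ : F
  a : F₀
  hcomap : ∀ x : F₀, algebraMap F₀ F x ∈ O1 ↔ algebraMap F₀ F x ∈ O2
  pi_nonunit1 : (algebraMap F₀ F ϖ)⁻¹ ∉ O1
  pi_nonunit2 : (algebraMap F₀ F ϖ)⁻¹ ∉ O2
  unif1 : ∀ x ∈ O1, x⁻¹ ∉ O1 → PiO ϖ O1 x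
  hw1 : PiO ϖ O1 (w - 1)
  hw2 : PiO ϖ O2 w
  hθ1 : θ ∈ O1
  hθ2 : θ ∈ O2
  ha : algebraMap F₀ F a ∈ O1
  hθp : PiO ϖ O2 (θ ^ p - algebraMap F₀ F a)
  hind : ∀ c : Fin p → F₀, (∀ i, algebraMap F₀ F (c i) ∈ O1) →
    PiO ϖ O2 (∑ i, algebraMap F₀ F (c i) * θ ^ (i : ℕ)) →
    ∀ i, ∃ c' : F₀, algebraMap F₀ F c' ∈ O1 ∧ c i = ϖ * c'
  hp : ∃ c' : F₀, algebraMap F₀ F c' ∈ O1 ∧ (p : F₀) = ϖ * c'
  hrank : Module.finrank F₀ F = p + 1

namespace K2Datum

variable {ϖ : F₀} {p : ℕ} {O1 O2 : ValuationSubring F} (D : K2Datum ϖ p O1 O2)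

/-- `a ∈ O₀`. -/
def In0 (_D : K2Datum ϖ p O1 O2) (a : F₀) : Prop := algebraMap F₀ F a ∈ O1

/-- `a ∈ ϖ O₀`. -/
def Pi0 (_D : K2Datum ϖ p O1 O2) (a : F₀) : Prop :=
  ∃ c' : F₀, algebraMap F₀ F c' ∈ O1 ∧ a = ϖ * c'

theorem in0_iff2 (a : F₀) : D.In0 a ↔ algebraMap F₀ F a ∈ O2 := D.hcomap a

include D

theorem pi_ne : algebraMap F₀ F ϖ ≠ 0 := by
  intro h
  apply D.pi_nonunit1
  rw [h, inv_zero]; exact O1.zero_mem

theorem varpi_ne : ϖ ≠ 0 := by
  intro h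
  apply D.pi_ne
  rw [h, map_zero]

theorem pi_mem1 : algebraMap F₀ F ϖ ∈ O1 :=
  (O1.mem_or_inv_mem _).resolve_right D.pi_nonunit1

theorem pi_mem2 : algebraMap F₀ F ϖ ∈ O2 :=
  (O2.mem_or_inv_mem _).resolve_right D.pi_nonunit2

theorem in0_varpi : D.In0 ϖ := D.pi_mem1

theorem In0.add {a b : F₀} (ha : D.In0 a) (hb : D.In0 b) : D.In0 (a + b) := by
  unfold In0; rw [map_add]; exact O1.add_mem _ _ ha hb

theorem In0.mul {a b : F₀} (ha : D.In0 a) (hb : D.In0 b) : D.In0 (a * b) := by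
  unfold In0; rw [map_mul]; exact O1.mul_mem _ _ ha hb

theorem in0_one : D.In0 1 := by unfold In0; rw [map_one]; exact O1.one_mem

theorem in0_zero : D.In0 0 := by unfold In0; rw [map_zero]; exact O1.zero_mem

theorem In0.sum {ι : Type*} (s : Finset ι) {g : ι → F₀} (h : ∀ i ∈ s, D.In0 (g i)) :
    D.In0 (∑ i ∈ s, g i) := by
  unfold In0; rw [map_sum]; exact sum_mem h

theorem Pi0.in0 {a : F₀} (h : D.Pi0 a) : D.In0 a := by
  obtain ⟨c, hc, rfl⟩ := h
  exact D.in0_varpi.mul D hc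

theorem Pi0.add {a b : F₀} (ha : D.Pi0 a) (hb : D.Pi0 b) : D.Pi0 (a + b) := by
  obtain ⟨c, hc, rfl⟩ := ha
  obtain ⟨c', hc', rfl⟩ := hb
  exact ⟨c + c', In0.add D hc hc', by ring⟩

theorem Pi0.mul_left {a b : F₀} (ha : D.Pi0 a) (hb : D.In0 b) : D.Pi0 (b * a) := by
  obtain ⟨c, hc, rfl⟩ := ha
  exact ⟨b * c, In0.mul D hb hc, by ring⟩

theorem pi0_zero : D.Pi0 0 := ⟨0, D.in0_zero, by ring⟩

theorem Pi0.neg {a : F₀} (ha : D.Pi0 a) : D.Pi0 (-a) := by
  have := Pi0.mul_left D ha (b := -1) (by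
    unfold In0; rw [map_neg, map_one]; exact O1.neg_mem _ O1.one_mem)
  simpa using this

theorem Pi0.sub {a b : F₀} (ha : D.Pi0 a) (hb : D.Pi0 b) : D.Pi0 (a - b) := by
  rw [sub_eq_add_neg]; exact Pi0.add D ha (Pi0.neg D hb)

theorem Pi0.sum {ι : Type*} (s : Finset ι) {g : ι → F₀} (h : ∀ i ∈ s, D.Pi0 (g i)) :
    D.Pi0 (∑ i ∈ s, g i) := by
  classical
  induction s using Finset.induction_on with
  | empty => simpa using D.pi0_zero
  | insert a s ha ih =>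
    rw [Finset.sum_insert ha]
    exact Pi0.add D (h a (Finset.mem_insert_self a s))
      (ih fun i hi => h i (Finset.mem_insert_of_mem hi))

theorem Pi0.piO1 {a : F₀} (h : D.Pi0 a) : PiO ϖ O1 (algebraMap F₀ F a) := by
  obtain ⟨c, hc, rfl⟩ := h
  exact ⟨algebraMap F₀ F c, hc, by rw [map_mul]⟩

theorem Pi0.piO2 {a : F₀} (h : D.Pi0 a) : PiO ϖ O2 (algebraMap F₀ F a) := by
  obtain ⟨c, hc, rfl⟩ := h
  exact ⟨algebraMap F₀ F c, (D.in0_iff2 c).1 hc, by rw [map_mul]⟩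

/-- `ϖ O1 ∩ F₀ = ϖ O₀`. -/
theorem pi0_of_piO1 {a : F₀} (h : PiO ϖ O1 (algebraMap F₀ F a)) : D.Pi0 a := by
  obtain ⟨c, hc, hac⟩ := h
  refine ⟨a / ϖ, ?_, by field_simp [D.varpi_ne]⟩
  have : algebraMap F₀ F (a / ϖ) = c := by
    rw [map_div₀, hac, mul_div_assoc, mul_comm, div_mul_cancel₀ _ D.pi_ne]
  rw [this]; exact hc

theorem not_pi0_one : ¬ D.Pi0 1 := by
  rintro ⟨c, hc, h1⟩
  apply D.pi_nonunit1
  have : (algebraMap F₀ F ϖ)⁻¹ = algebraMap F₀ F c :=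
    inv_eq_of_mul_eq_one_right (by rw [← map_mul, ← h1, map_one])
  rw [this]; exact hc

/-- `O₀` has uniformiser `ϖ`. -/
theorem pi0_of_not_in0_inv {a : F₀} (ha : D.In0 a) (ha' : ¬ D.In0 a⁻¹) : D.Pi0 a := by
  apply D.pi0_of_piO1
  apply D.unif1 _ ha
  intro h
  apply ha'
  unfold In0
  rw [map_inv₀]; exact h

/-! ### The basis `w, (1 - w) θ^i` -/

/-- the family `w, (1 - w) θ^i`. -/
def eps : Fin (p + 1) → F := Fin.cons D.w (fun i : Fin p => (1 - D.w) * D.θ ^ (i : ℕ))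

@[simp] theorem eps_zero : D.eps 0 = D.w := rfl

@[simp] theorem eps_succ (i : Fin p) : D.eps i.succ = (1 - D.w) * D.θ ^ (i : ℕ) := rfl

theorem w_mem1 : D.w ∈ O1 := by
  have := O1.add_mem _ _ (D.hw1.mem D.pi_mem1) O1.one_mem
  simpa using this

theorem w_mem2 : D.w ∈ O2 := D.hw2.mem D.pi_mem2

theorem one_sub_w_piO1 : PiO ϖ O1 (1 - D.w) := by
  have := D.hw1.neg
  rwa [neg_sub] at this

theorem eps_mem1 (k : Fin (p + 1)) : D.eps k ∈ O1 := by
  refine Fin.cases ?_ (fun i => ?_) k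
  · exact D.w_mem1
  · rw [eps_succ]
    exact O1.mul_mem _ _ (sub_mem O1.one_mem D.w_mem1) (pow_mem D.hθ1 _)

theorem eps_mem2 (k : Fin (p + 1)) : D.eps k ∈ O2 := by
  refine Fin.cases ?_ (fun i => ?_) k
  · exact D.w_mem2
  · rw [eps_succ]
    exact O2.mul_mem _ _ (sub_mem O2.one_mem D.w_mem2) (pow_mem D.hθ2 _)

theorem sum_eps (c : Fin (p + 1) → F₀) :
    ∑ k, algebraMap F₀ F (c k) * D.eps k = algebraMap F₀ F (c 0) * D.w +
      (1 - D.w) * ∑ i : Fin p, algebraMap F₀ F (c i.succ) * D.θ ^ (i : ℕ) := by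
  rw [Fin.sum_univ_succ, eps_zero, Finset.mul_sum]
  congr 1
  refine Finset.sum_congr rfl fun i _ => ?_
  rw [eps_succ]; ring

theorem sum_theta_mem1 (c : Fin p → F₀) (hc : ∀ i, D.In0 (c i)) :
    ∑ i : Fin p, algebraMap F₀ F (c i) * D.θ ^ (i : ℕ) ∈ O1 :=
  sum_mem fun i _ => O1.mul_mem _ _ (hc i) (pow_mem D.hθ1 _)

theorem sum_theta_mem2 (c : Fin p → F₀) (hc : ∀ i, D.In0 (c i)) :
    ∑ i : Fin p, algebraMap F₀ F (c i) * D.θ ^ (i : ℕ) ∈ O2 :=
  sum_mem fun i _ => O2.mul_mem _ _ ((D.in0_iff2 _).1 (hc i)) (pow_mem D.hθ2 _)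

/-- reduction modulo `ϖ O1`: `∑ c_k ε_k ≡ c_0`. -/
theorem sum_eps_sub_piO1 (c : Fin (p + 1) → F₀) (hc : ∀ k, D.In0 (c k)) :
    PiO ϖ O1 (∑ k, algebraMap F₀ F (c k) * D.eps k - algebraMap F₀ F (c 0)) := by
  rw [sum_eps]
  have h1 : algebraMap F₀ F (c 0) * D.w +
      (1 - D.w) * ∑ i : Fin p, algebraMap F₀ F (c i.succ) * D.θ ^ (i : ℕ) - algebraMap F₀ F (c 0)
      = (D.w - 1) * algebraMap F₀ F (c 0) + (1 - D.w) *
        ∑ i : Fin p, algebraMap F₀ F (c i.succ) * D.θ ^ (i : ℕ) := by ring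
  rw [h1]
  exact (D.hw1.mul_right (hc 0)).add
    (D.one_sub_w_piO1.mul_right (D.sum_theta_mem1 _ fun i => hc i.succ))

/-- reduction modulo `ϖ O2`: `∑ c_k ε_k ≡ ∑ c_{i+1} θ^i`. -/
theorem sum_eps_sub_piO2 (c : Fin (p + 1) → F₀) (hc : ∀ k, D.In0 (c k)) :
    PiO ϖ O2 (∑ k, algebraMap F₀ F (c k) * D.eps k -
      ∑ i : Fin p, algebraMap F₀ F (c i.succ) * D.θ ^ (i : ℕ)) := by
  rw [sum_eps]
  have h1 : algebraMap F₀ F (c 0) * D.w +
      (1 - D.w) * ∑ i : Fin p, algebraMap F₀ F (c i.succ) * D.θ ^ (i : ℕ) -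
      ∑ i : Fin p, algebraMap F₀ F (c i.succ) * D.θ ^ (i : ℕ)
      = D.w * algebraMap F₀ F (c 0) - D.w *
        ∑ i : Fin p, algebraMap F₀ F (c i.succ) * D.θ ^ (i : ℕ) := by ring
  rw [h1]
  exact (D.hw2.mul_right ((D.in0_iff2 _).1 (hc 0))).sub
    (D.hw2.mul_right (D.sum_theta_mem2 _ fun i => hc i.succ))

theorem key1 (c : Fin (p + 1) → F₀) (hc : ∀ k, D.In0 (c k))
    (h : PiO ϖ O1 (∑ k, algebraMap F₀ F (c k) * D.eps k)) : D.Pi0 (c 0) := by
  apply D.pi0_of_piO1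
  have := h.sub (D.sum_eps_sub_piO1 c hc)
  rwa [sub_sub_cancel] at this

theorem key2 (c : Fin (p + 1) → F₀) (hc : ∀ k, D.In0 (c k))
    (h : PiO ϖ O2 (∑ k, algebraMap F₀ F (c k) * D.eps k)) (i : Fin p) : D.Pi0 (c i.succ) := by
  have := h.sub (D.sum_eps_sub_piO2 c hc)
  rw [sub_sub_cancel] at this
  exact D.hind (fun i => c i.succ) (fun i => hc i.succ) this i

theorem key (c : Fin (p + 1) → F₀) (hc : ∀ k, D.In0 (c k))
    (h1 : PiO ϖ O1 (∑ k, algebraMap F₀ F (c k) * D.eps k))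
    (h2 : PiO ϖ O2 (∑ k, algebraMap F₀ F (c k) * D.eps k)) (k : Fin (p + 1)) : D.Pi0 (c k) := by
  refine Fin.cases ?_ (fun i => ?_) k
  · exact D.key1 c hc h1
  · exact D.key2 c hc h2 i

/-- scaling a finite family into `O₀`. -/
theorem exists_scale {ι : Type*} [Fintype ι] (c : ι → F₀) (hc : ∃ i, c i ≠ 0) :
    ∃ j, c j ≠ 0 ∧ (∀ k, D.In0 (c k / c j)) ∧ ∀ k, ¬ D.In0 (c k) → ¬ D.In0 (c j) := by
  classical
  set O0 : ValuationSubring F₀ := O1.comap (algebraMap F₀ F) with hO0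
  have hin : ∀ a : F₀, D.In0 a ↔ O0.valuation a ≤ 1 := by
    intro a
    rw [ValuationSubring.valuation_le_one_iff, hO0, ValuationSubring.mem_comap]; rfl
  obtain ⟨i₀, hi₀⟩ := hc
  obtain ⟨j, -, hj⟩ := Finset.exists_max_image Finset.univ (fun i => O0.valuation (c i))
    ⟨i₀, Finset.mem_univ _⟩
  have hj0 : c j ≠ 0 := by
    intro h0
    have h1 := hj i₀ (Finset.mem_univ _)
    rw [h0, map_zero] at h1
    exact hi₀ ((Valuation.zero_iff _).mp (le_antisymm h1 zero_le))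
  have hpos : 0 < O0.valuation (c j) := by
    rw [pos_iff_ne_zero, ne_eq, Valuation.zero_iff]; exact hj0
  refine ⟨j, hj0, fun k => ?_, fun k hk hj' => ?_⟩
  · rw [hin, map_div₀]
    exact (div_le_one₀ hpos).mpr (hj k (Finset.mem_univ _))
  · rw [hin] at hk hj'
    exact hk ((hj k (Finset.mem_univ _)).trans hj')

theorem linearIndependent_eps : LinearIndependent F₀ D.eps := by
  rw [Fintype.linearIndependent_iff]
  intro c hc
  by_contra hex
  push Not at hex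
  obtain ⟨j, hj0, hj, -⟩ := D.exists_scale c hex
  have hsum : ∑ k, algebraMap F₀ F (c k / c j) * D.eps k = 0 := by
    have : ∑ k, algebraMap F₀ F (c k / c j) * D.eps k
        = (algebraMap F₀ F (c j))⁻¹ * ∑ k, c k • D.eps k := by
      rw [Finset.mul_sum]
      refine Finset.sum_congr rfl fun k _ => ?_
      rw [map_div₀, Algebra.smul_def]; ring
    rw [this, hc, mul_zero]
  have h := D.key (fun k => c k / c j) hj (hsum ▸ PiO.zero) (hsum ▸ PiO.zero) j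
  rw [div_self hj0] at h
  exact D.not_pi0_one h

/-- the basis `w, (1 - w) θ^i` of `F / F₀`. -/
noncomputable def basis : Module.Basis (Fin (p + 1)) F₀ F :=
  basisOfLinearIndependentOfCardEqFinrank D.linearIndependent_eps
    (by rw [Fintype.card_fin, D.hrank])

@[simp] theorem basis_apply (k : Fin (p + 1)) : D.basis k = D.eps k := by
  rw [basis, coe_basisOfLinearIndependentOfCardEqFinrank]

theorem sum_repr (x : F) : ∑ k, algebraMap F₀ F (D.basis.repr x k) * D.eps k = x := by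
  conv_rhs => rw [← D.basis.sum_repr x]
  refine Finset.sum_congr rfl fun k _ => ?_
  rw [basis_apply, Algebra.smul_def]

/-- **(R1)** the coordinates of an element of `O1 ∩ O2` are integral. -/
theorem repr_in0 {x : F} (h1 : x ∈ O1) (h2 : x ∈ O2) (k : Fin (p + 1)) :
    D.In0 (D.basis.repr x k) := by
  by_contra hk
  set c : Fin (p + 1) → F₀ := fun k => D.basis.repr x k with hc
  have hex : ∃ i, c i ≠ 0 := by
    refine ⟨k, fun h0 => hk ?_⟩
    rw [show D.basis.repr x k = c k from rfl, h0]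
    exact D.in0_zero
  obtain ⟨j, hj0, hj, hjn⟩ := D.exists_scale c hex
  have hjn' : ¬ D.In0 (c j) := hjn k hk
  -- `(c j)⁻¹ ∈ ϖ O₀`
  have hinv : D.Pi0 (c j)⁻¹ := by
    apply D.pi0_of_not_in0_inv
    · have := (O1.mem_or_inv_mem (algebraMap F₀ F (c j))).resolve_left hjn'
      unfold In0; rw [map_inv₀]; exact this
    · rw [inv_inv]; exact hjn'
  have hsum : ∑ k, algebraMap F₀ F (c k / c j) * D.eps k = algebraMap F₀ F (c j)⁻¹ * x := by
    conv_rhs => rw [← D.sum_repr x, Finset.mul_sum]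
    refine Finset.sum_congr rfl fun k _ => ?_
    rw [map_div₀, map_inv₀]; ring
  have hP1 : PiO ϖ O1 (algebraMap F₀ F (c j)⁻¹ * x) := (Pi0.piO1 D hinv).mul_right h1
  have hP2 : PiO ϖ O2 (algebraMap F₀ F (c j)⁻¹ * x) := (Pi0.piO2 D hinv).mul_right h2
  have h := D.key (fun k => c k / c j) hj (hsum ▸ hP1) (hsum ▸ hP2) j
  rw [div_self hj0] at h
  exact D.not_pi0_one h

/-- **(R3)** the `0`-th coordinate is the residue along the first component. -/
theorem repr_zero_sub {x : F} (h1 : x ∈ O1) (h2 : x ∈ O2) :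
    PiO ϖ O1 (x - algebraMap F₀ F (D.basis.repr x 0)) := by
  have := D.sum_eps_sub_piO1 (fun k => D.basis.repr x k) (fun k => D.repr_in0 h1 h2 k)
  rwa [D.sum_repr x] at this

/-- **(R2')** the other coordinates are the residue along the second component. -/
theorem repr_succ_sub {x : F} (h1 : x ∈ O1) (h2 : x ∈ O2) :
    PiO ϖ O2 (x - ∑ i : Fin p, algebraMap F₀ F (D.basis.repr x i.succ) * D.θ ^ (i : ℕ)) := by
  have := D.sum_eps_sub_piO2 (fun k => D.basis.repr x k) (fun k => D.repr_in0 h1 h2 k)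
  rwa [D.sum_repr x] at this

/-- **(R2)** an element of `O1 ∩ ϖ O2` has `ϖ`-small coordinates along the second component. -/
theorem repr_succ_pi0 {x : F} (h1 : x ∈ O1) (h2 : PiO ϖ O2 x) (i : Fin p) :
    D.Pi0 (D.basis.repr x i.succ) := by
  have hx2 : x ∈ O2 := h2.mem D.pi_mem2
  apply D.key2 (fun k => D.basis.repr x k) (fun k => D.repr_in0 h1 hx2 k)
  rw [D.sum_repr x]; exact h2

/-! ### The trace -/

/-- `(1 - w) θ^m`, `m < p`, is a basis vector. -/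
theorem repr_theta_lt (m : ℕ) (hm : m < p) :
    D.basis.repr ((1 - D.w) * D.θ ^ m) = Finsupp.single (⟨m, hm⟩ : Fin p).succ 1 := by
  have : (1 - D.w) * D.θ ^ m = D.basis (⟨m, hm⟩ : Fin p).succ := by
    rw [basis_apply, eps_succ]
  rw [this, Module.Basis.repr_self]

theorem one_sub_w_theta_mem1 (m : ℕ) : (1 - D.w) * D.θ ^ m ∈ O1 :=
  O1.mul_mem _ _ (sub_mem O1.one_mem D.w_mem1) (pow_mem D.hθ1 _)

theorem one_sub_w_theta_mem2 (m : ℕ) : (1 - D.w) * D.θ ^ m ∈ O2 :=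
  O2.mul_mem _ _ (sub_mem O2.one_mem D.w_mem2) (pow_mem D.hθ2 _)

/-- for `p ≤ m < 2p` and `m - p ≠ i` the `i`-th coordinate of `(1 - w) θ^m` is `ϖ`-small. -/
theorem repr_theta_ge (m : ℕ) (hm1 : p ≤ m) (hm2 : m < 2 * p) (i : Fin p) (hi : m - p ≠ i) :
    D.Pi0 (D.basis.repr ((1 - D.w) * D.θ ^ m) i.succ) := by
  have h1 : (1 - D.w) * D.θ ^ m = D.a • ((1 - D.w) * D.θ ^ (m - p)) +
      (D.θ ^ p - algebraMap F₀ F D.a) * ((1 - D.w) * D.θ ^ (m - p)) := by
    have : D.θ ^ m = D.θ ^ (m - p) * D.θ ^ p := by rw [← pow_add, Nat.sub_add_cancel hm1]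
    rw [this, Algebra.smul_def]; ring
  have hlt : m - p < p := by omega
  rw [h1, map_add, Finsupp.add_apply, map_smul, Finsupp.smul_apply, D.repr_theta_lt (m - p) hlt,
    Finsupp.single_apply]
  have hne : ¬ ((⟨m - p, hlt⟩ : Fin p).succ = i.succ) := by
    intro h
    apply hi
    have := Fin.succ_injective _ h
    exact congrArg Fin.val this
  rw [if_neg hne, smul_zero, zero_add]
  apply D.repr_succ_pi0
  · exact O1.mul_mem _ _ (sub_mem (pow_mem D.hθ1 _) D.ha) (D.one_sub_w_theta_mem1 _)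
  · exact D.hθp.mul_right (D.one_sub_w_theta_mem2 _)

theorem trace_formula (f : F) :
    Algebra.trace F₀ F f = ∑ k, D.basis.repr (f * D.eps k) k := by
  rw [Algebra.trace_eq_matrix_trace D.basis, Matrix.trace]
  refine Finset.sum_congr rfl fun k _ => ?_
  rw [Matrix.diag_apply, Algebra.leftMulMatrix_eq_repr_mul, basis_apply]

/-- **(K2), integrality.** -/
theorem trace_mem {f : F} (hf1 : f ∈ O1) (hf2 : f ∈ O2) :
    algebraMap F₀ F (Algebra.trace F₀ F f) ∈ O1 := by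
  rw [D.trace_formula]
  exact In0.sum D _ fun k _ =>
    D.repr_in0 (O1.mul_mem _ _ hf1 (D.eps_mem1 k)) (O2.mul_mem _ _ hf2 (D.eps_mem2 k)) k

/-- the diagonal coordinates along the second component are all `≡ c₀`. -/
theorem repr_diag_succ {f : F} (hf1 : f ∈ O1) (hf2 : f ∈ O2) (i : Fin p) :
    D.Pi0 (D.basis.repr (f * D.eps i.succ) i.succ -
      ∑ l : Fin p, D.basis.repr f l.succ * (if (l : ℕ) = 0 then 1 else 0)) := by
  set c : Fin p → F₀ := fun l => D.basis.repr f l.succ with hc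
  have hcin : ∀ l, D.In0 (c l) := fun l => D.repr_in0 hf1 hf2 l.succ
  set g : F := f - ∑ l : Fin p, algebraMap F₀ F (c l) * D.θ ^ (l : ℕ) with hg
  have hg2 : PiO ϖ O2 g := D.repr_succ_sub hf1 hf2
  have hg1 : g ∈ O1 := sub_mem hf1 (D.sum_theta_mem1 c hcin)
  have hexp : f * D.eps i.succ = ∑ l : Fin p, c l • ((1 - D.w) * D.θ ^ ((l : ℕ) + i)) +
      g * ((1 - D.w) * D.θ ^ (i : ℕ)) := by
    have : ∑ l : Fin p, c l • ((1 - D.w) * D.θ ^ ((l : ℕ) + i)) =
        (∑ l : Fin p, algebraMap F₀ F (c l) * D.θ ^ (l : ℕ)) * ((1 - D.w) * D.θ ^ (i : ℕ)) := by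
      rw [Finset.sum_mul]
      refine Finset.sum_congr rfl fun l _ => ?_
      rw [Algebra.smul_def, pow_add]; ring
    rw [eps_succ, this, hg]; ring
  rw [hexp, map_add, map_sum, Finsupp.add_apply, Finsupp.finsetSum_apply]
  have hsum : ∑ l : Fin p, (D.basis.repr (c l • ((1 - D.w) * D.θ ^ ((l : ℕ) + i)))) i.succ +
      (D.basis.repr (g * ((1 - D.w) * D.θ ^ (i : ℕ)))) i.succ -
      ∑ l : Fin p, c l * (if (l : ℕ) = 0 then 1 else 0) =
      ∑ l : Fin p, c l * (D.basis.repr ((1 - D.w) * D.θ ^ ((l : ℕ) + i)) i.succ -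
        (if (l : ℕ) = 0 then 1 else 0)) +
      (D.basis.repr (g * ((1 - D.w) * D.θ ^ (i : ℕ)))) i.succ := by
    have : ∀ l : Fin p, (D.basis.repr (c l • ((1 - D.w) * D.θ ^ ((l : ℕ) + i)))) i.succ =
        c l * D.basis.repr ((1 - D.w) * D.θ ^ ((l : ℕ) + i)) i.succ := by
      intro l
      rw [map_smul, Finsupp.smul_apply, smul_eq_mul]
    simp only [this, mul_sub, Finset.sum_sub_distrib]
    ring
  rw [hsum]
  refine Pi0.add D (Pi0.sum D _ fun l _ => Pi0.mul_left D ?_ (hcin l)) ?_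
  · by_cases hl : (l : ℕ) = 0
    · rw [if_pos hl, hl, zero_add, D.repr_theta_lt i i.2, Finsupp.single_apply, if_pos rfl,
        sub_self]
      exact D.pi0_zero
    · rw [if_neg hl, sub_zero]
      by_cases hlt : (l : ℕ) + i < p
      · rw [D.repr_theta_lt _ hlt, Finsupp.single_apply]
        have hne : ¬ ((⟨(l : ℕ) + i, hlt⟩ : Fin p).succ = i.succ) := by
          intro h
          have := congrArg Fin.val (Fin.succ_injective _ h)
          simp only at this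
          omega
        rw [if_neg hne]
        exact D.pi0_zero
      · apply D.repr_theta_ge
        · omega
        · have := l.2; have := i.2; omega
        · have := l.2; omega
  · apply D.repr_succ_pi0
    · exact O1.mul_mem _ _ hg1 (D.one_sub_w_theta_mem1 _)
    · exact hg2.mul_right (D.one_sub_w_theta_mem2 _)

/-- **(K2)** the trace is the restriction to the first component modulo `ϖ`. -/
theorem trace_sub_self {f : F} (hf1 : f ∈ O1) (hf2 : f ∈ O2) :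
    PiO ϖ O1 (algebraMap F₀ F (Algebra.trace F₀ F f) - f) := by
  rw [D.trace_formula, Fin.sum_univ_succ, map_add, eps_zero]
  -- the first diagonal entry
  have hA : PiO ϖ O1 (algebraMap F₀ F (D.basis.repr (f * D.w) 0) - f) := by
    have h1 := D.repr_zero_sub (O1.mul_mem _ _ hf1 D.w_mem1) (O2.mul_mem _ _ hf2 D.w_mem2)
    have h2 : PiO ϖ O1 (f * D.w - f) := by
      have : f * D.w - f = f * (D.w - 1) := by ring
      rw [this]; exact D.hw1.mul_left hf1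
    have := h2.sub h1
    convert this using 1; ring
  -- the other diagonal entries
  set c0 : F₀ := ∑ l : Fin p, D.basis.repr f l.succ * (if (l : ℕ) = 0 then 1 else 0) with hc0
  have hc0in : D.In0 c0 := In0.sum D _ fun l _ => In0.mul D (D.repr_in0 hf1 hf2 l.succ) (by
    split_ifs
    · exact D.in0_one
    · exact D.in0_zero)
  have hB : D.Pi0 (∑ i : Fin p, D.basis.repr (f * D.eps i.succ) i.succ) := by
    have h1 : ∑ i : Fin p, D.basis.repr (f * D.eps i.succ) i.succ =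
        ∑ i : Fin p, (D.basis.repr (f * D.eps i.succ) i.succ - c0) + (p : F₀) * c0 := by
      rw [Finset.sum_sub_distrib, Finset.sum_const, Finset.card_univ, Fintype.card_fin,
        nsmul_eq_mul]
      ring
    rw [h1]
    refine Pi0.add D (Pi0.sum D _ fun i _ => D.repr_diag_succ hf1 hf2 i) ?_
    obtain ⟨c', hc', hpc⟩ := D.hp
    exact ⟨c' * c0, In0.mul D hc' hc0in, by rw [hpc]; ring⟩
  have := hA.add (Pi0.piO1 D hB)
  convert this using 1; ring

end K2Datum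

end Fermat.Agent.T1B.Toric98
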