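import Mathlib
import Fermat.Agent.T1B.Toric98.Fibre

/-!
# T1B / TORIC50, brick T-LIN (helper98): the `FibreDatum` of a two-chart model inside a field

`B0 B1 : Subalgebra R F` (the charts, `C01 = B0 ⊔ B1`), `O1 O2 : ValuationSubring F` (the two vertical
valuation rings), in the elementwise vocabulary of `ES/N34/NodalCore13` and `T1B/NodalCoh30`
(`∃ c ∈ O, x = algebraMap R F π * c` for `x ∈ π O`).  `vertIdeal` is the vertical prime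
`B ∩ π O`; `FibreDatum.ofModel` packages the elementwise model facts into a `FibreDatum`.
-/

set_option autoImplicit false

namespace Fermat.Agent.T1B.Toric98

variable {R F : Type*} [CommRing R] [Field F] [Algebra R F]

/-- the vertical ideal `B ∩ π O` of a subalgebra `B ⊆ O`. -/
def vertIdeal (π : R) (B : Subalgebra R F) (O : ValuationSubring F) (hB : ∀ x ∈ B, x ∈ O) :
    Ideal ↥B where
  carrier := {c | ∃ c' ∈ O, (c : F) = algebraMap R F π * c'}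
  zero_mem' := ⟨0, O.zero_mem, by simp⟩
  add_mem' := by
    rintro a b ⟨a', ha', ha⟩ ⟨b', hb', hb⟩
    exact ⟨a' + b', O.add_mem _ _ ha' hb', by rw [Subalgebra.coe_add, ha, hb]; ring⟩
  smul_mem' := by
    rintro c a ⟨a', ha', ha⟩
    exact ⟨(c : F) * a', O.mul_mem _ _ (hB _ c.2) ha', by
      rw [smul_eq_mul, Subalgebra.coe_mul, ha]; ring⟩

theorem mem_vertIdeal {π : R} {B : Subalgebra R F} {O : ValuationSubring F}
    {hB : ∀ x ∈ B, x ∈ O} {c : ↥B} :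
    c ∈ vertIdeal π B O hB ↔ ∃ c' ∈ O, (c : F) = algebraMap R F π * c' := Iff.rfl

/-- `π`-saturation of `B0 ⊔ B1` from that of `B0` (overlap `B01 = B0[1/t]`, `t` a unit of the `O_j`). -/
theorem sat01_of_sat0 {π : R} {t : F} {B0 B1 : Subalgebra R F} {O1 O2 : ValuationSubring F}
    (ht1 : t ∈ O1) (ht2 : t ∈ O2) (htinv : t⁻¹ ∈ B1) (ht : t ≠ 0)
    (hsup : ∀ x ∈ B0 ⊔ B1, ∃ k : ℕ, t ^ k * x ∈ B0)
    (sat0 : ∀ b ∈ B0, ∀ c : F, c ∈ O1 → c ∈ O2 → b = algebraMap R F π * c → c ∈ B0) :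
    ∀ b ∈ B0 ⊔ B1, ∀ c : F, c ∈ O1 → c ∈ O2 → b = algebraMap R F π * c → c ∈ B0 ⊔ B1 := by
  intro b hb c hc1 hc2 hbc
  obtain ⟨k, hk⟩ := hsup b hb
  have h1 : t ^ k * c ∈ B0 := by
    apply sat0 _ hk (t ^ k * c) (O1.mul_mem _ _ (pow_mem ht1 _) hc1)
      (O2.mul_mem _ _ (pow_mem ht2 _) hc2)
    rw [hbc]; ring
  have h2 : c = t⁻¹ ^ k * (t ^ k * c) := by
    rw [← mul_assoc, ← mul_pow, inv_mul_cancel₀ ht, one_pow, one_mul]
  rw [h2]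
  exact (B0 ⊔ B1).mul_mem
    ((B0 ⊔ B1).pow_mem ((le_sup_right : B1 ≤ B0 ⊔ B1) htinv) _)
    ((le_sup_left : B0 ≤ B0 ⊔ B1) h1)

/-- **The `FibreDatum` of a nodal two-chart model** (elementwise hypotheses). -/
def FibreDatum.ofModel (π : R) (B0 B1 : Subalgebra R F) (O1 O2 : ValuationSubring F)
    {E κ : Type*} [Field κ] [Algebra R κ]
    (le1 : ∀ x ∈ B0 ⊔ B1, x ∈ O1) (le2 : ∀ x ∈ B0 ⊔ B1, x ∈ O2)
    (sat01 : ∀ b ∈ B0 ⊔ B1, ∀ c : F, c ∈ O1 → c ∈ O2 → b = algebraMap R F π * c → c ∈ B0 ⊔ B1)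
    (h0P : ∀ a ∈ B0, ∀ b ∈ B1, (∃ c ∈ O1, a + b = algebraMap R F π * c) →
      ∃ l : R, (∃ c ∈ O1, a - algebraMap R F l = algebraMap R F π * c) ∧
        ∃ c ∈ O1, b + algebraMap R F l = algebraMap R F π * c)
    (h0Q : ∀ a ∈ B0, ∀ b ∈ B1, (∃ c ∈ O2, a + b = algebraMap R F π * c) →
      ∃ l : R, (∃ c ∈ O2, a - algebraMap R F l = algebraMap R F π * c) ∧
        ∃ c ∈ O2, b + algebraMap R F l = algebraMap R F π * c)
    (ev : E → ↥(B0 ⊔ B1) →ₐ[R] κ)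
    (ev_P : ∀ e, ∀ c : ↥(B0 ⊔ B1), (∃ c' ∈ O1, (c : F) = algebraMap R F π * c') → ev e c = 0)
    (ev_Q : ∀ e, ∀ c : ↥(B0 ⊔ B1), (∃ c' ∈ O2, (c : F) = algebraMap R F π * c') → ev e c = 0)
    (node0 : ∀ c : ↥B0, (∀ e, ev e (Subalgebra.inclusion le_sup_left c) = 0) →
      ∃ p q : ↥B0, (∃ c' ∈ O1, (p : F) = algebraMap R F π * c') ∧
        (∃ c' ∈ O2, (q : F) = algebraMap R F π * c') ∧ c = p + q)
    (node1 : ∀ c : ↥B1, (∀ e, ev e (Subalgebra.inclusion le_sup_right c) = 0) →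
      ∃ p q : ↥B1, (∃ c' ∈ O1, (p : F) = algebraMap R F π * c') ∧
        (∃ c' ∈ O2, (q : F) = algebraMap R F π * c') ∧ c = p + q) :
    FibreDatum π (Subalgebra.inclusion (le_sup_left : B0 ≤ B0 ⊔ B1))
      (Subalgebra.inclusion (le_sup_right : B1 ≤ B0 ⊔ B1)) E κ where
  P := vertIdeal π (B0 ⊔ B1) O1 le1
  Q := vertIdeal π (B0 ⊔ B1) O2 le2
  ev := ev
  pi_mem_P c := ⟨(c : F), le1 _ c.2, by rw [Algebra.smul_def]; rfl⟩
  pi_mem_Q c := ⟨(c : F), le2 _ c.2, by rw [Algebra.smul_def]; rfl⟩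
  reduced := by
    rintro c ⟨c1, hc1, h1⟩ ⟨c2, hc2, h2⟩
    have hπ : c1 = c2 ∨ algebraMap R F π = 0 := by
      by_cases h0 : algebraMap R F π = 0
      · exact Or.inr h0
      · left
        exact mul_left_cancel₀ h0 (h1.symm.trans h2)
    rcases hπ with h12 | h0
    · have hmem : c1 ∈ B0 ⊔ B1 := sat01 _ c.2 c1 hc1 (h12 ▸ hc2) h1
      refine ⟨⟨c1, hmem⟩, Subtype.ext ?_⟩
      rw [Algebra.smul_def]
      exact h1
    · refine ⟨0, Subtype.ext ?_⟩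
      rw [smul_zero, h1, h0, zero_mul]; rfl
  h0P := by
    intro a b hab
    obtain ⟨c, hc, h⟩ := hab
    obtain ⟨l, ⟨c0, hc0, h0⟩, ⟨c1, hc1, h1⟩⟩ := h0P (a : F) a.2 (b : F) b.2 ⟨c, hc, h⟩
    exact ⟨l, ⟨c0, hc0, h0⟩, ⟨c1, hc1, h1⟩⟩
  h0Q := by
    intro a b hab
    obtain ⟨c, hc, h⟩ := hab
    obtain ⟨l, ⟨c0, hc0, h0⟩, ⟨c1, hc1, h1⟩⟩ := h0Q (a : F) a.2 (b : F) b.2 ⟨c, hc, h⟩
    exact ⟨l, ⟨c0, hc0, h0⟩, ⟨c1, hc1, h1⟩⟩
  ev_P e c hc := ev_P e c hc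
  ev_Q e c hc := ev_Q e c hc
  node0 c hc := node0 c hc
  node1 c hc := node1 c hc

end Fermat.Agent.T1B.Toric98
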