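import Mathlib
import Fermat.Agent.T1B.Toric98.FibreInst
import Fermat.Agent.T1B.Toric98.Trace

/-!
# T1B / TORIC50, brick T-LIN (helper98): (K2) for a two-chart model inside a field

`F` an `F'`-algebra (via the pull-back `α` resp. `β`), `B0 B1 ⊂ F`, `B0' B1' ⊂ F'` the charts.
`traceRestrict` is the field trace `↥(B0 ⊔ B1) →ₗ[R] ↥(B0' ⊔ B1')`, `pullRestrict` the pull-back
`↥(B0' ⊔ B1') →ₗ[R] ↥(B0 ⊔ B1)`, and `k2_of_datum` is the hypothesis `hK2α` of
`exists_P_S_of_fibre` from a `K2Datum`.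
-/

set_option autoImplicit false

namespace Fermat.Agent.T1B.Toric98

variable {R F' F : Type*} [CommRing R] [Field F'] [Field F] [Algebra R F'] [Algebra R F]
  [Algebra F' F] [IsScalarTower R F' F]

/-- the field trace restricted to the overlap rings. -/
noncomputable def traceRestrict (C : Subalgebra R F) (C' : Subalgebra R F')
    (htr : ∀ f ∈ C, Algebra.trace F' F f ∈ C') : ↥C →ₗ[R] ↥C' where
  toFun f := ⟨Algebra.trace F' F (f : F), htr _ f.2⟩
  map_add' f g := Subtype.ext (by simp)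
  map_smul' r f := Subtype.ext (by
    simp only [Subalgebra.coe_smul, RingHom.id_apply]
    rw [Algebra.smul_def, IsScalarTower.algebraMap_apply R F' F, ← Algebra.smul_def, map_smul,
      Algebra.smul_def, Algebra.smul_def]
    rfl)

@[simp] theorem coe_traceRestrict (C : Subalgebra R F) (C' : Subalgebra R F')
    (htr : ∀ f ∈ C, Algebra.trace F' F f ∈ C') (f : ↥C) :
    ((traceRestrict C C' htr f : ↥C') : F') = Algebra.trace F' F (f : F) := rfl

/-- the pull-back restricted to the overlap rings. -/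
def pullRestrict (C : Subalgebra R F) (C' : Subalgebra R F')
    (hα : ∀ x ∈ C', algebraMap F' F x ∈ C) : ↥C' →ₗ[R] ↥C where
  toFun x := ⟨algebraMap F' F (x : F'), hα _ x.2⟩
  map_add' x y := Subtype.ext (by simp)
  map_smul' r x := Subtype.ext (by
    simp only [Subalgebra.coe_smul, RingHom.id_apply]
    rw [Algebra.smul_def, Algebra.smul_def, map_mul, ← IsScalarTower.algebraMap_apply])

@[simp] theorem coe_pullRestrict (C : Subalgebra R F) (C' : Subalgebra R F')
    (hα : ∀ x ∈ C', algebraMap F' F x ∈ C) (x : ↥C') :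
    ((pullRestrict C C' hα x : ↥C) : F) = algebraMap F' F (x : F') := rfl

/-- **(K2) in the form consumed by `exists_P_S_of_fibre`.** -/
theorem k2_of_datum {π : R} {p : ℕ} {O1 O2 : ValuationSubring F}
    (D : K2Datum (algebraMap R F' π) p O1 O2) (C : Subalgebra R F) (C' : Subalgebra R F')
    (le1 : ∀ x ∈ C, x ∈ O1) (le2 : ∀ x ∈ C, x ∈ O2)
    (htr : ∀ f ∈ C, Algebra.trace F' F f ∈ C') (hα : ∀ x ∈ C', algebraMap F' F x ∈ C)
    (f : ↥C) :
    pullRestrict C C' hα (traceRestrict C C' htr f) - f ∈ vertIdeal π C O1 le1 := by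
  obtain ⟨c, hc, h⟩ := D.trace_sub_self (le1 _ f.2) (le2 _ f.2)
  refine ⟨c, hc, ?_⟩
  rw [Subalgebra.coe_sub, coe_pullRestrict, coe_traceRestrict, h,
    ← IsScalarTower.algebraMap_apply]

end Fermat.Agent.T1B.Toric98
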