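import Mathlib
import Fermat.Agent.T1B.Toric98.GlueModel

/-!
# T1B / TORIC50 (helper98), brick (P3): the rational nodes at every level

`W`-level data: evaluations `ev e : B01 →ₐ[W] κ` at the rational nodes (`κ` the residue field of
`W`: `algebraMap W κ` surjective with kernel `(π)`), with `ev e s01 = 0`.  For a LOCAL artinian
`W`-algebra `Λ` in which `π` is nilpotent:

* `nodeHom ev Λ e : Λ ⊗[W] B01 →ₐ[Λ] ResidueField Λ`, `λ ⊗ b ↦ λ̄ · ev e b`;
* `H.nodePt ev hev Λ e : H.Pts Λ` its kernel; `nodePt_injective`;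
* `ptsMap_nodePt` : `H.ptsMap f (nodePt Λ' e) = nodePt Λ e` for `f : Λ →ₐ[W] Λ'`;
* `eq_nodePt_of_ptsMap_eq` : UNIQUENESS, `H.ptsMap f p' = nodePt Λ e → p' = nodePt Λ' e`.
-/

set_option autoImplicit false
set_option linter.unusedSectionVars false
set_option linter.style.haveILetI false

namespace Fermat.Agent.T1B.Toric98

open TensorProduct Fermat.Agent.T1.CechFormal70 Fermat.Agent.T1B.Toric50.Glue IsLocalRing

section Chi

variable {W : Type*} [CommRing W] (π : W) {κ : Type*} [Field κ] [Algebra W κ]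
  (hsurj : Function.Surjective (algebraMap W κ))
  (hker : RingHom.ker (algebraMap W κ) = Ideal.span {π})
  (Λ : Type*) [CommRing Λ] [IsLocalRing Λ] [Algebra W Λ]

theorem residue_algebraMap_pi (hπ : IsNilpotent (algebraMap W Λ π)) :
    algebraMap W (ResidueField Λ) π = 0 := by
  rw [IsScalarTower.algebraMap_apply W Λ (ResidueField Λ)]
  exact (hπ.map (algebraMap Λ (ResidueField Λ))).eq_zero

include hker in
theorem ker_le_ker (hπ : IsNilpotent (algebraMap W Λ π)) :
    RingHom.ker (algebraMap W κ) ≤ RingHom.ker (algebraMap W (ResidueField Λ)) := by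
  rw [hker, Ideal.span_singleton_le_iff_mem, RingHom.mem_ker]
  exact residue_algebraMap_pi π Λ hπ

/-- the map of residue fields `κ → Λ/𝔪` -/
noncomputable def chi (hπ : IsNilpotent (algebraMap W Λ π)) : κ →ₐ[W] ResidueField Λ where
  __ := (algebraMap W κ).liftOfSurjective hsurj ⟨algebraMap W (ResidueField Λ),
    ker_le_ker π hker Λ hπ⟩
  commutes' w := by
    show (algebraMap W κ).liftOfSurjective hsurj ⟨algebraMap W (ResidueField Λ),
      ker_le_ker π hker Λ hπ⟩ (algebraMap W κ w) = _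
    rw [RingHom.liftOfRightInverse_comp_apply]

end Chi

variable {W B0 B1 B01 : Type*} [CommRing W] [CommRing B0] [CommRing B1] [CommRing B01]
  [Algebra W B0] [Algebra W B1] [Algebra W B01] {g : ℕ}
  {D : CechData W B0 B1 B01 g} {π : W} (H : ToricBase D π)
  {En : Type*} {κ : Type*} [Field κ] [Algebra W κ] (ev : En → B01 →ₐ[W] κ)
  (hsurj : Function.Surjective (algebraMap W κ))
  (hker : RingHom.ker (algebraMap W κ) = Ideal.span {π})

section Node

variable (Λ : Type*) [CommRing Λ] [IsLocalRing Λ] [Algebra W Λ]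
  (hπ : IsNilpotent (algebraMap W Λ π))

/-- evaluation at the rational node `e`, at level `Λ`: `λ ⊗ b ↦ λ̄ · ev e b`. -/
noncomputable def nodeHom (e : En) : Λ ⊗[W] B01 →ₐ[Λ] ResidueField Λ :=
  Algebra.TensorProduct.lift (Algebra.ofId Λ (ResidueField Λ))
    ((chi π hsurj hker Λ hπ).comp (ev e)) (fun _ _ => Commute.all _ _)

theorem nodeHom_tmul (e : En) (a : Λ) (b : B01) :
    nodeHom ev hsurj hker Λ hπ e (a ⊗ₜ[W] b) = residue Λ a * chi π hsurj hker Λ hπ (ev e b) := by
  rw [nodeHom, Algebra.TensorProduct.lift_tmul]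
  rfl

theorem nodeHom_surjective (e : En) : Function.Surjective (nodeHom ev hsurj hker Λ hπ e) := by
  intro x
  obtain ⟨a, rfl⟩ := residue_surjective x
  refine ⟨a ⊗ₜ[W] 1, ?_⟩
  rw [nodeHom_tmul, map_one, map_one, mul_one]

theorem one_tmul_mem_ker_iff (e : En) (b : B01) :
    (1 : Λ) ⊗ₜ[W] b ∈ RingHom.ker (nodeHom ev hsurj hker Λ hπ e) ↔ ev e b = 0 := by
  rw [RingHom.mem_ker, nodeHom_tmul, map_one, one_mul]
  exact map_eq_zero_iff _ (chi π hsurj hker Λ hπ).toRingHom.injective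

/-- **The rational node `e` as a point of `V(1 ⊗ s01)` at level `Λ`.** -/
noncomputable def ToricBase.nodePt (hev : ∀ e, ev e H.s01 = 0) (e : En) : H.Pts Λ :=
  ⟨RingHom.ker (nodeHom ev hsurj hker Λ hπ e), RingHom.ker_isPrime _,
    (one_tmul_mem_ker_iff ev hsurj hker Λ hπ e H.s01).2 (hev e)⟩

theorem ToricBase.nodePt_val (hev : ∀ e, ev e H.s01 = 0) (e : En) :
    (H.nodePt ev hsurj hker Λ hπ hev e).1 = RingHom.ker (nodeHom ev hsurj hker Λ hπ e) := rfl

theorem ToricBase.nodePt_injective (hev : ∀ e, ev e H.s01 = 0)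
    (hinj : ∀ e e', RingHom.ker (ev e) = RingHom.ker (ev e') → e = e') :
    Function.Injective (H.nodePt ev hsurj hker Λ hπ hev) := by
  intro e e' h
  apply hinj
  have h1 := congrArg Subtype.val h
  rw [ToricBase.nodePt_val, ToricBase.nodePt_val] at h1
  ext b
  rw [RingHom.mem_ker, RingHom.mem_ker, ← one_tmul_mem_ker_iff ev hsurj hker Λ hπ e,
    ← one_tmul_mem_ker_iff ev hsurj hker Λ hπ e', h1]

end Node

section Local

/-- non-units of a local artinian ring are nilpotent -/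
theorem isNilpotent_of_not_isUnit {Λ : Type*} [CommRing Λ] [IsLocalRing Λ] [IsArtinianRing Λ]
    {a : Λ} (ha : ¬ IsUnit a) : IsNilpotent a := by
  have h1 : a ∈ maximalIdeal Λ := (IsLocalRing.mem_maximalIdeal a).2 ha
  rw [← IsLocalRing.jacobson_eq_maximalIdeal (⊥ : Ideal Λ) bot_ne_top] at h1
  obtain ⟨n, hn⟩ := IsArtinianRing.isNilpotent_jacobson_bot (R := Λ)
  refine ⟨n, ?_⟩
  have := Ideal.pow_mem_pow h1 n
  rw [hn] at this
  exact this

/-- a ring map from a local artinian ring to a nontrivial ring is local -/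
theorem isLocalHom_of_artinian {Λ Λ' : Type*} [CommRing Λ] [IsLocalRing Λ] [IsArtinianRing Λ]
    [CommRing Λ'] [Nontrivial Λ'] {F : Type*} [FunLike F Λ Λ'] [RingHomClass F Λ Λ'] (f : F) :
    IsLocalHom f := by
  constructor
  intro a ha
  by_contra hna
  have hnil := (isNilpotent_of_not_isUnit hna).map f
  exact hnil.not_isUnit ha

end Local

section Compat

variable (Λ : Type*) [CommRing Λ] [IsLocalRing Λ] [IsArtinianRing Λ] [Algebra W Λ]
  (hπ : IsNilpotent (algebraMap W Λ π))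
  (Λ' : Type*) [CommRing Λ'] [IsLocalRing Λ'] [IsArtinianRing Λ'] [Algebra W Λ']
  (hπ' : IsNilpotent (algebraMap W Λ' π)) (f : Λ →ₐ[W] Λ')

variable {Λ Λ'}

include hsurj in
theorem mapAlgHom_chi [IsLocalHom f] (y : κ) :
    ResidueField.mapAlgHom f (chi π hsurj hker Λ hπ y) = chi π hsurj hker Λ' hπ' y := by
  obtain ⟨w, rfl⟩ := hsurj y
  rw [AlgHom.commutes, AlgHom.commutes, AlgHom.commutes]

theorem nodeHom_pkgHom [IsLocalHom f] (e : En) (x : Λ ⊗[W] B01) :
    nodeHom ev hsurj hker Λ' hπ' e ((D.pkgHom f).t01 x) =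
      ResidueField.mapAlgHom f (nodeHom ev hsurj hker Λ hπ e x) := by
  induction x using TensorProduct.induction_on with
  | zero => simp
  | add x y hx hy => rw [map_add, map_add, hx, hy, map_add, map_add]
  | tmul a b =>
    rw [CechData.pkgHom_t01_tmul, nodeHom_tmul, nodeHom_tmul, map_mul,
      mapAlgHom_chi hsurj hker hπ hπ' f, ResidueField.mapAlgHom_residue]

/-- **Compatibility of the rational nodes with base change.** -/
theorem ToricBase.ptsMap_nodePt (hev : ∀ e, ev e H.s01 = 0) (e : En) :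
    H.ptsMap f (H.nodePt ev hsurj hker Λ' hπ' hev e) = H.nodePt ev hsurj hker Λ hπ hev e := by
  haveI : IsLocalHom f := isLocalHom_of_artinian f
  apply Subtype.ext
  rw [ToricBase.ptsMap_val, ToricBase.nodePt_val, ToricBase.nodePt_val]
  ext x
  rw [Ideal.mem_comap, RingHom.mem_ker, RingHom.mem_ker, nodeHom_pkgHom ev hsurj hker hπ hπ' f]
  exact map_eq_zero_iff _ (ResidueField.mapAlgHom f).toRingHom.injective

include hsurj in
/-- every element of `Λ ⊗ B01` is congruent to a constant modulo the (extended) ideal of a rational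
node -/
theorem exists_sub_tmul_one_mem (Λ : Type*) [CommRing Λ] [Algebra W Λ] (e : En)
    (x : Λ ⊗[W] B01) :
    ∃ μ : Λ, x - μ ⊗ₜ[W] (1 : B01) ∈ extI W Λ (RingHom.ker (ev e)) := by
  induction x using TensorProduct.induction_on with
  | zero => exact ⟨0, by simp⟩
  | add x y hx hy =>
    obtain ⟨μ, hμ⟩ := hx
    obtain ⟨ν, hν⟩ := hy
    refine ⟨μ + ν, ?_⟩
    have : x + y - (μ + ν) ⊗ₜ[W] (1 : B01) = (x - μ ⊗ₜ[W] 1) + (y - ν ⊗ₜ[W] 1) := by
      rw [TensorProduct.add_tmul]; ring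
    rw [this]
    exact Ideal.add_mem _ hμ hν
  | tmul a b =>
    obtain ⟨w, hw⟩ := hsurj (ev e b)
    refine ⟨w • a, ?_⟩
    have hn : b - algebraMap W B01 w ∈ RingHom.ker (ev e) := by
      rw [RingHom.mem_ker, map_sub, AlgHom.commutes, hw, sub_self]
    have : a ⊗ₜ[W] b - (w • a) ⊗ₜ[W] (1 : B01) =
        a ⊗ₜ[W] (1 : B01) * (1 : Λ) ⊗ₜ[W] (b - algebraMap W B01 w) := by
      rw [Algebra.TensorProduct.tmul_mul_tmul, mul_one, one_mul, TensorProduct.tmul_sub,
        TensorProduct.smul_tmul, Algebra.algebraMap_eq_smul_one]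
    rw [this]
    exact Ideal.mul_mem_left _ _ (tmul_mem_extI W Λ hn)

/-- **Uniqueness**: the only point of `V(s01)` at level `Λ'` lying over the rational node `e` at
level `Λ` is the rational node `e`. -/
theorem ToricBase.eq_nodePt_of_ptsMap_eq (hev : ∀ e, ev e H.s01 = 0) (p' : H.Pts Λ') (e : En)
    (h : H.ptsMap f p' = H.nodePt ev hsurj hker Λ hπ hev e) :
    p' = H.nodePt ev hsurj hker Λ' hπ' hev e := by
  haveI hp' : p'.1.IsPrime := p'.2.1
  apply Subtype.ext
  rw [ToricBase.nodePt_val]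
  -- the extended ideal of the node lies in `p'`
  have h1 : extI W Λ' (RingHom.ker (ev e)) ≤ p'.1 := by
    rw [extI, Ideal.map_le_iff_le_comap]
    intro b hb
    rw [Ideal.mem_comap]
    have hb' : (1 : Λ) ⊗ₜ[W] b ∈ (H.ptsMap f p').1 := by
      rw [h, ToricBase.nodePt_val, one_tmul_mem_ker_iff]
      exact hb
    rw [ToricBase.ptsMap_val, Ideal.mem_comap, CechData.pkgHom_t01_tmul, map_one] at hb'
    exact hb'
  -- `ker ≤ p'`
  have h2 : RingHom.ker (nodeHom ev hsurj hker Λ' hπ' e) ≤ p'.1 := by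
    intro x hx
    obtain ⟨μ, hμ⟩ := exists_sub_tmul_one_mem ev hsurj Λ' e x
    have hx' : x = μ ⊗ₜ[W] (1 : B01) + (x - μ ⊗ₜ[W] (1 : B01)) := by ring
    have hker' : x - μ ⊗ₜ[W] (1 : B01) ∈ RingHom.ker (nodeHom ev hsurj hker Λ' hπ' e) := by
      have hle : extI W Λ' (RingHom.ker (ev e)) ≤ RingHom.ker (nodeHom ev hsurj hker Λ' hπ' e) := by
        rw [extI, Ideal.map_le_iff_le_comap]
        intro b hb
        rw [Ideal.mem_comap]
        exact (one_tmul_mem_ker_iff ev hsurj hker Λ' hπ' e b).2 hb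
      exact hle hμ
    have hμ0 : μ ⊗ₜ[W] (1 : B01) ∈ RingHom.ker (nodeHom ev hsurj hker Λ' hπ' e) := by
      have := Ideal.sub_mem _ hx hker'
      rwa [sub_sub_cancel] at this
    rw [RingHom.mem_ker, nodeHom_tmul, map_one, map_one, mul_one,
      IsLocalRing.residue_eq_zero_iff, IsLocalRing.mem_maximalIdeal, mem_nonunits_iff] at hμ0
    obtain ⟨n, hn⟩ := isNilpotent_of_not_isUnit hμ0
    have hμp : μ ⊗ₜ[W] (1 : B01) ∈ p'.1 := by
      apply hp'.mem_of_pow_mem n
      rw [Algebra.TensorProduct.tmul_pow, hn, TensorProduct.zero_tmul]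
      exact Ideal.zero_mem _
    rw [hx']
    exact Ideal.add_mem _ hμp (h1 hμ)
  have hmax : (RingHom.ker (nodeHom ev hsurj hker Λ' hπ' e)).IsMaximal :=
    RingHom.ker_isMaximal_of_surjective _ (nodeHom_surjective ev hsurj hker Λ' hπ' e)
  exact (hmax.eq_of_le hp'.ne_top h2).symm

end Compat

end Fermat.Agent.T1B.Toric98
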