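import Mathlib
import Fermat.Agent.T1B.Toric98.GlueNodes

/-!
# T1B / TORIC50 (helper98): the toric map on the rational nodes, at every local artinian level

`H.nodeIota ev … Λ hπ hm : (En → unitsOne m) →* (D.pkg Λ).Jhat m` is the toric map of the gluing
data `H.glueData Λ hπ`, with the torus parameter extended by `1` outside the rational nodes;
`nodeIota_natural` is its naturality for `W`-algebra maps `Λ → Λ'` of local artinian rings
(truncations, residue field extensions, Galois twists).
-/

set_option autoImplicit false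
set_option linter.unusedSectionVars false
set_option linter.style.haveILetI false

namespace Fermat.Agent.T1B.Toric98

open TensorProduct Fermat.Agent.T1.CechFormal70 Fermat.Agent.T1B.Toric50.Glue IsLocalRing

variable {W B0 B1 B01 : Type*} [CommRing W] [CommRing B0] [CommRing B1] [CommRing B01]
  [Algebra W B0] [Algebra W B1] [Algebra W B01] {g : ℕ}
  {D : CechData W B0 B1 B01 g} {π : W} (H : ToricBase D π)
  {En : Type*} {κ : Type*} [Field κ] [Algebra W κ] (ev : En → B01 →ₐ[W] κ)
  (hsurj : Function.Surjective (algebraMap W κ))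
  (hker : RingHom.ker (algebraMap W κ) = Ideal.span {π})
  (hev : ∀ e, ev e H.s01 = 0)
  (hinj : ∀ e e', RingHom.ker (ev e) = RingHom.ker (ev e') → e = e')
  [hmax : (Ideal.span {π}).IsMaximal] [Algebra.FiniteType W B0] [Algebra.FiniteType W B1]
  [Algebra.FiniteType W B01]

namespace ToricBase

section Iota

variable (Λ : Type*) [CommRing Λ] [IsLocalRing Λ] [IsArtinianRing Λ] [Algebra W Λ]
  (hπ : IsNilpotent (algebraMap W Λ π)) {m : Ideal Λ} (hm : IsNilpotent m)

/-- **The toric map on the rational nodes** at level `Λ`. -/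
noncomputable def nodeIota : (En → unitsOne m) →* (D.pkg Λ).Jhat m :=
  ((H.glueData Λ hπ).iota hm).comp
    (extendHom (H.nodePt ev hsurj hker Λ hπ hev) (H.nodePt_injective ev hsurj hker Λ hπ hev hinj))

theorem nodeIota_apply (z : En → unitsOne m) :
    H.nodeIota ev hsurj hker hev hinj Λ hπ hm z = (H.glueData Λ hπ).iota hm
      (extendHom (H.nodePt ev hsurj hker Λ hπ hev)
        (H.nodePt_injective ev hsurj hker Λ hπ hev hinj) z) := rfl

end Iota

section Natural

variable {Λ : Type*} [CommRing Λ] [IsLocalRing Λ] [IsArtinianRing Λ] [Algebra W Λ]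
  (hπ : IsNilpotent (algebraMap W Λ π)) {m : Ideal Λ} (hm : IsNilpotent m)
  {Λ' : Type*} [CommRing Λ'] [IsLocalRing Λ'] [IsArtinianRing Λ'] [Algebra W Λ']
  (hπ' : IsNilpotent (algebraMap W Λ' π)) {m' : Ideal Λ'} (hm' : IsNilpotent m')
  (f : Λ →ₐ[W] Λ') (hmm : m ≤ m'.comap (f : Λ →+* Λ'))

/-- **Naturality of the toric map on the rational nodes** (truncations, extensions `O → O'`, Galois
twists). -/
theorem nodeIota_natural (z : En → unitsOne m) :
    D.JhatMap f hmm (H.nodeIota ev hsurj hker hev hinj Λ hπ hm z) =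
      H.nodeIota ev hsurj hker hev hinj Λ' hπ' hm'
        (fun e => unitsOneMap (f : Λ →+* Λ') hmm (z e)) := by
  rw [nodeIota_apply, nodeIota_apply, H.iota_natural f hπ hπ' hm hm' hmm]
  congr 1
  funext e'
  by_cases he : ∃ e, H.nodePt ev hsurj hker Λ' hπ' hev e = e'
  · obtain ⟨e, rfl⟩ := he
    rw [H.ptsMap_nodePt ev hsurj hker hπ hπ' f hev e, extendHom_apply_node, extendHom_apply_node]
  · have he2 : ¬ ∃ e, H.nodePt ev hsurj hker Λ hπ hev e = H.ptsMap f e' := by
      rintro ⟨e, h⟩
      exact he ⟨e, (H.eq_nodePt_of_ptsMap_eq ev hsurj hker hπ hπ' f hev e' e h.symm).symm⟩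
    rw [extendHom_apply_of_not_mem _ _ _ _ he, extendHom_apply_of_not_mem _ _ _ _ he2, map_one]

end Natural

end ToricBase

end Fermat.Agent.T1B.Toric98
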