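import Mathlib
import Fermat.Agent.T1B.Toric98.GlueFamily
import Fermat.Agent.T1B.Toric98.Fibre
import Fermat.Agent.T1B.Toric50.FirstOrderLink

/-!
# T1B / TORIC50 (helper98), brick (O4): the first order term of the toric map is `W`-rational and toric

Lower level `Λ0 = W ⧸ K` (`K ≤ (π)`, in the application `K = (π)^k`): no residue field extension,
every element of `Λ0 ⊗[W] B` is `1 ⊗ b`.  There we choose separating functions `h_j` for the
rational node `e`; the first order term `q0 h0 - q1 h1` is `1 ⊗ d` with `d : B01`, and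
`FD.IsToric (indic e) d` (`exists_toric_d`).  By transport along `W ⧸ K → Λ`
(`GlueHomC.iota_firstOrder_nodes`) the toric map at every local artinian level `Λ` killed by `K`
satisfies `ι (1 + a) = [1 + Σ a_k ⊗ d_k]` for `a` in a square zero ideal (`nodeIota_firstOrder`).
-/

set_option autoImplicit false
set_option linter.unusedSectionVars false
set_option linter.style.haveILetI false

namespace Fermat.Agent.T1B.Toric98

open TensorProduct Fermat.Agent.T1.CechFormal70 Fermat.Agent.T1B.Toric50.Glue IsLocalRing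

section Contraction

variable {W : Type*} [CommRing W] {B : Type*} [CommRing B] [Algebra W B] (K : Ideal W)

/-- every element of `(W ⧸ K) ⊗[W] B` is of the form `1 ⊗ b` -/
theorem exists_one_tmul_eq (x : (W ⧸ K) ⊗[W] B) : ∃ b : B, x = (1 : W ⧸ K) ⊗ₜ[W] b := by
  induction x using TensorProduct.induction_on with
  | zero => exact ⟨0, by simp⟩
  | add x y hx hy =>
    obtain ⟨b, rfl⟩ := hx
    obtain ⟨b', rfl⟩ := hy
    exact ⟨b + b', by rw [TensorProduct.tmul_add]⟩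
  | tmul a b =>
    obtain ⟨w, rfl⟩ := Ideal.Quotient.mk_surjective a
    refine ⟨w • b, ?_⟩
    rw [TensorProduct.tmul_smul, TensorProduct.smul_tmul', Algebra.smul_def, mul_one]
    rfl

/-- contraction of an extended ideal at the level `W ⧸ K`, when `K B ⊆ P` -/
theorem mem_of_one_tmul_mem_extI (P : Ideal B) (hK : ∀ w ∈ K, ∀ b : B, w • b ∈ P) (b : B)
    (h : (1 : W ⧸ K) ⊗ₜ[W] b ∈ extI W (W ⧸ K) P) : b ∈ P := by
  rw [mem_extI_iff] at h
  have h1 : Algebra.TensorProduct.map (AlgHom.id W (W ⧸ K)) (Ideal.Quotient.mkₐ W P)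
      ((1 : W ⧸ K) ⊗ₜ[W] b) = (1 : W ⧸ K) ⊗ₜ[W] (Ideal.Quotient.mk P b) := rfl
  rw [h1] at h
  have h2 := congrArg (TensorProduct.quotTensorEquivQuotSMul (B ⧸ P) K) h
  rw [map_zero, ← map_one (Ideal.Quotient.mk K), TensorProduct.quotTensorEquivQuotSMul_mk_tmul,
    one_smul, Submodule.Quotient.mk_eq_zero] at h2
  have hbot : (K • ⊤ : Submodule W (B ⧸ P)) = ⊥ := by
    rw [eq_bot_iff]
    intro y hy
    refine Submodule.smul_induction_on hy ?_ ?_
    · intro r hr n _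
      obtain ⟨n, rfl⟩ := Ideal.Quotient.mk_surjective n
      rw [Submodule.mem_bot]
      have : r • (Ideal.Quotient.mk P n) = Ideal.Quotient.mk P (r • n) := rfl
      rw [this, Ideal.Quotient.eq_zero_iff_mem]
      exact hK r hr n
    · intro x y hx hy
      exact Submodule.add_mem _ hx hy
  rw [hbot, Submodule.mem_bot, Ideal.Quotient.eq_zero_iff_mem] at h2
  exact h2

end Contraction

section LowerLevel

variable {W : Type*} [CommRing W] (π : W) [hmax : (Ideal.span {π}).IsMaximal] (k : ℕ)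

/-- the primes of `W ⧸ (π)^k` are all equal to the image of `(π)` -/
theorem eq_map_of_isPrime_quotient_pow (q : Ideal (W ⧸ Ideal.span {π} ^ k)) [hq : q.IsPrime] :
    q = (Ideal.span {π}).map (Ideal.Quotient.mk (Ideal.span {π} ^ k)) := by
  have hsurj : Function.Surjective (Ideal.Quotient.mk (Ideal.span {π} ^ k)) :=
    Ideal.Quotient.mk_surjective
  have hp : (q.comap (Ideal.Quotient.mk (Ideal.span {π} ^ k))).IsPrime := Ideal.comap_isPrime _ _
  have hπ : π ∈ q.comap (Ideal.Quotient.mk (Ideal.span {π} ^ k)) := by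
    apply hp.mem_of_pow_mem k
    rw [Ideal.mem_comap, Ideal.Quotient.eq_zero_iff_mem.2
      (Ideal.pow_mem_pow (Ideal.mem_span_singleton_self π) k)]
    exact q.zero_mem
  have hle : Ideal.span {π} ≤ q.comap (Ideal.Quotient.mk (Ideal.span {π} ^ k)) :=
    (Ideal.span_singleton_le_iff_mem _).2 hπ
  have heq := hmax.eq_of_le hp.ne_top hle
  have h2 := Ideal.map_comap_of_surjective _ hsurj q
  rw [← heq] at h2
  exact h2.symm

theorem isLocalRing_quotient_pow (hk : k ≠ 0) : IsLocalRing (W ⧸ Ideal.span {π} ^ k) := by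
  have hne : Ideal.span {π} ^ k ≠ ⊤ := by
    intro h
    have : Ideal.span {π} = ⊤ := by
      rw [eq_top_iff, ← h]
      exact Ideal.pow_le_self hk
    exact hmax.ne_top this
  have : Nontrivial (W ⧸ Ideal.span {π} ^ k) := Ideal.Quotient.nontrivial_iff.2 hne
  obtain ⟨M, hM⟩ := Ideal.exists_maximal (W ⧸ Ideal.span {π} ^ k)
  refine IsLocalRing.of_unique_max_ideal ⟨M, hM, fun M' hM' => ?_⟩
  haveI := hM.isPrime
  haveI := hM'.isPrime
  rw [eq_map_of_isPrime_quotient_pow π k M, eq_map_of_isPrime_quotient_pow π k M']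

theorem isArtinianRing_quotient_pow [IsNoetherianRing W] :
    IsArtinianRing (W ⧸ Ideal.span {π} ^ k) := by
  rw [isArtinianRing_iff_krullDimLE_zero]
  apply Ring.KrullDimLE.mk₀
  intro q hq
  rw [eq_map_of_isPrime_quotient_pow π k q]
  by_cases hk : k = 0
  · exfalso
    subst hk
    have : Subsingleton (W ⧸ Ideal.span {π} ^ 0) := by
      rw [pow_zero, Ideal.one_eq_top]
      exact Ideal.Quotient.subsingleton_iff.2 rfl
    exact hq.ne_top (Subsingleton.elim _ _)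
  · rcases Ideal.map_eq_top_or_isMaximal_of_surjective (Ideal.Quotient.mk (Ideal.span {π} ^ k))
      Ideal.Quotient.mk_surjective hmax with h | h
    · exfalso
      have h1 : (Ideal.span {π}).map (Ideal.Quotient.mk (Ideal.span {π} ^ k)) ≠ ⊤ := by
        rw [← eq_map_of_isPrime_quotient_pow π k q]
        exact hq.ne_top
      exact h1 h
    · exact h

theorem isNilpotent_algebraMap_quotient_pow :
    IsNilpotent (algebraMap W (W ⧸ Ideal.span {π} ^ k) π) := by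
  refine ⟨k, ?_⟩
  rw [← map_pow]
  exact Ideal.Quotient.eq_zero_iff_mem.2 (Ideal.pow_mem_pow (Ideal.mem_span_singleton_self π) k)

end LowerLevel

variable {W B0 B1 B01 : Type*} [CommRing W] [CommRing B0] [CommRing B1] [CommRing B01]
  [Algebra W B0] [Algebra W B1] [Algebra W B01] {g : ℕ}
  {D : CechData W B0 B1 B01 g} {π : W} (H : ToricBase D π)
  {En : Type*} [DecidableEq En] {κ : Type*} [Field κ] [Algebra W κ]
  (FD : FibreDatum π D.ρ0 D.ρ1 En κ) (hP : FD.P = H.P) (hQ : FD.Q = H.Q)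
  (hsurj : Function.Surjective (algebraMap W κ))
  (hker : RingHom.ker (algebraMap W κ) = Ideal.span {π})
  (hev : ∀ e, FD.ev e H.s01 = 0)
  (hinj : ∀ e e', RingHom.ker (FD.ev e) = RingHom.ker (FD.ev e') → e = e')
  (satP : ∀ x : B01, H.s01 * x ∈ H.P → x ∈ H.P) (satQ : ∀ x : B01, H.s01 * x ∈ H.Q → x ∈ H.Q)
  [hmax : (Ideal.span {π}).IsMaximal] [Algebra.FiniteType W B0] [Algebra.FiniteType W B1]
  [Algebra.FiniteType W B01]

namespace ToricBase

section Sat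

variable (Λ : Type*) [CommRing Λ] [Algebra W Λ]

include FD hP in
theorem pi_mem_P : algebraMap W B01 π ∈ H.P := by
  rw [← hP]
  have := FD.pi_mem_P 1
  rwa [Algebra.smul_def, mul_one] at this

include FD hQ in
theorem pi_mem_Q : algebraMap W B01 π ∈ H.Q := by
  rw [← hQ]
  have := FD.pi_mem_Q 1
  rwa [Algebra.smul_def, mul_one] at this

include FD hP satP in
/-- saturation of `P(Λ ⊗ B01)` at every level -/
theorem sat01P (x : Λ ⊗[W] B01) (hx : (1 : Λ) ⊗ₜ[W] H.s01 * x ∈ extI W Λ H.P) :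
    x ∈ extI W Λ H.P :=
  mem_extI_of_mul_mem W Λ π H.P (H.pi_mem_P FD hP) H.s01 satP x hx

include FD hQ satQ in
theorem sat01Q (x : Λ ⊗[W] B01) (hx : (1 : Λ) ⊗ₜ[W] H.s01 * x ∈ extI W Λ H.Q) :
    x ∈ extI W Λ H.Q :=
  mem_extI_of_mul_mem W Λ π H.Q (H.pi_mem_Q FD hQ) H.s01 satQ x hx

/-- saturation on the chart `0`, for the contracted ideal -/
theorem sat0_of_sat01 (J : Ideal (Λ ⊗[W] B01))
    (hJ : ∀ x, (1 : Λ) ⊗ₜ[W] H.s01 * x ∈ J → x ∈ J) (x : Λ ⊗[W] B0)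
    (hx : (1 : Λ) ⊗ₜ[W] H.s0 * x ∈ J.comap ((D.pkg Λ).r0 : Λ ⊗[W] B0 →+* Λ ⊗[W] B01)) :
    x ∈ J.comap ((D.pkg Λ).r0 : Λ ⊗[W] B0 →+* Λ ⊗[W] B01) := by
  rw [Ideal.mem_comap] at hx ⊢
  rw [map_mul, RingHom.coe_coe, H.r0_s0] at hx
  exact hJ _ hx

/-- saturation on the chart `1`, for the contracted ideal -/
theorem sat1_of_sat01 (J : Ideal (Λ ⊗[W] B01))
    (hJ : ∀ x, (1 : Λ) ⊗ₜ[W] H.s01 * x ∈ J → x ∈ J) (x : Λ ⊗[W] B1)
    (hx : (1 : Λ) ⊗ₜ[W] H.s1 * x ∈ J.comap ((D.pkg Λ).r1 : Λ ⊗[W] B1 →+* Λ ⊗[W] B01)) :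
    x ∈ J.comap ((D.pkg Λ).r1 : Λ ⊗[W] B1 →+* Λ ⊗[W] B01) := by
  rw [Ideal.mem_comap] at hx ⊢
  obtain ⟨v, hv⟩ := H.exists_r1_s1 Λ
  rw [map_mul, RingHom.coe_coe, hv] at hx
  have h1 : (1 : Λ) ⊗ₜ[W] H.s01 * ((v : Λ ⊗[W] B01) * (D.pkg Λ).r1 x) ∈ J := by
    have : (1 : Λ) ⊗ₜ[W] H.s01 * ((v : Λ ⊗[W] B01) * (D.pkg Λ).r1 x) =
        (v : Λ ⊗[W] B01) * (1 : Λ) ⊗ₜ[W] H.s01 * (D.pkg Λ).r1 x := by ring
    rw [this]
    exact hx
  exact (Ideal.unit_mul_mem_iff_mem _ v.isUnit).1 (hJ _ h1)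

end Sat

section Lower

variable (K : Ideal W) (hK : K ≤ Ideal.span {π}) [IsLocalRing (W ⧸ K)] [IsArtinianRing (W ⧸ K)]
  (hπ0 : IsNilpotent (algebraMap W (W ⧸ K) π))

include FD hP hK in
theorem smul_mem_P_of_mem (w : W) (hw : w ∈ K) (b : B01) : w • b ∈ H.P := by
  obtain ⟨w', rfl⟩ := Ideal.mem_span_singleton'.1 (hK hw)
  rw [← hP, mul_comm, mul_smul]
  exact FD.pi_mem_P _

include FD hQ hK in
theorem smul_mem_Q_of_mem (w : W) (hw : w ∈ K) (b : B01) : w • b ∈ H.Q := by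
  obtain ⟨w', rfl⟩ := Ideal.mem_span_singleton'.1 (hK hw)
  rw [← hQ, mul_comm, mul_smul]
  exact FD.pi_mem_Q _

/-- the rational nodes at the level `Λ` (abbreviation, with `ev := FD.ev`) -/
noncomputable abbrev nodeAt (Λ : Type*) [CommRing Λ] [IsLocalRing Λ] [Algebra W Λ]
    (hπ : IsNilpotent (algebraMap W Λ π)) (e : En) : H.Pts Λ :=
  H.nodePt FD.ev hsurj hker Λ hπ hev e

include hP hQ in
theorem extI_sup_le_nodeAt (Λ : Type*) [CommRing Λ] [IsLocalRing Λ] [Algebra W Λ]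
    (hπ : IsNilpotent (algebraMap W Λ π)) (e : En) :
    extI W Λ H.P ⊔ extI W Λ H.Q ≤ (H.nodeAt FD hsurj hker hev Λ hπ e).1 := by
  refine sup_le ?_ ?_
  · rw [extI, Ideal.map_le_iff_le_comap]
    intro b hb
    rw [Ideal.mem_comap]
    exact (one_tmul_mem_ker_iff FD.ev hsurj hker Λ hπ e b).2 (FD.ev_P e b (hP ▸ hb))
  · rw [extI, Ideal.map_le_iff_le_comap]
    intro b hb
    rw [Ideal.mem_comap]
    exact (one_tmul_mem_ker_iff FD.ev hsurj hker Λ hπ e b).2 (FD.ev_Q e b (hQ ▸ hb))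

include hP hQ hinj satP satQ hK in
/-- **(O4), lower level**: at the level `W ⧸ K` there are separating functions for the rational
node `e` whose first order term is `1 ⊗ d` with `d : B01` TORIC for the indicator of `e`. -/
theorem exists_toric_d (e : En) :
    ∃ (d : B01) (h0 : H.S0 (W ⧸ K)) (h1 : H.S1 (W ⧸ K)),
      (H.glueData (W ⧸ K) hπ0).IsSep0 (H.nodeAt FD hsurj hker hev (W ⧸ K) hπ0 e) h0 ∧
      (H.glueData (W ⧸ K) hπ0).IsSep1 (H.nodeAt FD hsurj hker hev (W ⧸ K) hπ0 e) h1 ∧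
      algebraMap ((W ⧸ K) ⊗[W] B01) (H.S01 (W ⧸ K)) ((1 : W ⧸ K) ⊗ₜ[W] d) =
        (H.glueData (W ⧸ K) hπ0).q0 h0 - (H.glueData (W ⧸ K) hπ0).q1 h1 ∧
      FD.IsToric (FibreDatum.indic (κ := κ) e) d := by
  set Λ0 := W ⧸ K with hΛ0
  set G := H.glueInput Λ0 hπ0 with hG
  set GD := H.glueData Λ0 hπ0 with hGD
  set ν := H.nodeAt FD hsurj hker hev Λ0 hπ0 with hν
  obtain ⟨h0, H0⟩ := GD.exists_isSep0 (ν e)
  obtain ⟨h1, H1⟩ := GD.exists_isSep1 (ν e)
  obtain ⟨dt, hdt⟩ := GD.exists_d_of_sep (ν e) H0 H1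
  obtain ⟨d, rfl⟩ := exists_one_tmul_eq K dt
  refine ⟨d, h0, h1, H0, H1, hdt, ?_⟩
  -- the toric property at the lower level
  have hε0P : 1 - GD.ε0 ∈ ((extI W Λ0 H.P).comap
      ((D.pkg Λ0).r0 : Λ0 ⊗[W] B0 →+* Λ0 ⊗[W] B01)).map (algebraMap _ (H.S0 Λ0)) :=
    Ideal.map_mono (fun x hx => G.hP0 x hx) G.one_sub_ε0_mem
  have hε0Q : GD.ε0 ∈ ((extI W Λ0 H.Q).comap
      ((D.pkg Λ0).r0 : Λ0 ⊗[W] B0 →+* Λ0 ⊗[W] B01)).map (algebraMap _ (H.S0 Λ0)) :=
    Ideal.map_mono (fun x hx => G.hQ0 x hx) G.ε0_mem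
  have hε1P : 1 - GD.ε1 ∈ ((extI W Λ0 H.P).comap
      ((D.pkg Λ0).r1 : Λ0 ⊗[W] B1 →+* Λ0 ⊗[W] B01)).map (algebraMap _ (H.S1 Λ0)) :=
    Ideal.map_mono (fun x hx => G.hP1 x hx) G.one_sub_ε1_mem
  have hε1Q : GD.ε1 ∈ ((extI W Λ0 H.Q).comap
      ((D.pkg Λ0).r1 : Λ0 ⊗[W] B1 →+* Λ0 ⊗[W] B01)).map (algebraMap _ (H.S1 Λ0)) :=
    Ideal.map_mono (fun x hx => G.hQ1 x hx) G.ε1_mem
  obtain ⟨hdQ, xt0, xt1, hdP, hnode, hother⟩ := GD.sep_toric (extI W Λ0 H.P) (extI W Λ0 H.Q)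
    (H.sat01P FD hP satP Λ0) (H.sat01Q FD hQ satQ Λ0)
    (H.sat0_of_sat01 Λ0 _ (H.sat01P FD hP satP Λ0))
    (H.sat0_of_sat01 Λ0 _ (H.sat01Q FD hQ satQ Λ0))
    (H.sat1_of_sat01 Λ0 _ (H.sat01P FD hP satP Λ0))
    (H.sat1_of_sat01 Λ0 _ (H.sat01Q FD hQ satQ Λ0))
    hε0P hε0Q hε1P hε1Q (ν e) H0 H1 hdt
  obtain ⟨x0, rfl⟩ := exists_one_tmul_eq K xt0
  obtain ⟨x1, rfl⟩ := exists_one_tmul_eq K xt1
  refine ⟨x0, 0, x1, 0, ?_, ?_, ?_, ?_⟩
  · rw [hP]
    apply mem_of_one_tmul_mem_extI K H.P (H.smul_mem_P_of_mem FD hP K hK)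
    have : (1 : Λ0) ⊗ₜ[W] (d - (D.ρ0 x0 - D.ρ1 x1)) =
        (1 : Λ0) ⊗ₜ[W] d - ((D.pkg Λ0).r0 ((1 : Λ0) ⊗ₜ[W] x0) - (D.pkg Λ0).r1 ((1 : Λ0) ⊗ₜ[W] x1)) := by
      rw [r0_tmul, r1_tmul, TensorProduct.tmul_sub, TensorProduct.tmul_sub]
    rw [this]
    exact hdP
  · rw [hQ, map_zero, map_zero, sub_zero, sub_zero]
    exact mem_of_one_tmul_mem_extI K H.Q (H.smul_mem_Q_of_mem FD hQ K hK) d hdQ
  · intro e'
    rw [sub_zero]
    by_cases he : e' = e
    · subst he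
      have h3 := (hnode (H.extI_sup_le_nodeAt FD hP hQ hsurj hker hev Λ0 hπ0 e')).1
      have h4 : (1 : Λ0) ⊗ₜ[W] (D.ρ0 x0 - 1) ∈ (ν e').1 := by
        have : (1 : Λ0) ⊗ₜ[W] (D.ρ0 x0 - 1) =
            (D.pkg Λ0).r0 ((1 : Λ0) ⊗ₜ[W] x0 - 1) := by
          rw [map_sub, map_one, r0_tmul, TensorProduct.tmul_sub]
          rfl
        rw [this]
        exact h3
      rw [hν, ToricBase.nodePt_val, one_tmul_mem_ker_iff, map_sub, map_one, sub_eq_zero] at h4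
      rw [h4, FibreDatum.indic, if_pos rfl]
    · have hne : ν e' ≠ ν e := fun hh =>
        he (H.nodePt_injective FD.ev hsurj hker Λ0 hπ0 hev hinj hh)
      have h3 := (hother (ν e') hne (H.extI_sup_le_nodeAt FD hP hQ hsurj hker hev Λ0 hπ0 e')).1
      have h4 : (1 : Λ0) ⊗ₜ[W] (D.ρ0 x0) ∈ (ν e').1 := h3
      rw [hν, ToricBase.nodePt_val, one_tmul_mem_ker_iff] at h4
      rw [h4, FibreDatum.indic, if_neg he]
  · intro e'
    rw [sub_zero]
    by_cases he : e' = e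
    · subst he
      have h3 := (hnode (H.extI_sup_le_nodeAt FD hP hQ hsurj hker hev Λ0 hπ0 e')).2
      have h4 : (1 : Λ0) ⊗ₜ[W] (D.ρ1 x1 - 1) ∈ (ν e').1 := by
        have : (1 : Λ0) ⊗ₜ[W] (D.ρ1 x1 - 1) =
            (D.pkg Λ0).r1 ((1 : Λ0) ⊗ₜ[W] x1 - 1) := by
          rw [map_sub, map_one, r1_tmul, TensorProduct.tmul_sub]
          rfl
        rw [this]
        exact h3
      rw [hν, ToricBase.nodePt_val, one_tmul_mem_ker_iff, map_sub, map_one, sub_eq_zero] at h4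
      rw [h4, FibreDatum.indic, if_pos rfl]
    · have hne : ν e' ≠ ν e := fun hh =>
        he (H.nodePt_injective FD.ev hsurj hker Λ0 hπ0 hev hinj hh)
      have h3 := (hother (ν e') hne (H.extI_sup_le_nodeAt FD hP hQ hsurj hker hev Λ0 hπ0 e')).2
      have h4 : (1 : Λ0) ⊗ₜ[W] (D.ρ1 x1) ∈ (ν e').1 := h3
      rw [hν, ToricBase.nodePt_val, one_tmul_mem_ker_iff] at h4
      rw [h4, FibreDatum.indic, if_neg he]

end Lower

section Upper

variable (K : Ideal W) (hK : K ≤ Ideal.span {π}) [IsLocalRing (W ⧸ K)] [IsArtinianRing (W ⧸ K)]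
  (hπ0 : IsNilpotent (algebraMap W (W ⧸ K) π))
  {ι : Type*} [Fintype ι] (node : ι → En) (hnode : Function.Injective node)

theorem sum_tmul_mem {Λ : Type*} [CommRing Λ] [Algebra W Λ] {m : Ideal Λ} (a : ι → Λ)
    (ha : ∀ k, a k ∈ m) (d : ι → B01) :
    ∑ k, (a k) ⊗ₜ[W] d k ∈ eI m (Λ ⊗[W] B01) := by
  refine Ideal.sum_mem _ fun k _ => ?_
  have : (a k) ⊗ₜ[W] d k = algebraMap Λ (Λ ⊗[W] B01) (a k) * (1 : Λ) ⊗ₜ[W] d k := by
    rw [Algebra.TensorProduct.algebraMap_apply, Algebra.TensorProduct.tmul_mul_tmul, mul_one,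
      one_mul]
    rfl
  rw [this]
  exact Ideal.mul_mem_right _ _ (Ideal.mem_map_of_mem _ (ha k))

include hnode hinj in
theorem nodeAt_comp_injective (Λ : Type*) [CommRing Λ] [IsLocalRing Λ] [Algebra W Λ]
    (hπ : IsNilpotent (algebraMap W Λ π)) :
    Function.Injective (fun k => H.nodeAt FD hsurj hker hev Λ hπ (node k)) :=
  (H.nodePt_injective FD.ev hsurj hker Λ hπ hev hinj).comp hnode

/-- **(O4), transport**: first order formula at every local artinian level `Λ` killed by `K`, with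
first order terms `1 ⊗ d k` chosen at the level `W ⧸ K`. -/
theorem firstOrder_of_sep (d : ι → B01) (h0 : ι → H.S0 (W ⧸ K)) (h1 : ι → H.S1 (W ⧸ K))
    (H0 : ∀ k, (H.glueData (W ⧸ K) hπ0).IsSep0
      (H.nodeAt FD hsurj hker hev (W ⧸ K) hπ0 (node k)) (h0 k))
    (H1 : ∀ k, (H.glueData (W ⧸ K) hπ0).IsSep1
      (H.nodeAt FD hsurj hker hev (W ⧸ K) hπ0 (node k)) (h1 k))
    (hd : ∀ k, algebraMap ((W ⧸ K) ⊗[W] B01) (H.S01 (W ⧸ K)) ((1 : W ⧸ K) ⊗ₜ[W] d k) =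
      (H.glueData (W ⧸ K) hπ0).q0 (h0 k) - (H.glueData (W ⧸ K) hπ0).q1 (h1 k))
    (Λ : Type*) [CommRing Λ] [IsLocalRing Λ] [IsArtinianRing Λ] [Algebra W Λ]
    (hπ : IsNilpotent (algebraMap W Λ π)) (hKΛ : ∀ w ∈ K, algebraMap W Λ w = 0)
    {m : Ideal Λ} (hm : IsNilpotent m) {I : Ideal Λ} (hI : I ≤ m)
    (hII : ∀ a b, a ∈ I → b ∈ I → a * b = 0) (a : ι → Λ) (ha : ∀ k, a k ∈ I) :
    (H.glueData Λ hπ).iota hm
        (extendHom (fun k => H.nodeAt FD hsurj hker hev Λ hπ (node k))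
          (H.nodeAt_comp_injective FD hsurj hker hev hinj node hnode Λ hπ)
          (fun k => oneAddUnit hm (a k) (hI (ha k)))) =
      (D.pkg Λ).cls m (oneAddUnit (isNilpotent_map (algebraMap Λ (Λ ⊗[W] B01)) hm)
        (∑ k, (a k) ⊗ₜ[W] d k) (sum_tmul_mem a (fun k => hI (ha k)) d)) := by
  set f0 : (W ⧸ K) →ₐ[W] Λ := Ideal.Quotient.liftₐ K (Algebra.ofId W Λ) hKΛ with hf0
  have key := (H.glueHomC f0 hπ0 hπ).iota_firstOrder_nodes
    (fun k => H.nodeAt FD hsurj hker hev (W ⧸ K) hπ0 (node k))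
    (fun k => H.nodeAt FD hsurj hker hev Λ hπ (node k))
    (H.nodeAt_comp_injective FD hsurj hker hev hinj node hnode Λ hπ)
    (fun k => H.ptsMap_nodePt FD.ev hsurj hker hπ0 hπ f0 hev (node k))
    (fun k e'' he => H.eq_nodePt_of_ptsMap_eq FD.ev hsurj hker hπ0 hπ f0 hev e'' (node k) he)
    hm hI hII a ha h0 H0 h1 H1 (fun k => (1 : W ⧸ K) ⊗ₜ[W] d k) hd
  rw [key]
  congr 1
  apply Subtype.ext
  apply Units.ext
  show 1 + ∑ k, algebraMap Λ (Λ ⊗[W] B01) (a k) * (D.pkgHom f0).t01 ((1 : W ⧸ K) ⊗ₜ[W] d k) =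
    1 + ∑ k, (a k) ⊗ₜ[W] d k
  congr 1
  refine Finset.sum_congr rfl fun k _ => ?_
  rw [CechData.pkgHom_t01_tmul, map_one, Algebra.TensorProduct.algebraMap_apply,
    Algebra.TensorProduct.tmul_mul_tmul, mul_one, one_mul]
  rfl

include hP hQ satP satQ hK hπ0 in
/-- **(O4)**: there are `W`-rational first order terms `d k : B01`, TORIC for the indicators of the
nodes `node k`, computing the toric map to first order at every local artinian level killed by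
`K`. -/
theorem exists_firstOrder :
    ∃ d : ι → B01, (∀ k, FD.IsToric (FibreDatum.indic (κ := κ) (node k)) (d k)) ∧
      ∀ (Λ : Type*) [CommRing Λ] [IsLocalRing Λ] [IsArtinianRing Λ] [Algebra W Λ]
        (hπ : IsNilpotent (algebraMap W Λ π)) (_ : ∀ w ∈ K, algebraMap W Λ w = 0)
        {m : Ideal Λ} (hm : IsNilpotent m) {I : Ideal Λ} (hI : I ≤ m)
        (_ : ∀ a b, a ∈ I → b ∈ I → a * b = 0) (a : ι → Λ) (ha : ∀ k, a k ∈ I),
        (H.glueData Λ hπ).iota hm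
            (extendHom (fun k => H.nodeAt FD hsurj hker hev Λ hπ (node k))
              (H.nodeAt_comp_injective FD hsurj hker hev hinj node hnode Λ hπ)
              (fun k => oneAddUnit hm (a k) (hI (ha k)))) =
          (D.pkg Λ).cls m (oneAddUnit (isNilpotent_map (algebraMap Λ (Λ ⊗[W] B01)) hm)
            (∑ k, (a k) ⊗ₜ[W] d k) (sum_tmul_mem a (fun k => hI (ha k)) d)) := by
  have hex := fun k => H.exists_toric_d FD hP hQ hsurj hker hev hinj satP satQ K hK hπ0 (node k)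
  choose d h0 h1 H0 H1 hd htor using hex
  refine ⟨d, htor, ?_⟩
  intro Λ _ _ _ _ hπ hKΛ m hm I hI hII a ha
  exact H.firstOrder_of_sep FD hsurj hker hev hinj K hπ0 node hnode d h0 h1 H0 H1 hd Λ hπ hKΛ hm
    hI hII a ha

end Upper

end ToricBase

end Fermat.Agent.T1B.Toric98
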