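import Mathlib
import Fermat.Agent.T1B.Toric98.GlueFirstOrder

/-!
# T1B / TORIC50 (helper98): linking a fibre datum `FD` with a toric base `H` (abstract)

The side conditions of `ToricBase.firstOrderToric` / `ToricBase.towerInput_of_fibre`
(`Toric98/GlueNodeSys.lean`) that follow from the fields of `H : ToricBase D π` and of
`FD : FibreDatum π D.ρ0 D.ρ1 En κ`:

* `ToricBase.ev_s01_eq_zero` : `hev : ∀ e, FD.ev e H.s01 = 0` from `H.meet01` (`FD.P = H.P`, `FD.Q = H.Q`);
* `ToricBase.satP_of_isPrime`, `ToricBase.satQ_of_isPrime` : the saturations `satP`, `satQ` from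
  `H.P`, `H.Q` prime and incomparable (`reg01`, `red01`);
* `FibreDatum.reindex` : change of the index set of the nodes along an equivalence;
* `finite_maximal_of_finite_quotient`, `ToricBase.finite_nodes` : finitely many maximal ideals of
  `B01` contain `P` and `Q`;
* `FibreDatum.castRho` : transport along equalities of the restriction maps;
* `exists_enum` : enumeration `Fin r → En` of the complement of a base point of a finite type.
-/

set_option autoImplicit false
set_option linter.unusedSectionVars false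
set_option linter.style.haveILetI false

namespace Fermat.Agent.T1B.Toric98

open Fermat.Agent.T1.CechFormal70

section Reindex

variable {R : Type*} [CommRing R] {C0 C1 C01 : Type*} [CommRing C0] [CommRing C1] [CommRing C01]
  [Algebra R C0] [Algebra R C1] [Algebra R C01]
  {π : R} {ρ0 : C0 →ₐ[R] C01} {ρ1 : C1 →ₐ[R] C01} {E E' : Type*} {κ : Type*}
  [Field κ] [Algebra R κ]

/-- change of the index set of the nodes along a surjection. -/
def FibreDatum.reindex (D : FibreDatum π ρ0 ρ1 E κ) (σ : E' → E) (hσ : Function.Surjective σ) :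
    FibreDatum π ρ0 ρ1 E' κ where
  P := D.P
  Q := D.Q
  ev e := D.ev (σ e)
  pi_mem_P := D.pi_mem_P
  pi_mem_Q := D.pi_mem_Q
  reduced := D.reduced
  h0P := D.h0P
  h0Q := D.h0Q
  ev_P e := D.ev_P (σ e)
  ev_Q e := D.ev_Q (σ e)
  node0 c hc := D.node0 c fun e => by
    obtain ⟨e', rfl⟩ := hσ e
    exact hc e'
  node1 c hc := D.node1 c fun e => by
    obtain ⟨e', rfl⟩ := hσ e
    exact hc e'

@[simp] theorem FibreDatum.reindex_P (D : FibreDatum π ρ0 ρ1 E κ) (σ : E' → E)
    (hσ : Function.Surjective σ) : (D.reindex σ hσ).P = D.P := rfl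

@[simp] theorem FibreDatum.reindex_Q (D : FibreDatum π ρ0 ρ1 E κ) (σ : E' → E)
    (hσ : Function.Surjective σ) : (D.reindex σ hσ).Q = D.Q := rfl

@[simp] theorem FibreDatum.reindex_ev (D : FibreDatum π ρ0 ρ1 E κ) (σ : E' → E)
    (hσ : Function.Surjective σ) (e : E') : (D.reindex σ hσ).ev e = D.ev (σ e) := rfl

/-- transport along equalities of the restriction maps. -/
def FibreDatum.castRho {ρ0' : C0 →ₐ[R] C01} {ρ1' : C1 →ₐ[R] C01} (h0 : ρ0' = ρ0) (h1 : ρ1' = ρ1)
    (D : FibreDatum π ρ0 ρ1 E κ) : FibreDatum π ρ0' ρ1' E κ := by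
  subst h0 h1
  exact D

@[simp] theorem FibreDatum.castRho_P {ρ0' : C0 →ₐ[R] C01} {ρ1' : C1 →ₐ[R] C01} (h0 : ρ0' = ρ0)
    (h1 : ρ1' = ρ1) (D : FibreDatum π ρ0 ρ1 E κ) : (D.castRho h0 h1).P = D.P := by
  subst h0 h1
  rfl

@[simp] theorem FibreDatum.castRho_Q {ρ0' : C0 →ₐ[R] C01} {ρ1' : C1 →ₐ[R] C01} (h0 : ρ0' = ρ0)
    (h1 : ρ1' = ρ1) (D : FibreDatum π ρ0 ρ1 E κ) : (D.castRho h0 h1).Q = D.Q := by
  subst h0 h1
  rfl

@[simp] theorem FibreDatum.castRho_ev {ρ0' : C0 →ₐ[R] C01} {ρ1' : C1 →ₐ[R] C01} (h0 : ρ0' = ρ0)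
    (h1 : ρ1' = ρ1) (D : FibreDatum π ρ0 ρ1 E κ) (e : E) : (D.castRho h0 h1).ev e = D.ev e := by
  subst h0 h1
  rfl

end Reindex

section Enum

/-- enumeration of the complement of a base point of a finite nonempty type. -/
theorem exists_enum (En : Type*) [Finite En] (e0 : En) :
    ∃ (r : ℕ) (node : Fin r → En), Function.Injective node ∧ (∀ k, node k ≠ e0) ∧
      ∀ e, e ≠ e0 → ∃ k, node k = e := by
  classical
  haveI : Finite {e : En // e ≠ e0} := Subtype.finite
  obtain ⟨r, ⟨f⟩⟩ := Finite.exists_equiv_fin {e : En // e ≠ e0}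
  refine ⟨r, fun k => (f.symm k).1, ?_, fun k => (f.symm k).2, fun e he => ⟨f ⟨e, he⟩, ?_⟩⟩
  · intro a b hab
    exact f.symm.injective (Subtype.ext hab)
  · show (f.symm (f ⟨e, he⟩)).1 = e
    rw [Equiv.symm_apply_apply]

end Enum

section Artin

/-- a ring which is a finite module over `W` and killed by the generator of a maximal ideal of `W`
is artinian. -/
theorem isArtinianRing_of_finite_of_algebraMap_eq_zero {W A : Type*} [CommRing W] [CommRing A]
    [Algebra W A] [Module.Finite W A] (π : W) [hmax : (Ideal.span {π}).IsMaximal]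
    (hπ : algebraMap W A π = 0) : IsArtinianRing A := by
  letI : Field (W ⧸ Ideal.span {π}) := Ideal.Quotient.field _
  letI : Algebra (W ⧸ Ideal.span {π}) A :=
    (Ideal.Quotient.lift (Ideal.span {π}) (algebraMap W A) (by
      intro a ha
      obtain ⟨c, rfl⟩ := Ideal.mem_span_singleton'.1 ha
      rw [map_mul, hπ, mul_zero])).toAlgebra
  haveI : IsScalarTower W (W ⧸ Ideal.span {π}) A := IsScalarTower.of_algebraMap_eq fun x => rfl
  haveI : Module.Finite (W ⧸ Ideal.span {π}) A :=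
    Module.Finite.of_restrictScalars_finite W (W ⧸ Ideal.span {π}) A
  exact IsArtinianRing.of_finite (W ⧸ Ideal.span {π}) A

end Artin

section FiniteNodes

variable {W A : Type*} [CommRing W] [CommRing A] [Algebra W A] (π : W) (s : A)

/-- the ideal of `V(s, π)`. -/
def nodeIdeal : Ideal A := Ideal.span {s} ⊔ Ideal.span {algebraMap W A π}

theorem finite_quotient_nodeIdeal [Module.Finite W (A ⧸ Ideal.span {s})] :
    Module.Finite W (A ⧸ nodeIdeal π s) :=
  Module.Finite.of_surjective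
    (Ideal.Quotient.factorₐ W (le_sup_left : Ideal.span {s} ≤ nodeIdeal π s)).toLinearMap
    (Ideal.Quotient.factor_surjective le_sup_left)

theorem isArtinianRing_quotient_nodeIdeal [hmax : (Ideal.span {π}).IsMaximal]
    [Module.Finite W (A ⧸ Ideal.span {s})] : IsArtinianRing (A ⧸ nodeIdeal π s) := by
  haveI := finite_quotient_nodeIdeal π s
  apply isArtinianRing_of_finite_of_algebraMap_eq_zero π
  rw [IsScalarTower.algebraMap_apply W A (A ⧸ nodeIdeal π s), Ideal.Quotient.algebraMap_eq,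
    Ideal.Quotient.eq_zero_iff_mem]
  exact Ideal.mem_sup_right (Ideal.mem_span_singleton_self _)

/-- finitely many maximal ideals contain `P` and `Q`, if `P + Q` contains `π` and a power of a
function `s` with `A ⧸ (s)` finite over `W`. -/
theorem finite_maximal_of_finite_quotient [hmax : (Ideal.span {π}).IsMaximal]
    [Module.Finite W (A ⧸ Ideal.span {s})] (P Q : Ideal A) (hs : ∃ k : ℕ, s ^ k ∈ P ⊔ Q)
    (hπP : algebraMap W A π ∈ P) :
    {m : Ideal A | m.IsMaximal ∧ P ≤ m ∧ Q ≤ m}.Finite := by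
  haveI := isArtinianRing_quotient_nodeIdeal π s
  refine (finite_setOf_isPrime_le (nodeIdeal π s)).subset ?_
  rintro m ⟨hm, hP, hQ⟩
  haveI := hm.isPrime
  refine ⟨hm.isPrime, sup_le ?_ ?_⟩
  · rw [Ideal.span_singleton_le_iff_mem]
    obtain ⟨k, hk⟩ := hs
    exact hm.isPrime.mem_of_pow_mem k (sup_le hP hQ hk)
  · rw [Ideal.span_singleton_le_iff_mem]
    exact hP hπP

end FiniteNodes

section Link

variable {W B0 B1 B01 : Type*} [CommRing W] [CommRing B0] [CommRing B1] [CommRing B01]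
  [Algebra W B0] [Algebra W B1] [Algebra W B01] {g : ℕ}
  {D : CechData W B0 B1 B01 g} {π : W} (H : ToricBase D π)

namespace ToricBase

/-- `s01` lies in every prime containing `P` and `Q`. -/
theorem s01_mem_of_le (m : Ideal B01) [hm : m.IsPrime] (hP : H.P ≤ m) (hQ : H.Q ≤ m) :
    H.s01 ∈ m := by
  obtain ⟨k, hk⟩ := H.meet01
  exact hm.mem_of_pow_mem k (sup_le hP hQ hk)

/-- **The nodes are finite in number**: finitely many primes of `B01` contain `P` and `Q`. -/
theorem finite_nodes [hmax : (Ideal.span {π}).IsMaximal] (hπP : algebraMap W B01 π ∈ H.P) :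
    {m : Ideal B01 | m.IsMaximal ∧ H.P ≤ m ∧ H.Q ≤ m}.Finite :=
  finite_maximal_of_finite_quotient π H.s01 H.P H.Q H.meet01 hπP

/-- **`hev`**: the evaluations at the nodes kill `s01`. -/
theorem ev_s01_eq_zero {En : Type*} {κ : Type*} [Field κ] [Algebra W κ]
    (FD : FibreDatum π D.ρ0 D.ρ1 En κ) (hP : FD.P = H.P) (hQ : FD.Q = H.Q) (e : En) :
    FD.ev e H.s01 = 0 := by
  obtain ⟨k, hk⟩ := H.meet01
  obtain ⟨p, hp, q, hq, hpq⟩ := Submodule.mem_sup.1 hk
  have h1 : FD.ev e (H.s01 ^ k) = 0 := by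
    rw [← hpq, map_add, FD.ev_P e p (hP ▸ hp), FD.ev_Q e q (hQ ▸ hq), add_zero]
  rw [map_pow] at h1
  exact IsNilpotent.eq_zero ⟨k, h1⟩

/-- **`satP`**: `s01` is regular modulo `P`, if `P` is a prime containing `π` and not containing
`Q`. -/
theorem satP_of_isPrime (hPp : H.P.IsPrime) (hπP : algebraMap W B01 π ∈ H.P)
    (hQP : ¬ H.Q ≤ H.P) (x : B01) (hx : H.s01 * x ∈ H.P) : x ∈ H.P := by
  rcases hPp.mem_or_mem hx with h | h
  · exfalso
    apply hQP
    intro q hq
    have h1 : H.s01 * q ∈ H.P := H.P.mul_mem_right _ h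
    have h2 : H.s01 * q ∈ H.Q := H.Q.mul_mem_left _ hq
    obtain ⟨b', hb'⟩ := H.red01 _ h1 h2
    have h3 : q ∈ Ideal.span {algebraMap W B01 π} := by
      apply H.reg01 q
      rw [hb', Algebra.smul_def]
      exact Ideal.mul_mem_right _ _ (Ideal.mem_span_singleton_self _)
    obtain ⟨c, rfl⟩ := Ideal.mem_span_singleton'.1 h3
    exact H.P.mul_mem_left _ hπP
  · exact h

/-- **`satQ`**: `s01` is regular modulo `Q`, if `Q` is a prime containing `π` and not containing
`P`. -/
theorem satQ_of_isPrime (hQp : H.Q.IsPrime) (hπQ : algebraMap W B01 π ∈ H.Q)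
    (hPQ : ¬ H.P ≤ H.Q) (x : B01) (hx : H.s01 * x ∈ H.Q) : x ∈ H.Q := by
  rcases hQp.mem_or_mem hx with h | h
  · exfalso
    apply hPQ
    intro p hp
    have h1 : H.s01 * p ∈ H.P := H.P.mul_mem_left _ hp
    have h2 : H.s01 * p ∈ H.Q := H.Q.mul_mem_right _ h
    obtain ⟨b', hb'⟩ := H.red01 _ h1 h2
    have h3 : p ∈ Ideal.span {algebraMap W B01 π} := by
      apply H.reg01 p
      rw [hb', Algebra.smul_def]
      exact Ideal.mul_mem_right _ _ (Ideal.mem_span_singleton_self _)
    obtain ⟨c, rfl⟩ := Ideal.mem_span_singleton'.1 h3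
    exact H.Q.mul_mem_left _ hπQ
  · exact h

end ToricBase

end Link

end Fermat.Agent.T1B.Toric98
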