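import Mathlib

/-!
# T1B / TORIC50, brick T-LIN (helper98): finiteness and rationality of the nodes (abstract)

* `finite_primes_of_dedekind` : `φ : B →+* A` surjective onto a Dedekind domain (`A = B'_j / π`, the
  first component of the special fibre of the chart `B = B_j`, `ker φ = P1`), `P2` an ideal of `B` not
  contained in `ker φ`.  Then only finitely many primes of `B` contain `ker φ` and `P2`: the nodes of
  the chart are finite in number.
* `finite_nodes_of_quotient` : the same with `B ⧸ P1` presented as a quotient `A' ⧸ ker ψ` of the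
  level-`M'` chart (`ψ : A' →+* B ⧸ P1` surjective).
* `evOfRational` : the evaluation `C →ₐ[R] κ` (`κ = R / (π)`) at a rational maximal ideal `m ∋ π`.
-/

set_option autoImplicit false

namespace Fermat.Agent.T1B.Toric98

open IsDedekindDomain

section Finite

variable {B A : Type*} [CommRing B] [CommRing A] [IsDedekindDomain A]

/-- Only finitely many primes contain both vertical ideals. -/
theorem finite_primes_of_dedekind (φ : B →+* A) (hφ : Function.Surjective φ) (P2 : Ideal B)
    (h : ∃ x ∈ P2, φ x ≠ 0) :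
    {m : Ideal B | m.IsPrime ∧ RingHom.ker φ ≤ m ∧ P2 ≤ m}.Finite := by
  have hI : P2.map φ ≠ 0 := by
    obtain ⟨x, hx, hx0⟩ := h
    intro h0
    apply hx0
    have : φ x ∈ P2.map φ := Ideal.mem_map_of_mem φ hx
    rw [h0] at this
    exact this
  have hfin := Ideal.finite_factors hI
  refine (hfin.image (fun v => v.asIdeal.comap φ)).subset ?_
  rintro m ⟨hmp, hker, hP2⟩
  have hcm : (m.map φ).comap φ = m := by
    rw [Ideal.comap_map_of_surjective φ hφ, ← RingHom.ker_eq_comap_bot]
    exact sup_eq_left.2 hker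
  have hprime : (m.map φ).IsPrime := Ideal.map_isPrime_of_surjective hφ hker
  have hle : P2.map φ ≤ m.map φ := Ideal.map_mono hP2
  have hne : m.map φ ≠ ⊥ := by
    intro h0
    apply hI
    rw [h0] at hle
    exact le_bot_iff.1 hle
  exact ⟨⟨m.map φ, hprime, hne⟩, Ideal.dvd_iff_le.2 hle, hcm⟩

end Finite

section Quotient

variable {B A' : Type*} [CommRing B] [CommRing A']

/-- The nodes of a chart are finite in number: `B ⧸ P1 ≅ A' ⧸ ker ψ` Dedekind, `P2 ⊄ P1`. -/
theorem finite_nodes_of_quotient (P1 P2 : Ideal B) (ψ : A' →+* B ⧸ P1)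
    (hψ : Function.Surjective ψ) [IsDedekindDomain (A' ⧸ RingHom.ker ψ)] (h : ¬ P2 ≤ P1) :
    {m : Ideal B | m.IsPrime ∧ P1 ≤ m ∧ P2 ≤ m}.Finite := by
  set e : A' ⧸ RingHom.ker ψ ≃+* B ⧸ P1 := RingHom.quotientKerEquivOfSurjective hψ with he
  set φ : B →+* A' ⧸ RingHom.ker ψ := (e.symm : B ⧸ P1 →+* A' ⧸ RingHom.ker ψ).comp
    (Ideal.Quotient.mk P1) with hφdef
  have hφ : Function.Surjective φ :=
    e.symm.surjective.comp Ideal.Quotient.mk_surjective
  have hker : RingHom.ker φ = P1 := by
    ext x
    rw [RingHom.mem_ker, hφdef, RingHom.comp_apply]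
    constructor
    · intro hx
      have : Ideal.Quotient.mk P1 x = 0 := by
        have h1 := congrArg e hx
        simpa using h1
      exact Ideal.Quotient.eq_zero_iff_mem.1 this
    · intro hx
      rw [Ideal.Quotient.eq_zero_iff_mem.2 hx, map_zero]
  have h2 : ∃ x ∈ P2, φ x ≠ 0 := by
    by_contra hcon
    push Not at hcon
    apply h
    intro x hx
    rw [← hker, RingHom.mem_ker]
    exact hcon x hx
  have := finite_primes_of_dedekind φ hφ P2 h2
  rw [hker] at this
  exact this

end Quotient

section Rational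

variable {R C : Type*} [CommRing R] [CommRing C] [Algebra R C]

theorem ker_algebraMap_quotient (π : R) [hmax : (Ideal.span {π}).IsMaximal] (m : Ideal C)
    (hm : m ≠ ⊤) (hπ : algebraMap R C π ∈ m) :
    RingHom.ker (algebraMap R (C ⧸ m)) = Ideal.span {π} := by
  symm
  apply hmax.eq_of_le
  · intro htop
    apply hm
    rw [Ideal.eq_top_iff_one]
    have : (1 : R) ∈ RingHom.ker (algebraMap R (C ⧸ m)) := by rw [htop]; trivial
    rw [RingHom.mem_ker, map_one] at this
    exact Ideal.Quotient.eq_zero_iff_mem.1 (by simpa using this)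
  · rw [Ideal.span_singleton_le_iff_mem, RingHom.mem_ker,
      IsScalarTower.algebraMap_apply R C (C ⧸ m)]
    exact Ideal.Quotient.eq_zero_iff_mem.2 hπ

variable {κ : Type*} [Field κ] [Algebra R κ]

/-- `κ ≃ C ⧸ m` at a rational maximal ideal `m ∋ π` (`κ = R / (π)`). -/
noncomputable def evEquiv (π : R) [hmax : (Ideal.span {π}).IsMaximal]
    (hsurj : Function.Surjective (algebraMap R κ))
    (hkκ : RingHom.ker (algebraMap R κ) = Ideal.span {π}) (m : Ideal C)
    (hm : m ≠ ⊤) (hπ : algebraMap R C π ∈ m)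
    (hrat : Function.Surjective (algebraMap R (C ⧸ m))) : κ ≃ₐ[R] C ⧸ m :=
  (Ideal.quotientKerAlgEquivOfSurjective (f := Algebra.ofId R κ) hsurj).symm.trans
    ((Ideal.quotientEquivAlgOfEq R
      (hkκ.trans (ker_algebraMap_quotient π m hm hπ).symm)).trans
    (Ideal.quotientKerAlgEquivOfSurjective (f := Algebra.ofId R (C ⧸ m)) hrat))

/-- The evaluation at a rational maximal ideal containing `π`, with values in `κ = R / (π)`. -/
noncomputable def evOfRational (π : R) [hmax : (Ideal.span {π}).IsMaximal]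
    (hsurj : Function.Surjective (algebraMap R κ))
    (hkκ : RingHom.ker (algebraMap R κ) = Ideal.span {π}) (m : Ideal C)
    (hm : m ≠ ⊤) (hπ : algebraMap R C π ∈ m)
    (hrat : Function.Surjective (algebraMap R (C ⧸ m))) : C →ₐ[R] κ :=
  (evEquiv π hsurj hkκ m hm hπ hrat).symm.toAlgHom.comp (Ideal.Quotient.mkₐ R m)

theorem evOfRational_apply (π : R) [hmax : (Ideal.span {π}).IsMaximal]
    (hsurj : Function.Surjective (algebraMap R κ))
    (hkκ : RingHom.ker (algebraMap R κ) = Ideal.span {π}) (m : Ideal C)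
    (hm : m ≠ ⊤) (hπ : algebraMap R C π ∈ m)
    (hrat : Function.Surjective (algebraMap R (C ⧸ m))) (c : C) :
    evOfRational π hsurj hkκ m hm hπ hrat c =
      (evEquiv π hsurj hkκ m hm hπ hrat).symm (Ideal.Quotient.mk m c) := rfl

theorem evOfRational_eq_zero_iff (π : R) [hmax : (Ideal.span {π}).IsMaximal]
    (hsurj : Function.Surjective (algebraMap R κ))
    (hkκ : RingHom.ker (algebraMap R κ) = Ideal.span {π}) (m : Ideal C)
    (hm : m ≠ ⊤) (hπ : algebraMap R C π ∈ m)
    (hrat : Function.Surjective (algebraMap R (C ⧸ m))) (c : C) :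
    evOfRational π hsurj hkκ m hm hπ hrat c = 0 ↔ c ∈ m := by
  rw [evOfRational_apply, map_eq_zero_iff _ (evEquiv π hsurj hkκ m hm hπ hrat).symm.injective,
    Ideal.Quotient.eq_zero_iff_mem]

end Rational

end Fermat.Agent.T1B.Toric98
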