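import Mathlib
import Fermat.Agent.T1B.Toric98.FibreInst
import Fermat.Agent.T1B.Toric98.NodeFinite

/-!
# T1B / TORIC50, brick T-LIN (helper98), (M2)-abstract: the nodes of a two-chart model

* `mem_sup_of_forall_node` (ideal-theoretic local–global): if `c` lies in every maximal ideal
  containing `P` and `Q` (the nodes), and at every node `m` one has `m B_m = (P + Q) B_m`
  (`∀ f ∈ m, ∃ d ∉ m, d * f ∈ P ⊔ Q`), then `c ∈ P ⊔ Q`.
* `node_local_global` : the same in the elementwise vocabulary of `ES/N34/NodalCore13` /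
  `ES/N35/NodeStrong4` (`OffBranch`, `StrongCoords`; stated unfolded, Mathlib only).
* `FibreDatum.ofNodes` : the `FibreDatum` of a two-chart model whose node set (maximal ideals of
  `B0 ⊔ B1` containing both vertical ideals) is finite and rational, with `E` := the node set.
-/

set_option autoImplicit false

namespace Fermat.Agent.T1B.Toric98

section IdealLG

variable {B : Type*} [CommRing B]

/-- **Local–global for `P + Q`.** -/
theorem mem_sup_of_forall_node (P Q : Ideal B) (c : B)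
    (hc : ∀ m : Ideal B, m.IsMaximal → P ≤ m → Q ≤ m → c ∈ m)
    (hloc : ∀ m : Ideal B, m.IsMaximal → P ≤ m → Q ≤ m → ∀ f ∈ m, ∃ d : B, d ∉ m ∧ d * f ∈ P ⊔ Q) :
    c ∈ P ⊔ Q := by
  -- the colon ideal `(P ⊔ Q : c)`
  let I : Ideal B :=
    { carrier := {d | d * c ∈ P ⊔ Q}
      zero_mem' := by simp
      add_mem' := by
        intro a b ha hb
        change (a + b) * c ∈ P ⊔ Q
        rw [add_mul]; exact Ideal.add_mem _ ha hb
      smul_mem' := by
        intro a b hb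
        change (a * b) * c ∈ P ⊔ Q
        rw [mul_assoc]; exact Ideal.mul_mem_left _ a hb }
  have hmemI : ∀ d : B, d ∈ I ↔ d * c ∈ P ⊔ Q := fun d => Iff.rfl
  by_contra hcon
  have hItop : I ≠ ⊤ := by
    intro h
    apply hcon
    have : (1 : B) ∈ I := by rw [h]; trivial
    rw [hmemI, one_mul] at this
    exact this
  obtain ⟨m, hm, hIm⟩ := Ideal.exists_le_maximal I hItop
  by_cases hP : P ≤ m
  · by_cases hQ : Q ≤ m
    · obtain ⟨d, hd, hdc⟩ := hloc m hm hP hQ c (hc m hm hP hQ)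
      exact hd (hIm ((hmemI d).2 hdc))
    · obtain ⟨e, heQ, hem⟩ := SetLike.not_le_iff_exists.1 hQ
      apply hem
      apply hIm
      rw [hmemI]
      exact Ideal.mem_sup_right (Q.mul_mem_right _ heQ)
  · obtain ⟨e, heP, hem⟩ := SetLike.not_le_iff_exists.1 hP
    apply hem
    apply hIm
    rw [hmemI]
    exact Ideal.mem_sup_left (P.mul_mem_right _ heP)

end IdealLG

section FieldLG

variable {R F : Type*} [CommRing R] [Field F] [Algebra R F]

/-- `¬ OffBranch π B O 𝔪` (`ES/N34/NodalCore13`) says that the vertical ideal lies in `𝔪`. -/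
theorem not_offBranch_iff {π : R} {B : Subalgebra R F} {O : ValuationSubring F}
    (hB : ∀ x ∈ B, x ∈ O) (m : Ideal ↥B) :
    (¬ ∃ e : ↥B, e ∉ m ∧ ∃ c ∈ O, (e : F) = algebraMap R F π * c) ↔ vertIdeal π B O hB ≤ m := by
  constructor
  · intro h e he
    by_contra hem
    exact h ⟨e, hem, he⟩
  · rintro h ⟨e, hem, he⟩
    exact hem (h he)

/-- **Local–global at the nodes**, elementwise form.  `hstrong` is literally
`∀ 𝔪 maximal, ¬ OffBranch π B O1 𝔪 → ¬ OffBranch π B O2 𝔪 → StrongCoords π B O1 O2 𝔪`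
(the clause `x * y = π * e` of `StrongCoords` is not needed). -/
theorem node_local_global (π : R) (B : Subalgebra R F) (O1 O2 : ValuationSubring F)
    (le1 : ∀ x ∈ B, x ∈ O1) (le2 : ∀ x ∈ B, x ∈ O2)
    (hstrong : ∀ m : Ideal ↥B, m.IsMaximal →
      (¬ ∃ e : ↥B, e ∉ m ∧ ∃ c ∈ O1, (e : F) = algebraMap R F π * c) →
      (¬ ∃ e : ↥B, e ∉ m ∧ ∃ c ∈ O2, (e : F) = algebraMap R F π * c) →
      ∃ x y : ↥B, (∃ o ∈ O2, (x : F) = algebraMap R F π * o) ∧
        (∃ o ∈ O1, (y : F) = algebraMap R F π * o) ∧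
        ∀ f ∈ m, ∃ d : ↥B, d ∉ m ∧ ∃ a b e : ↥B, d * f = a * x + b * y + algebraMap R ↥B π * e)
    (c : ↥B)
    (hc : ∀ m : Ideal ↥B, m.IsMaximal → vertIdeal π B O1 le1 ≤ m → vertIdeal π B O2 le2 ≤ m →
      c ∈ m) :
    ∃ p q : ↥B, (∃ c' ∈ O1, (p : F) = algebraMap R F π * c') ∧
      (∃ c' ∈ O2, (q : F) = algebraMap R F π * c') ∧ c = p + q := by
  have hmem : c ∈ vertIdeal π B O1 le1 ⊔ vertIdeal π B O2 le2 := by
    apply mem_sup_of_forall_node _ _ c hc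
    intro m hm hP hQ f hf
    obtain ⟨x, y, hx, hy, hgen⟩ := hstrong m hm ((not_offBranch_iff le1 m).2 hP)
      ((not_offBranch_iff le2 m).2 hQ)
    obtain ⟨d, hd, a, b, e, hdf⟩ := hgen f hf
    refine ⟨d, hd, ?_⟩
    rw [hdf]
    have hπ : algebraMap R ↥B π * e ∈ vertIdeal π B O1 le1 :=
      ⟨(e : F), le1 _ e.2, by rw [Subalgebra.coe_mul]; rfl⟩
    exact Ideal.add_mem _ (Ideal.add_mem _
      (Ideal.mem_sup_right (Ideal.mul_mem_left _ a hx))
      (Ideal.mem_sup_left (Ideal.mul_mem_left _ b hy))) (Ideal.mem_sup_left hπ)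
  obtain ⟨p, hp, q, hq, hpq⟩ := Submodule.mem_sup.1 hmem
  exact ⟨p, q, hp, hq, hpq.symm⟩

end FieldLG

section Nodes

variable {R F : Type*} [CommRing R] [Field F] [Algebra R F]

/-- the node set of a chart: maximal ideals containing both vertical ideals. -/
def nodeSet (π : R) (B : Subalgebra R F) (O1 O2 : ValuationSubring F)
    (le1 : ∀ x ∈ B, x ∈ O1) (le2 : ∀ x ∈ B, x ∈ O2) : Set (Ideal ↥B) :=
  {m | m.IsMaximal ∧ vertIdeal π B O1 le1 ≤ m ∧ vertIdeal π B O2 le2 ≤ m}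

theorem pi_mem_of_mem_nodeSet {π : R} {B : Subalgebra R F} {O1 O2 : ValuationSubring F}
    {le1 : ∀ x ∈ B, x ∈ O1} {le2 : ∀ x ∈ B, x ∈ O2} {m : Ideal ↥B}
    (hm : m ∈ nodeSet π B O1 O2 le1 le2) : algebraMap R ↥B π ∈ m :=
  hm.2.1 ⟨1, O1.one_mem, by rw [mul_one]; rfl⟩

variable (π : R) [hmax : (Ideal.span {π}).IsMaximal] (B0 B1 : Subalgebra R F)
  (O1 O2 : ValuationSubring F)
  (le1 : ∀ x ∈ B0 ⊔ B1, x ∈ O1) (le2 : ∀ x ∈ B0 ⊔ B1, x ∈ O2)
  {κ : Type*} [Field κ] [Algebra R κ] (hsurj : Function.Surjective (algebraMap R κ))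
  (hkκ : RingHom.ker (algebraMap R κ) = Ideal.span {π})

/-- **The `FibreDatum` of a two-chart model with finitely many rational nodes, all in `U01`.**
`E` is the node set of `B0 ⊔ B1`; `hU0`, `hU1` say that every node of a chart lies in `U01`. -/
noncomputable def FibreDatum.ofNodes
    (sat01 : ∀ b ∈ B0 ⊔ B1, ∀ c : F, c ∈ O1 → c ∈ O2 → b = algebraMap R F π * c → c ∈ B0 ⊔ B1)
    (h0P : ∀ a ∈ B0, ∀ b ∈ B1, (∃ c ∈ O1, a + b = algebraMap R F π * c) →
      ∃ l : R, (∃ c ∈ O1, a - algebraMap R F l = algebraMap R F π * c) ∧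
        ∃ c ∈ O1, b + algebraMap R F l = algebraMap R F π * c)
    (h0Q : ∀ a ∈ B0, ∀ b ∈ B1, (∃ c ∈ O2, a + b = algebraMap R F π * c) →
      ∃ l : R, (∃ c ∈ O2, a - algebraMap R F l = algebraMap R F π * c) ∧
        ∃ c ∈ O2, b + algebraMap R F l = algebraMap R F π * c)
    (hrat : ∀ m ∈ nodeSet π (B0 ⊔ B1) O1 O2 le1 le2,
      Function.Surjective (algebraMap R (↥(B0 ⊔ B1) ⧸ m)))
    (node0 : ∀ c : ↥B0, (∀ m ∈ nodeSet π (B0 ⊔ B1) O1 O2 le1 le2,
        Subalgebra.inclusion (le_sup_left : B0 ≤ B0 ⊔ B1) c ∈ m) →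
      ∃ p q : ↥B0, (∃ c' ∈ O1, (p : F) = algebraMap R F π * c') ∧
        (∃ c' ∈ O2, (q : F) = algebraMap R F π * c') ∧ c = p + q)
    (node1 : ∀ c : ↥B1, (∀ m ∈ nodeSet π (B0 ⊔ B1) O1 O2 le1 le2,
        Subalgebra.inclusion (le_sup_right : B1 ≤ B0 ⊔ B1) c ∈ m) →
      ∃ p q : ↥B1, (∃ c' ∈ O1, (p : F) = algebraMap R F π * c') ∧
        (∃ c' ∈ O2, (q : F) = algebraMap R F π * c') ∧ c = p + q) :
    FibreDatum π (Subalgebra.inclusion (le_sup_left : B0 ≤ B0 ⊔ B1))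
      (Subalgebra.inclusion (le_sup_right : B1 ≤ B0 ⊔ B1))
      (↥(nodeSet π (B0 ⊔ B1) O1 O2 le1 le2)) κ :=
  FibreDatum.ofModel π B0 B1 O1 O2 le1 le2 sat01 h0P h0Q
    (fun e => evOfRational π hsurj hkκ e.1 e.2.1.ne_top (pi_mem_of_mem_nodeSet e.2)
      (hrat e.1 e.2))
    (fun e c hc => (evOfRational_eq_zero_iff π hsurj hkκ e.1 _ _ _ c).2 (e.2.2.1 hc))
    (fun e c hc => (evOfRational_eq_zero_iff π hsurj hkκ e.1 _ _ _ c).2 (e.2.2.2 hc))
    (fun c hc => node0 c fun m hm =>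
      (evOfRational_eq_zero_iff π hsurj hkκ m hm.1.ne_top (pi_mem_of_mem_nodeSet hm)
        (hrat m hm) _).1 (hc ⟨m, hm⟩))
    (fun c hc => node1 c fun m hm =>
      (evOfRational_eq_zero_iff π hsurj hkκ m hm.1.ne_top (pi_mem_of_mem_nodeSet hm)
        (hrat m hm) _).1 (hc ⟨m, hm⟩))

end Nodes

end Fermat.Agent.T1B.Toric98
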