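import Mathlib
import Fermat.Agent.T1B.Toric98.NodeLG

/-!
# T1B / TORIC50, brick T-LIN (helper98), (M2)-abstract: the nodes of a chart lie in the overlap

`B ≤ C` subalgebras of `F` with `C = B[1/s]` (`∀ x ∈ C, ∃ k, s ^ k * x ∈ B`; `B = B0`, `C = B0 ⊔ B1`,
`s = t`, resp. `B = B1`, `s = t⁻¹`).  If `s` vanishes at no node of `B`, every node of `B` is the
contraction of a node of `C` (`exists_node_over`), hence a function on the chart vanishing at all nodes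
of `C` lies in `P + Q` (`node_of_strong` = the hypotheses `node0`, `node1` of `FibreDatum.ofNodes`).
-/

set_option autoImplicit false

namespace Fermat.Agent.T1B.Toric98

variable {R F : Type*} [CommRing R] [Field F] [Algebra R F]

section Over

variable (π : R) (B C : Subalgebra R F) (hBC : B ≤ C) (O1 O2 : ValuationSubring F)
  (le1 : ∀ x ∈ C, x ∈ O1) (le2 : ∀ x ∈ C, x ∈ O2)
  (s : F) (hs : s ∈ B) (hsup : ∀ x ∈ C, ∃ k : ℕ, s ^ k * x ∈ B)

/-- the extension of a prime `m0 ∌ s` of `B` to `C = B[1/s]`. -/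
def extIdeal (m0 : Ideal ↥B) : Ideal ↥C where
  carrier := {x | ∃ (k : ℕ) (h : s ^ k * (x : F) ∈ B), (⟨s ^ k * (x : F), h⟩ : ↥B) ∈ m0}
  zero_mem' := ⟨0, by simp, by
    convert m0.zero_mem using 1
    apply Subtype.ext
    simp⟩
  add_mem' := by
    rintro x y ⟨k1, h1, hx⟩ ⟨k2, h2, hy⟩
    have hsk1 : s ^ k1 ∈ B := B.pow_mem hs k1
    have hsk2 : s ^ k2 ∈ B := B.pow_mem hs k2
    have hmem : s ^ (k1 + k2) * ((x + y : ↥C) : F) ∈ B := by
      have : s ^ (k1 + k2) * ((x + y : ↥C) : F) =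
          s ^ k2 * (s ^ k1 * (x : F)) + s ^ k1 * (s ^ k2 * (y : F)) := by
        rw [Subalgebra.coe_add, pow_add]; ring
      rw [this]
      exact B.add_mem (B.mul_mem hsk2 h1) (B.mul_mem hsk1 h2)
    refine ⟨k1 + k2, hmem, ?_⟩
    have : (⟨s ^ (k1 + k2) * ((x + y : ↥C) : F), hmem⟩ : ↥B) =
        ⟨s ^ k2, hsk2⟩ * ⟨s ^ k1 * (x : F), h1⟩ + ⟨s ^ k1, hsk1⟩ * ⟨s ^ k2 * (y : F), h2⟩ := by
      apply Subtype.ext
      simp only [Subalgebra.coe_add, Subalgebra.coe_mul, pow_add]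
      ring
    rw [this]
    exact m0.add_mem (m0.mul_mem_left _ hx) (m0.mul_mem_left _ hy)
  smul_mem' := by
    rintro c x ⟨k, h, hx⟩
    obtain ⟨j, hj⟩ := hsup (c : F) c.2
    have hmem : s ^ (j + k) * ((c • x : ↥C) : F) ∈ B := by
      have : s ^ (j + k) * ((c • x : ↥C) : F) = (s ^ j * (c : F)) * (s ^ k * (x : F)) := by
        rw [smul_eq_mul, Subalgebra.coe_mul, pow_add]; ring
      rw [this]
      exact B.mul_mem hj h
    refine ⟨j + k, hmem, ?_⟩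
    have : (⟨s ^ (j + k) * ((c • x : ↥C) : F), hmem⟩ : ↥B) =
        ⟨s ^ j * (c : F), hj⟩ * ⟨s ^ k * (x : F), h⟩ := by
      apply Subtype.ext
      simp only [smul_eq_mul, Subalgebra.coe_mul, pow_add]
      ring
    rw [this]
    exact m0.mul_mem_left _ hx

variable {π B C O1 O2 s}

include hBC in
theorem mem_of_inclusion_mem_extIdeal (m0 : Ideal ↥B) [hp : m0.IsPrime]
    (hsm : (⟨s, hs⟩ : ↥B) ∉ m0) (c : ↥B)
    (hc : Subalgebra.inclusion hBC c ∈ extIdeal B C s hs hsup m0) : c ∈ m0 := by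
  obtain ⟨k, h, hk⟩ := hc
  have : (⟨s ^ k * ((Subalgebra.inclusion hBC c : ↥C) : F), h⟩ : ↥B) = ⟨s, hs⟩ ^ k * c := by
    apply Subtype.ext
    simp
  rw [this] at hk
  rcases hp.mem_or_mem hk with h1 | h1
  · exact absurd (hp.mem_of_pow_mem _ h1) hsm
  · exact h1

include hBC in
theorem inclusion_mem_extIdeal (m0 : Ideal ↥B) (c : ↥B) (hc : c ∈ m0) :
    Subalgebra.inclusion hBC c ∈ extIdeal B C s hs hsup m0 := by
  refine ⟨0, by simp, ?_⟩
  convert hc using 1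
  apply Subtype.ext
  simp

include hBC hsup in
/-- **Every node of `B` not on `s = 0` lies under a node of `C = B[1/s]`.** -/
theorem exists_node_over (m0 : Ideal ↥B)
    (hm0 : m0 ∈ nodeSet π B O1 O2 (fun x hx => le1 x (hBC hx)) (fun x hx => le2 x (hBC hx)))
    (hsm : (⟨s, hs⟩ : ↥B) ∉ m0) :
    ∃ m ∈ nodeSet π C O1 O2 le1 le2, ∀ c : ↥B, Subalgebra.inclusion hBC c ∈ m → c ∈ m0 := by
  obtain ⟨hmax, hP, hQ⟩ := hm0
  have hprime : m0.IsPrime := hmax.isPrime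
  refine ⟨extIdeal B C s hs hsup m0, ⟨?_, ?_, ?_⟩,
    fun c hc => mem_of_inclusion_mem_extIdeal hBC hs hsup m0 hsm c hc⟩
  · -- maximal
    rw [Ideal.isMaximal_iff]
    constructor
    · rintro ⟨k, h, hk⟩
      have : (⟨s ^ k * ((1 : ↥C) : F), h⟩ : ↥B) = ⟨s, hs⟩ ^ k := by
        apply Subtype.ext
        simp
      rw [this] at hk
      exact hsm (hprime.mem_of_pow_mem _ hk)
    · intro J x hJ hx hxJ
      obtain ⟨j, hj⟩ := hsup (x : F) x.2
      have hnot : (⟨s ^ j * (x : F), hj⟩ : ↥B) ∉ m0 := fun h => hx ⟨j, hj, h⟩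
      obtain ⟨b, hb⟩ := Ideal.Quotient.exists_inv (I := m0)
        (a := Ideal.Quotient.mk m0 ⟨s ^ j * (x : F), hj⟩)
        (by rwa [ne_eq, Ideal.Quotient.eq_zero_iff_mem])
      obtain ⟨b, rfl⟩ := Ideal.Quotient.mk_surjective b
      rw [← map_mul, ← map_one (Ideal.Quotient.mk m0), Ideal.Quotient.eq] at hb
      -- `x * (s^j b) - 1 ∈ ext m0 ≤ J`
      have h1 := hJ (inclusion_mem_extIdeal hBC hs hsup m0 _ hb)
      have h2 : x * (Subalgebra.inclusion hBC (⟨s, hs⟩ ^ j * b)) ∈ J := J.mul_mem_right _ hxJ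
      have h3 : (1 : ↥C) = x * (Subalgebra.inclusion hBC (⟨s, hs⟩ ^ j * b)) -
          Subalgebra.inclusion hBC (⟨s ^ j * (x : F), hj⟩ * b - 1) := by
        apply Subtype.ext
        simp
        ring
      rw [h3]
      exact J.sub_mem h2 h1
  · -- contains the first vertical ideal
    rintro x ⟨c', hc', hx⟩
    obtain ⟨k, hk⟩ := hsup (x : F) x.2
    refine ⟨k, hk, hP ⟨s ^ k * c', O1.mul_mem _ _ (pow_mem (le1 _ (hBC hs)) _) hc', ?_⟩⟩
    change s ^ k * (x : F) = _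
    rw [hx]; ring
  · rintro x ⟨c', hc', hx⟩
    obtain ⟨k, hk⟩ := hsup (x : F) x.2
    refine ⟨k, hk, hQ ⟨s ^ k * c', O2.mul_mem _ _ (pow_mem (le2 _ (hBC hs)) _) hc', ?_⟩⟩
    change s ^ k * (x : F) = _
    rw [hx]; ring

include hBC hsup in
/-- **`node0` / `node1` of `FibreDatum.ofNodes`** from `StrongCoords` at the nodes of the chart `B`
and `s ∉ m0` for every node `m0` of `B`. -/
theorem node_of_strong
    (hstrong : ∀ m : Ideal ↥B, m.IsMaximal →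
      (¬ ∃ e : ↥B, e ∉ m ∧ ∃ c ∈ O1, (e : F) = algebraMap R F π * c) →
      (¬ ∃ e : ↥B, e ∉ m ∧ ∃ c ∈ O2, (e : F) = algebraMap R F π * c) →
      ∃ x y : ↥B, (∃ o ∈ O2, (x : F) = algebraMap R F π * o) ∧
        (∃ o ∈ O1, (y : F) = algebraMap R F π * o) ∧
        ∀ f ∈ m, ∃ d : ↥B, d ∉ m ∧ ∃ a b e : ↥B, d * f = a * x + b * y + algebraMap R ↥B π * e)
    (hoff : ∀ m0 ∈ nodeSet π B O1 O2 (fun x hx => le1 x (hBC hx)) (fun x hx => le2 x (hBC hx)),
      (⟨s, hs⟩ : ↥B) ∉ m0)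
    (c : ↥B) (hc : ∀ m ∈ nodeSet π C O1 O2 le1 le2, Subalgebra.inclusion hBC c ∈ m) :
    ∃ p q : ↥B, (∃ c' ∈ O1, (p : F) = algebraMap R F π * c') ∧
      (∃ c' ∈ O2, (q : F) = algebraMap R F π * c') ∧ c = p + q := by
  apply node_local_global π B O1 O2 (fun x hx => le1 x (hBC hx)) (fun x hx => le2 x (hBC hx))
    hstrong c
  intro m0 hmax hP hQ
  obtain ⟨m, hm, hmc⟩ := exists_node_over hBC le1 le2 hs hsup m0 ⟨hmax, hP, hQ⟩
    (hoff m0 ⟨hmax, hP, hQ⟩)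
  exact hmc c (hc m hm)

end Over

end Fermat.Agent.T1B.Toric98
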