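import Mathlib
import Fermat.Agent.T1B.NodeNF37.ToricBaseExtra
import Fermat.Agent.T1B.Toric98.NodeOver
import Fermat.Agent.T1B.Toric98.GlueFibreLink

/-!
# T1B / TORIC50 (helper98): the fibre datum of the nodal two-chart model (abstract model assembly)

`Hy : NodeNF37.ToricBaseInst.Hyp π t B0 B1 O1 O2` (helper37: `NodalTwoChartModel` + `dvrR` + a node on
chart `0` + incomparability witnesses + all nodes in `U01`).  From the further model facts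
* `hκ1 hκ2 : ResAlgClosed π O_j` (`H⁰` of the components),
* `hrat` : the nodes of `B0 ⊔ B1` are rational,
* `hstrong0 hstrong1` : strong coordinates at the nodes of the charts (`ES/N35/NodeStrong4.StrongCoords`
  without the clause `x * y = π * e`),
we get
* `nodalFD` : the fibre datum on the node set `nodes01` of `B0 ⊔ B1`;
* `finite_nodes01`, `nonempty_nodes01`, `nodalR` (number of nodes minus one), `nodalEquiv`;
* `nodalFDFin D hρ0 hρ1 : FibreDatum π D.ρ0 D.ρ1 (Fin (nodalR + 1)) κ` for every Čech datum `D` on the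
  charts, with `nodalFDFin_P`, `nodalFDFin_Q` (`= (Hy.toricBase D hρ0 hρ1).P`, `.Q`),
  `nodalFDFin_hev`, `nodalFDFin_hinj`: the side conditions of
  `Toric98.ToricBase.towerInput_of_fibre` (with `satP`, `satQ` from `NodeNF37`).
-/

set_option autoImplicit false
set_option linter.unusedSectionVars false
set_option linter.unusedVariables false
set_option linter.style.haveILetI false

noncomputable section

namespace Fermat.Agent.T1B.Toric98

open Polynomial Fermat.Agent.T1.ModelCoh30 Fermat.Agent.ES.N34.NodalCore13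
  Fermat.Agent.T1B.NodalCoh30 Fermat.Agent.T1.CechFormal70
  Fermat.Agent.T1B.NodeNF37.ToricBaseInst

universe u

variable {R F : Type u} [CommRing R] [Field F] [Algebra R F]
variable {π : R} {t : F} {B0 B1 : Subalgebra R F} {O1 O2 : ValuationSubring F}

namespace NodalModel

/-- `H⁰(X_j, 𝒪) = κ` on one component, in the shape of `FibreDatum.ofModel`. -/
theorem h0_comp {O : ValuationSubring F} (V : ValDatum π t B0 B1 O) (hκ : ResAlgClosed π O) :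
    ∀ a ∈ B0, ∀ b ∈ B1, (∃ c ∈ O, a + b = algebraMap R F π * c) →
      ∃ l : R, (∃ c ∈ O, a - algebraMap R F l = algebraMap R F π * c) ∧
        ∃ c ∈ O, b + algebraMap R F l = algebraMap R F π * c := by
  rintro a ha b hb ⟨y, hy, h⟩
  obtain ⟨l, c, hc, hl⟩ := V.const_mod_pi hκ ha hb hy h
  refine ⟨l, ⟨c, hc, hl⟩, ⟨y - c, sub_mem hy hc, ?_⟩⟩
  rw [mul_sub, ← h, ← hl]
  ring

variable (Hy : Hyp π t B0 B1 O1 O2)

/-- the nodes of the chart `B0` -/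
abbrev nodes0 : Set (Ideal ↥B0) :=
  nodeSet π B0 O1 O2 (fun x hx => Hy.le01_1 x ((le_sup_left : B0 ≤ B0 ⊔ B1) hx))
    (fun x hx => Hy.le01_2 x ((le_sup_left : B0 ≤ B0 ⊔ B1) hx))

/-- the nodes of the chart `B1` -/
abbrev nodes1 : Set (Ideal ↥B1) :=
  nodeSet π B1 O1 O2 (fun x hx => Hy.le01_1 x ((le_sup_right : B1 ≤ B0 ⊔ B1) hx))
    (fun x hx => Hy.le01_2 x ((le_sup_right : B1 ≤ B0 ⊔ B1) hx))

/-- the nodes of the overlap `B0 ⊔ B1` -/
abbrev nodes01 : Set (Ideal ↥(B0 ⊔ B1)) := nodeSet π (B0 ⊔ B1) O1 O2 Hy.le01_1 Hy.le01_2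

theorem mem_nodes01_iff (m : Ideal ↥(B0 ⊔ B1)) :
    m ∈ nodes01 Hy ↔ m.IsMaximal ∧ Hy.P ≤ m ∧ Hy.Q ≤ m := Iff.rfl

theorem hoff0 : ∀ m0 ∈ nodes0 Hy, (⟨t, Hy.model.t_mem⟩ : ↥B0) ∉ m0 := fun m0 hm0 =>
  Hy.u0 m0 hm0.1 ((not_offBranch_iff _ m0).2 hm0.2.1) ((not_offBranch_iff _ m0).2 hm0.2.2)

theorem hoff1 : ∀ m0 ∈ nodes1 Hy, (⟨t⁻¹, Hy.model.tinv_mem⟩ : ↥B1) ∉ m0 := fun m0 hm0 =>
  Hy.u1 m0 hm0.1 ((not_offBranch_iff _ m0).2 hm0.2.1) ((not_offBranch_iff _ m0).2 hm0.2.2)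

/-! ### finiteness and existence of the nodes -/

theorem finite_nodes01 : (nodes01 Hy).Finite := by
  haveI := Hy.isMaximal_span
  haveI := Hy.finite01
  exact finite_maximal_of_finite_quotient π Hy.s01 Hy.P Hy.Q ⟨1, by rw [pow_one]; exact Hy.s01_mem⟩
    Fermat.Agent.T1B.NodalFacts23.algebraMap_mem_vertIdeal

theorem nonempty_nodes01 : (nodes01 Hy).Nonempty := by
  obtain ⟨m0, hm0, hle⟩ := Ideal.exists_le_maximal _ Hy.sup_ne_top
  have hm0' : m0 ∈ nodes0 Hy := ⟨hm0, le_trans le_sup_left hle, le_trans le_sup_right hle⟩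
  obtain ⟨m, hm, -⟩ := exists_node_over (le_sup_left : B0 ≤ B0 ⊔ B1) Hy.le01_1 Hy.le01_2
    Hy.model.t_mem (fun x hx => (Fermat.Agent.T1B.NodalFacts23.mem_sup_iff0 Hy.model).1 hx)
    m0 hm0' (hoff0 Hy m0 hm0')
  exact ⟨m, hm⟩

instance : Finite ↥(nodes01 Hy) := (finite_nodes01 Hy).to_subtype

instance : Nonempty ↥(nodes01 Hy) := (nonempty_nodes01 Hy).to_subtype

/-- the number of nodes minus one (the toric rank). -/
def nodalR : ℕ := Nat.card ↥(nodes01 Hy) - 1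

theorem nodalR_add_one : nodalR Hy + 1 = Nat.card ↥(nodes01 Hy) := by
  have : 0 < Nat.card ↥(nodes01 Hy) := Nat.card_pos
  unfold nodalR
  omega

/-- an enumeration of the nodes. -/
def nodalEquiv : Fin (nodalR Hy + 1) ≃ ↥(nodes01 Hy) :=
  (finCongr (nodalR_add_one Hy)).trans (Finite.equivFin ↥(nodes01 Hy)).symm

/-! ### the fibre datum -/

variable {κ : Type u} [Field κ] [Algebra R κ]
  (hsurj : Function.Surjective (algebraMap R κ))
  (hkκ : RingHom.ker (algebraMap R κ) = Ideal.span {π})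
  (hκ1 : ResAlgClosed π O1) (hκ2 : ResAlgClosed π O2)
  (hrat : ∀ m ∈ nodes01 Hy, Function.Surjective (algebraMap R (↥(B0 ⊔ B1) ⧸ m)))
  (hstrong0 : ∀ m : Ideal ↥B0, m.IsMaximal → ¬ OffBranch π B0 O1 m → ¬ OffBranch π B0 O2 m →
    ∃ x y : ↥B0, (∃ o ∈ O2, (x : F) = algebraMap R F π * o) ∧
      (∃ o ∈ O1, (y : F) = algebraMap R F π * o) ∧
      ∀ f ∈ m, ∃ d : ↥B0, d ∉ m ∧ ∃ a b e : ↥B0, d * f = a * x + b * y + algebraMap R ↥B0 π * e)
  (hstrong1 : ∀ m : Ideal ↥B1, m.IsMaximal → ¬ OffBranch π B1 O1 m → ¬ OffBranch π B1 O2 m →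
    ∃ x y : ↥B1, (∃ o ∈ O2, (x : F) = algebraMap R F π * o) ∧
      (∃ o ∈ O1, (y : F) = algebraMap R F π * o) ∧
      ∀ f ∈ m, ∃ d : ↥B1, d ∉ m ∧ ∃ a b e : ↥B1, d * f = a * x + b * y + algebraMap R ↥B1 π * e)

/-- **The fibre datum of the nodal model**, indexed by the node set of `B0 ⊔ B1`. -/
def nodalFD : FibreDatum π (ρ0 B0 B1) (ρ1 B0 B1) ↥(nodes01 Hy) κ :=
  haveI := Hy.isMaximal_span
  FibreDatum.ofNodes π B0 B1 O1 O2 Hy.le01_1 Hy.le01_2 hsurj hkκ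
    (Fermat.Agent.T1B.NodalFacts23.sat01 Hy.model)
    (h0_comp (valDatum1 Hy.model) hκ1) (h0_comp (valDatum2 Hy.model) hκ2) hrat
    (node_of_strong (le_sup_left : B0 ≤ B0 ⊔ B1) Hy.le01_1 Hy.le01_2 Hy.model.t_mem
      (fun x hx => (Fermat.Agent.T1B.NodalFacts23.mem_sup_iff0 Hy.model).1 hx) hstrong0 (hoff0 Hy))
    (node_of_strong (le_sup_right : B1 ≤ B0 ⊔ B1) Hy.le01_1 Hy.le01_2 Hy.model.tinv_mem
      (fun x hx => (Fermat.Agent.T1B.NodalFacts23.mem_sup_iff1 Hy.model).1 hx) hstrong1 (hoff1 Hy))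

theorem nodalFD_P : (nodalFD Hy hsurj hkκ hκ1 hκ2 hrat hstrong0 hstrong1).P = Hy.P :=
  Ideal.ext fun _ => Iff.rfl

theorem nodalFD_Q : (nodalFD Hy hsurj hkκ hκ1 hκ2 hrat hstrong0 hstrong1).Q = Hy.Q :=
  Ideal.ext fun _ => Iff.rfl

theorem nodalFD_ev_eq_zero_iff (m : ↥(nodes01 Hy)) (c : ↥(B0 ⊔ B1)) :
    (nodalFD Hy hsurj hkκ hκ1 hκ2 hrat hstrong0 hstrong1).ev m c = 0 ↔ c ∈ m.1 :=
  haveI := Hy.isMaximal_span
  evOfRational_eq_zero_iff π hsurj hkκ m.1 _ _ _ c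

theorem ker_nodalFD_ev (m : ↥(nodes01 Hy)) :
    RingHom.ker ((nodalFD Hy hsurj hkκ hκ1 hκ2 hrat hstrong0 hstrong1).ev m) = m.1 := by
  ext c
  rw [RingHom.mem_ker]
  exact nodalFD_ev_eq_zero_iff Hy hsurj hkκ hκ1 hκ2 hrat hstrong0 hstrong1 m c

/-! ### the fibre datum indexed by `Fin (r + 1)`, over any Čech datum on the charts -/

variable {g : ℕ} (D : CechData R ↥B0 ↥B1 ↥(B0 ⊔ B1) g)
  (hρ0 : D.ρ0 = ρ0 B0 B1) (hρ1 : D.ρ1 = ρ1 B0 B1)

/-- **The fibre datum of the nodal model, indexed by `Fin (nodalR + 1)`**, in the shape consumed by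
`Toric98.ToricBase.towerInput_of_fibre` (with `H := Hy.toricBase D hρ0 hρ1`). -/
def nodalFDFin : FibreDatum π D.ρ0 D.ρ1 (Fin (nodalR Hy + 1)) κ :=
  ((nodalFD Hy hsurj hkκ hκ1 hκ2 hrat hstrong0 hstrong1).reindex (nodalEquiv Hy)
    (nodalEquiv Hy).surjective).castRho hρ0 hρ1

theorem nodalFDFin_P :
    (nodalFDFin Hy hsurj hkκ hκ1 hκ2 hrat hstrong0 hstrong1 D hρ0 hρ1).P =
      (Hy.toricBase D hρ0 hρ1).P := by
  rw [nodalFDFin, FibreDatum.castRho_P, FibreDatum.reindex_P, nodalFD_P, Hyp.toricBase_P]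

theorem nodalFDFin_Q :
    (nodalFDFin Hy hsurj hkκ hκ1 hκ2 hrat hstrong0 hstrong1 D hρ0 hρ1).Q =
      (Hy.toricBase D hρ0 hρ1).Q := by
  rw [nodalFDFin, FibreDatum.castRho_Q, FibreDatum.reindex_Q, nodalFD_Q, Hyp.toricBase_Q]

theorem nodalFDFin_ev (e : Fin (nodalR Hy + 1)) :
    (nodalFDFin Hy hsurj hkκ hκ1 hκ2 hrat hstrong0 hstrong1 D hρ0 hρ1).ev e =
      (nodalFD Hy hsurj hkκ hκ1 hκ2 hrat hstrong0 hstrong1).ev (nodalEquiv Hy e) := by
  rw [nodalFDFin, FibreDatum.castRho_ev, FibreDatum.reindex_ev]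

/-- `hev` -/
theorem nodalFDFin_hev (e : Fin (nodalR Hy + 1)) :
    (nodalFDFin Hy hsurj hkκ hκ1 hκ2 hrat hstrong0 hstrong1 D hρ0 hρ1).ev e
      (Hy.toricBase D hρ0 hρ1).s01 = 0 :=
  (Hy.toricBase D hρ0 hρ1).ev_s01_eq_zero _
    (nodalFDFin_P Hy hsurj hkκ hκ1 hκ2 hrat hstrong0 hstrong1 D hρ0 hρ1)
    (nodalFDFin_Q Hy hsurj hkκ hκ1 hκ2 hrat hstrong0 hstrong1 D hρ0 hρ1) e

/-- `hinj` -/
theorem nodalFDFin_hinj (e e' : Fin (nodalR Hy + 1))
    (h : RingHom.ker ((nodalFDFin Hy hsurj hkκ hκ1 hκ2 hrat hstrong0 hstrong1 D hρ0 hρ1).ev e) =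
      RingHom.ker ((nodalFDFin Hy hsurj hkκ hκ1 hκ2 hrat hstrong0 hstrong1 D hρ0 hρ1).ev e')) :
    e = e' := by
  rw [nodalFDFin_ev, nodalFDFin_ev, ker_nodalFD_ev, ker_nodalFD_ev] at h
  exact (nodalEquiv Hy).injective (Subtype.ext h)

/-- the nodes `≠` the base point `Fin.last r`. -/
theorem castSucc_ne_last (r : ℕ) (k : Fin r) : Fin.castSucc k ≠ Fin.last r :=
  (Fin.castSucc_lt_last k).ne

theorem exists_castSucc_eq (r : ℕ) (e : Fin (r + 1)) (he : e ≠ Fin.last r) :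
    ∃ k : Fin r, Fin.castSucc k = e :=
  ⟨e.castPred he, Fin.castSucc_castPred e he⟩

end NodalModel

end Fermat.Agent.T1B.Toric98
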