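import Mathlib
import Fermat.Agent.T1B.Toric98.GlueFirstOrder
import Fermat.Agent.T1B.Toric50.Master

/-!
# T1B / TORIC50 (helper98): the node system of a toric base and the first order input (O4)

* `ker_eq_span_of_le` : `ker (W → κ) = (π)` from `ker ≤ (π)` (the shape used in `Toric50/Master`);
* `H.nodeSys FD hsurj hker hev hinj : Wrap.NodeSys H En` : ALL the rational nodes of the fibre
  datum `FD`, as a system of nodes in the sense of `Toric50/Wrap.lean` (brick (P3));
* `H.firstOrderToric … nodeIdx hnodeIdx O hO n : Master.FirstOrderToric FD 𝔪_O nodeIdx n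
    (Wrap.iota H ((H.nodeSys …).comp nodeIdx hnodeIdx) O hO (n + 1))` : the input `h4` of the master
  assembly `Master.towerInput_of_base`, from `H.exists_firstOrder` (brick (O4));
* `H.masterNodeSys FD hsurj hker hev hinj node hnode : NodeSys H (Fin r)` and
  `H.towerInput_of_fibre …` : `Master.towerInput_of_base` with `N` and `h4` discharged (hypotheses:
  `H FD hsurj hker hev hinj hP hQ satP satQ`, `[IsNoetherianRing W]`, the rest verbatim).
-/

set_option autoImplicit false
set_option linter.unusedSectionVars false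
set_option linter.unusedVariables false
set_option linter.style.haveILetI false

noncomputable section

namespace Fermat.Agent.T1B.Toric98

open TensorProduct IsLocalRing
open Fermat.Agent.T1.CechFormal70 Fermat.Agent.T1B.Toric11 Fermat.Agent.T1B.Toric50
  Fermat.Agent.T1B.Toric50.Glue Fermat.Agent.T1B.Toric50.Wrap

universe u

/-- `ker (W → κ) = (π)` as soon as `ker ≤ (π)`, `(π)` maximal and `W → κ` onto a field. -/
theorem ker_eq_span_of_le {W : Type*} [CommRing W] {π : W} [hmax : (Ideal.span {π}).IsMaximal]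
    {κ : Type*} [Field κ] [Algebra W κ] (hsurj : Function.Surjective (algebraMap W κ))
    (hker : ∀ x : W, algebraMap W κ x = 0 → x ∈ Ideal.span {π}) :
    RingHom.ker (algebraMap W κ) = Ideal.span {π} := by
  have h1 : (RingHom.ker (algebraMap W κ)).IsMaximal :=
    RingHom.ker_isMaximal_of_surjective _ hsurj
  exact h1.eq_of_le hmax.ne_top fun x hx => hker x ((RingHom.mem_ker).1 hx)

variable {W B0 B1 B01 : Type u} [CommRing W] [CommRing B0] [CommRing B1] [CommRing B01]
  [Algebra W B0] [Algebra W B1] [Algebra W B01] {g : ℕ} {D : CechData W B0 B1 B01 g} {π : W}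
  [hmax : (Ideal.span {π}).IsMaximal] [Algebra.FiniteType W B0] [Algebra.FiniteType W B1]
  [Algebra.FiniteType W B01]
  (H : ToricBase D π) {En : Type} [DecidableEq En] {κ : Type u} [Field κ] [Algebra W κ]
  (FD : FibreDatum π D.ρ0 D.ρ1 En κ)
  (hsurj : Function.Surjective (algebraMap W κ))
  (hker : RingHom.ker (algebraMap W κ) = Ideal.span {π})
  (hev : ∀ e, FD.ev e H.s01 = 0)
  (hinj : ∀ e e', RingHom.ker (FD.ev e) = RingHom.ker (FD.ev e') → e = e')

namespace ToricBase

/-- **(P3)**: all the rational nodes of the fibre datum, as a system of nodes. -/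
def nodeSys : NodeSys H En where
  node Λ _ _ _ _ hπ e := H.nodePt FD.ev hsurj hker Λ hπ hev e
  node_inj Λ _ _ _ _ hπ := H.nodePt_injective FD.ev hsurj hker Λ hπ hev hinj
  ptsMap_node Λ Λ' _ _ _ _ _ _ _ _ hπ hπ' f k :=
    H.ptsMap_nodePt FD.ev hsurj hker hπ hπ' f hev k
  node_unique Λ Λ' _ _ _ _ _ _ _ _ hπ hπ' f k p' h :=
    H.eq_nodePt_of_ptsMap_eq FD.ev hsurj hker hπ hπ' f hev p' k h

theorem nodeSys_node (Λ : Type u) [CommRing Λ] [Algebra W Λ] [IsLocalRing Λ] [IsArtinianRing Λ]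
    (hπ : IsNilpotent (algebraMap W Λ π)) (e : En) :
    (H.nodeSys FD hsurj hker hev hinj).node Λ hπ e = H.nodeAt FD hsurj hker hev Λ hπ e := rfl

/-- membership in the node: `1 ⊗ b` lies in the node of `e` iff `b` vanishes at `e`. -/
theorem one_tmul_mem_nodeSys_iff (Λ : Type u) [CommRing Λ] [Algebra W Λ] [IsLocalRing Λ]
    [IsArtinianRing Λ] (hπ : IsNilpotent (algebraMap W Λ π)) (e : En) (b : B01) :
    (1 : Λ) ⊗ₜ[W] b ∈ ((H.nodeSys FD hsurj hker hev hinj).node Λ hπ e).1 ↔ FD.ev e b = 0 :=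
  one_tmul_mem_ker_iff FD.ev hsurj hker Λ hπ e b

section FirstOrder

variable (hP : FD.P = H.P) (hQ : FD.Q = H.Q)
  (satP : ∀ x : B01, H.s01 * x ∈ H.P → x ∈ H.P) (satQ : ∀ x : B01, H.s01 * x ∈ H.Q → x ∈ H.Q)
  [IsNoetherianRing W]
  {r : ℕ} (nodeIdx : Fin r → En) (hnodeIdx : Function.Injective nodeIdx)
  (O : Type u) [CommRing O] [IsDomain O] [IsDiscreteValuationRing O] [Algebra W O]
  (hO : algebraMap W O π ∈ maximalIdeal O)

include hO in
theorem algebraMap_tr_eq_zero_of_mem_pow (n : ℕ) (x : W) (hx : x ∈ Ideal.span {π} ^ n) :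
    algebraMap W (Tr (maximalIdeal O) n) x = 0 := by
  have h1 : algebraMap W (Tr (maximalIdeal O) n) x =
      Ideal.Quotient.mk (maximalIdeal O ^ n) (algebraMap W O x) := rfl
  rw [h1, Ideal.Quotient.eq_zero_iff_mem]
  have h2 : (Ideal.span {π} ^ n).map (algebraMap W O) ≤ maximalIdeal O ^ n := by
    rw [Ideal.map_pow]
    apply Ideal.pow_right_mono
    rw [Ideal.map_span, Set.image_singleton, Ideal.span_singleton_le_iff_mem]
    exact hO
  exact h2 (Ideal.mem_map_of_mem _ hx)

include hP hQ satP satQ in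
/-- **The input `h4` of the master assembly** (`Master.towerInput_of_base`): the toric tower of the
node system `H.nodeSys` (restricted along `nodeIdx`) has a `W`-rational toric first order term at
every level. -/
theorem firstOrderToric (n : ℕ) :
    Master.FirstOrderToric FD (maximalIdeal O) nodeIdx n
      (Wrap.iota H ((H.nodeSys FD hsurj hker hev hinj).comp nodeIdx hnodeIdx) O hO (n + 1)) := by
  haveI := isLocalRing_quotient_pow π (n + 1) (Nat.succ_ne_zero n)
  haveI := isArtinianRing_quotient_pow π (n + 1)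
  haveI := isLocalRing_tr_succ O n
  haveI := isArtinianRing_tr O (n + 1)
  obtain ⟨d, hd, hfo⟩ := H.exists_firstOrder FD hP hQ hsurj hker hev hinj satP satQ
    (Ideal.span {π} ^ (n + 1)) (Ideal.pow_le_self (Nat.succ_ne_zero n))
    (isNilpotent_algebraMap_quotient_pow π (n + 1)) nodeIdx hnodeIdx
  refine ⟨d, hd, fun w => ?_⟩
  have key := hfo (Tr (maximalIdeal O) (n + 1)) (isNilpotent_pi_tr O hO (n + 1))
    (algebraMap_tr_eq_zero_of_mem_pow O hO (n + 1))
    (mQ_nilpotent (maximalIdeal O) (n + 1)) (kerI_le (maximalIdeal O) n)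
    (fun a b ha hb => mul_eq_zero_of_mem_kerI (maximalIdeal O) n ha (kerI_le (maximalIdeal O) n hb))
    (fun k => ((w k : kerI (maximalIdeal O) n) : Tr (maximalIdeal O) (n + 1))) (fun k => (w k).2)
  exact ⟨_, rfl, key⟩

end FirstOrder

end ToricBase

/-! ### The master assembly with the node system and (O4) discharged -/

section MasterNodes

open Polynomial
open Fermat.Agent.Jac Fermat.Agent.Jac.BaseChange75
open Fermat.Agent.T1.RedIface75 Fermat.Agent.T1B.Toric50.Assemble
open Fermat.Agent.T1B.ToricGal65 Fermat.Agent.T1B.Toric50.Master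
open scoped Fermat.Agent.Jac.BaseChange75

variable {W B0 B1 B01 : Type u} [CommRing W] [CommRing B0] [CommRing B1] [CommRing B01]
  [Algebra W B0] [Algebra W B1] [Algebra W B01]
  {B0' B1' B01' : Type u} [CommRing B0'] [CommRing B1'] [CommRing B01']
  [Algebra W B0'] [Algebra W B1'] [Algebra W B01']
  {g g' : ℕ} {D : CechData W B0 B1 B01 g} {D' : CechData W B0' B1' B01' g'}
  [Algebra B0 B01] [Algebra B1 B01] [IsScalarTower W B0 B01] [IsScalarTower W B1 B01]
  (c0 : TwoChart W B0 B1 B01)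
  (hρ0 : ∀ x, D.ρ0 x = algebraMap B0 B01 x) (hρ1 : ∀ x, D.ρ1 x = algebraMap B1 B01 x)
  {π : W} [hmax : (Ideal.span {π}).IsMaximal] [Algebra.FiniteType W B0] [Algebra.FiniteType W B1]
  [Algebra.FiniteType W B01] [IsNoetherianRing W]
  (H : ToricBase D π) {r : ℕ}
  {En : Type} {κ : Type u} [Field κ] [Algebra W κ] [DecidableEq En]
  (FD : FibreDatum π D.ρ0 D.ρ1 En κ)
  (hsurj : Function.Surjective (algebraMap W κ))
  (hker : RingHom.ker (algebraMap W κ) = Ideal.span {π})
  (hev : ∀ e, FD.ev e H.s01 = 0)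
  (hinj : ∀ e e', RingHom.ker (FD.ev e) = RingHom.ker (FD.ev e') → e = e')
  (hP : FD.P = H.P) (hQ : FD.Q = H.Q)
  (satP : ∀ x : B01, H.s01 * x ∈ H.P → x ∈ H.P) (satQ : ∀ x : B01, H.s01 * x ∈ H.Q → x ∈ H.Q)
  (Sα Sβ : NormSys D D') (α β : B01' →ₗ[W] B01)
  (hα0 : ∀ a : B0', ∃ a0 : B0, α (D'.ρ0 a) = D.ρ0 a0)
  (hα1 : ∀ a : B1', ∃ a1 : B1, α (D'.ρ1 a) = D.ρ1 a1)
  (hβ0 : ∀ a : B0', ∃ a0 : B0, β (D'.ρ0 a) = D.ρ0 a0)
  (hβ1 : ∀ a : B1', ∃ a1 : B1, β (D'.ρ1 a) = D.ρ1 a1)
  (hK2α : ∀ f : B01, α (Sα.trMap f) - f ∈ FD.P) (hK2β : ∀ f : B01, β (Sβ.trMap f) - f ∈ FD.Q)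
  (node : Fin r → En) (hnode : Function.Injective node) (e0 : En)
  (he0 : ∀ k, node k ≠ e0) (hcov : ∀ e, e ≠ e0 → ∃ k, node k = e)
  (O : Type u) [CommRing O] [IsDomain O] [IsDiscreteValuationRing O] [Algebra W O]
  (hO : algebraMap W O π ∈ IsLocalRing.maximalIdeal O)
  {G : Type u} [Group G] (ρ : G →* (O ≃ₐ[W] O))

/-- the node system used in the master assembly: the nodes `node k` of the fibre datum. -/
abbrev ToricBase.masterNodeSys : NodeSys H (Fin r) :=
  (H.nodeSys FD hsurj hker hev hinj).comp node hnode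

/-- **The master assembly of TORIC50 with the node system (P3) and the first order input (O4)
discharged** by `H.nodeSys` and `H.firstOrderToric`. -/
def ToricBase.towerInput_of_fibre (hc : IsAdicComplete (IsLocalRing.maximalIdeal O) O) (p : ℕ)
    (χ : G → ℕ) (hχ : ∀ (s : G) (ζ : O), ζ ^ p = 1 → ρ s ζ = ζ ^ χ s)
    (β_ι : ∀ n (z : Tn r (IsLocalRing.maximalIdeal O) n),
      βn2 Sα Sβ (IsLocalRing.maximalIdeal O) n
        (iota H (H.masterNodeSys FD hsurj hker hev hinj node hnode) O hO n z) = 1)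
    (hInj : CoordInjective c0 O)
    (hfin0 : Module.Finite O[X] (Module.AEval O (O ⊗[W] B0) (c0.baseChange O).t))
    (hnzd : ∀ v : O ⊗[W] B01, v - 1 ∈ eI (IsLocalRing.maximalIdeal O) (O ⊗[W] B01) →
      v ∈ nonZeroDivisors (O ⊗[W] B01)) :
    letI := j1Act c0 ρ
    letI : ∀ n, MulDistribMulAction G (Jn D (IsLocalRing.maximalIdeal O) n) := fun n => actJn ρ D n
    letI : ∀ n, MulDistribMulAction G (Tn r (IsLocalRing.maximalIdeal O) n) :=
      fun n => actTn ρ r n
    letI := actTinf ρ r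
    TowerInput c0 D hρ0 hρ1 O G p r
      (fun n => Jn D' (IsLocalRing.maximalIdeal O) n × Jn D' (IsLocalRing.maximalIdeal O) n) :=
  towerInput_of_base c0 hρ0 hρ1 H (H.masterNodeSys FD hsurj hker hev hinj node hnode) FD hsurj
    (fun x hx => hker ▸ (RingHom.mem_ker.2 hx))
    Sα Sβ α β hα0 hα1 hβ0 hβ1 hK2α hK2β node hnode e0 he0 hcov O hO ρ hc p χ hχ β_ι
    (fun n => H.firstOrderToric FD hsurj hker hev hinj hP hQ satP satQ node hnode O hO n)
    hInj hfin0 hnzd

end MasterNodes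

end Fermat.Agent.T1B.Toric98
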