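import Mathlib
import Fermat.Agent.T1B.Toric98.ModelFibre
import Fermat.Agent.T1B.Toric98.GlueNodeSys

/-!
# T1B / TORIC50 (helper98): node system and first order input on the nodal model

For `Hy : NodeNF37.ToricBaseInst.Hyp π t B0 B1 O1 O2`, `H := Hy.toricBase D hρ0 hρ1` and the fibre
datum `FD := nodalFDFin Hy … D hρ0 hρ1` of `Toric98/ModelFibre.lean`:
* `nodalNodeSys : Wrap.NodeSys H (Fin (nodalR Hy))` (the nodes `Fin.castSucc k`; base point
  `e0 = Fin.last _`);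
* `nodal_firstOrderToric` : the input `h4` of `Master.towerInput_of_base` for `N := nodalNodeSys`.
The instances `(Ideal.span {π}).IsMaximal`, `Algebra.FiniteType R ↥B_j`, `IsNoetherianRing R` are
instance arguments (from `Hy.isMaximal_span`, `NodeNF37.finiteType0/01/1`, `Hy.model.noethR`).
-/

set_option autoImplicit false
set_option linter.unusedSectionVars false
set_option linter.unusedVariables false
set_option linter.style.haveILetI false

noncomputable section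

namespace Fermat.Agent.T1B.Toric98

open Polynomial Fermat.Agent.T1.ModelCoh30 Fermat.Agent.ES.N34.NodalCore13
  Fermat.Agent.T1B.NodalCoh30 Fermat.Agent.T1.CechFormal70
  Fermat.Agent.T1B.NodeNF37.ToricBaseInst Fermat.Agent.T1B.Toric50 IsLocalRing

universe u

variable {R F : Type u} [CommRing R] [Field F] [Algebra R F]
variable {π : R} {t : F} {B0 B1 : Subalgebra R F} {O1 O2 : ValuationSubring F}

namespace NodalModel

variable (Hy : Hyp π t B0 B1 O1 O2)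
  {κ : Type u} [Field κ] [Algebra R κ]
  (hsurj : Function.Surjective (algebraMap R κ))
  (hkκ : RingHom.ker (algebraMap R κ) = Ideal.span {π})
  (hκ1 : ResAlgClosed π O1) (hκ2 : ResAlgClosed π O2)
  (hrat : ∀ m ∈ nodes01 Hy, Function.Surjective (algebraMap R (↥(B0 ⊔ B1) ⧸ m)))
  (hstrong0 : ∀ m : Ideal ↥B0, m.IsMaximal → ¬ OffBranch π B0 O1 m → ¬ OffBranch π B0 O2 m →
    ∃ x y : ↥B0, (∃ o ∈ O2, (x : F) = algebraMap R F π * o) ∧
      (∃ o ∈ O1, (y : F) = algebraMap R F π * o) ∧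
      ∀ f ∈ m, ∃ d : ↥B0, d ∉ m ∧ ∃ a b e : ↥B0, d * f = a * x + b * y + algebraMap R ↥B0 π * e)
  (hstrong1 : ∀ m : Ideal ↥B1, m.IsMaximal → ¬ OffBranch π B1 O1 m → ¬ OffBranch π B1 O2 m →
    ∃ x y : ↥B1, (∃ o ∈ O2, (x : F) = algebraMap R F π * o) ∧
      (∃ o ∈ O1, (y : F) = algebraMap R F π * o) ∧
      ∀ f ∈ m, ∃ d : ↥B1, d ∉ m ∧ ∃ a b e : ↥B1, d * f = a * x + b * y + algebraMap R ↥B1 π * e)
  {g : ℕ} (D : CechData R ↥B0 ↥B1 ↥(B0 ⊔ B1) g)
  (hρ0 : D.ρ0 = ρ0 B0 B1) (hρ1 : D.ρ1 = ρ1 B0 B1)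
  [hmax : (Ideal.span {π}).IsMaximal] [Algebra.FiniteType R ↥B0] [Algebra.FiniteType R ↥B1]
  [Algebra.FiniteType R ↥(B0 ⊔ B1)]

/-- **The node system of the nodal model**: the nodes `Fin.castSucc k`, `k : Fin (nodalR Hy)`. -/
def nodalNodeSys : Wrap.NodeSys (Hy.toricBase D hρ0 hρ1) (Fin (nodalR Hy)) :=
  (Hy.toricBase D hρ0 hρ1).masterNodeSys
    (nodalFDFin Hy hsurj hkκ hκ1 hκ2 hrat hstrong0 hstrong1 D hρ0 hρ1) hsurj hkκ
    (nodalFDFin_hev Hy hsurj hkκ hκ1 hκ2 hrat hstrong0 hstrong1 D hρ0 hρ1)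
    (nodalFDFin_hinj Hy hsurj hkκ hκ1 hκ2 hrat hstrong0 hstrong1 D hρ0 hρ1)
    Fin.castSucc (Fin.castSucc_injective _)

variable [IsNoetherianRing R]
  (O : Type u) [CommRing O] [IsDomain O] [IsDiscreteValuationRing O] [Algebra R O]
  (hO : algebraMap R O π ∈ maximalIdeal O)

/-- **The first order input `h4`** of the master assembly on the nodal model. -/
theorem nodal_firstOrderToric (n : ℕ) :
    Master.FirstOrderToric (nodalFDFin Hy hsurj hkκ hκ1 hκ2 hrat hstrong0 hstrong1 D hρ0 hρ1)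
      (maximalIdeal O) Fin.castSucc n
      (Wrap.iota (Hy.toricBase D hρ0 hρ1)
        (nodalNodeSys Hy hsurj hkκ hκ1 hκ2 hrat hstrong0 hstrong1 D hρ0 hρ1) O hO (n + 1)) :=
  (Hy.toricBase D hρ0 hρ1).firstOrderToric
    (nodalFDFin Hy hsurj hkκ hκ1 hκ2 hrat hstrong0 hstrong1 D hρ0 hρ1) hsurj hkκ
    (nodalFDFin_hev Hy hsurj hkκ hκ1 hκ2 hrat hstrong0 hstrong1 D hρ0 hρ1)
    (nodalFDFin_hinj Hy hsurj hkκ hκ1 hκ2 hrat hstrong0 hstrong1 D hρ0 hρ1)
    (nodalFDFin_P Hy hsurj hkκ hκ1 hκ2 hrat hstrong0 hstrong1 D hρ0 hρ1)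
    (nodalFDFin_Q Hy hsurj hkκ hκ1 hκ2 hrat hstrong0 hstrong1 D hρ0 hρ1)
    Hy.satP Hy.satQ Fin.castSucc (Fin.castSucc_injective _) O hO n

end NodalModel

end Fermat.Agent.T1B.Toric98
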