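import Mathlib
import Fermat.Agent.T1B.Toric98.ModelNodes

/-!
# T1B / TORIC50 (helper98): the tower input on the nodal model

`NodalModel.nodal_towerInput` : `Toric98.ToricBase.towerInput_of_fibre` (= `Master.towerInput_of_base`
with the node system and the first order input discharged) for `Hy : NodeNF37.ToricBaseInst.Hyp ..`,
`H := Hy.toricBase D hρ0 hρ1`, `FD := nodalFDFin ..`, `N := nodalNodeSys ..`, `r := nodalR Hy`.
Remaining hypotheses: the model facts `hκ1 hκ2 hrat hstrong0 hstrong1`, the norm systems `Sα Sβ`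
with `α β` and (K2) (elementwise form), `β_ι`, the Galois data and `hInj`, `hfin0`, `hnzd`.
-/

set_option autoImplicit false
set_option linter.unusedSectionVars false
set_option linter.unusedVariables false
set_option linter.style.haveILetI false

noncomputable section

namespace Fermat.Agent.T1B.Toric98

open Polynomial TensorProduct Fermat.Agent.T1.ModelCoh30 Fermat.Agent.ES.N34.NodalCore13
  Fermat.Agent.T1B.NodalCoh30 Fermat.Agent.T1.CechFormal70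
  Fermat.Agent.T1B.NodeNF37.ToricBaseInst Fermat.Agent.T1B.Toric50 IsLocalRing
open Fermat.Agent.Jac Fermat.Agent.Jac.BaseChange75
open Fermat.Agent.T1.RedIface75 Fermat.Agent.T1B.Toric50.Assemble
open Fermat.Agent.T1B.ToricGal65 Fermat.Agent.T1B.Toric50.Master Fermat.Agent.T1B.Toric11
  Fermat.Agent.T1B.Toric50.Wrap
open Fermat.Agent.T1.Coh60 (algebra0 algebra1 isScalarTower0 isScalarTower1)
open scoped Fermat.Agent.Jac.BaseChange75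

universe u

attribute [local instance] algebra0 algebra1 isScalarTower0 isScalarTower1

variable {R F : Type u} [CommRing R] [Field F] [Algebra R F]
variable {π : R} {t : F} {B0 B1 : Subalgebra R F} {O1 O2 : ValuationSubring F}

namespace NodalModel

variable (Hy : Hyp π t B0 B1 O1 O2)
  {κ : Type u} [Field κ] [Algebra R κ]
  (hsurj : Function.Surjective (algebraMap R κ))
  (hkκ : RingHom.ker (algebraMap R κ) = Ideal.span {π})
  (hκ1 : ResAlgClosed π O1) (hκ2 : ResAlgClosed π O2)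
  (hrat : ∀ m ∈ nodes01 Hy, Function.Surjective (algebraMap R (↥(B0 ⊔ B1) ⧸ m)))
  (hstrong0 : ∀ m : Ideal ↥B0, m.IsMaximal → ¬ OffBranch π B0 O1 m → ¬ OffBranch π B0 O2 m →
    ∃ x y : ↥B0, (∃ o ∈ O2, (x : F) = algebraMap R F π * o) ∧
      (∃ o ∈ O1, (y : F) = algebraMap R F π * o) ∧
      ∀ f ∈ m, ∃ d : ↥B0, d ∉ m ∧ ∃ a b e : ↥B0, d * f = a * x + b * y + algebraMap R ↥B0 π * e)
  (hstrong1 : ∀ m : Ideal ↥B1, m.IsMaximal → ¬ OffBranch π B1 O1 m → ¬ OffBranch π B1 O2 m →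
    ∃ x y : ↥B1, (∃ o ∈ O2, (x : F) = algebraMap R F π * o) ∧
      (∃ o ∈ O1, (y : F) = algebraMap R F π * o) ∧
      ∀ f ∈ m, ∃ d : ↥B1, d ∉ m ∧ ∃ a b e : ↥B1, d * f = a * x + b * y + algebraMap R ↥B1 π * e)
  {g : ℕ} (D : CechData R ↥B0 ↥B1 ↥(B0 ⊔ B1) g)
  (hρ0 : D.ρ0 = ρ0 B0 B1) (hρ1 : D.ρ1 = ρ1 B0 B1)
  [hmax : (Ideal.span {π}).IsMaximal] [Algebra.FiniteType R ↥B0] [Algebra.FiniteType R ↥B1]
  [Algebra.FiniteType R ↥(B0 ⊔ B1)] [IsNoetherianRing R]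
  (c0 : TwoChart R ↥B0 ↥B1 ↥(B0 ⊔ B1))
  {B0' B1' B01' : Type u} [CommRing B0'] [CommRing B1'] [CommRing B01']
  [Algebra R B0'] [Algebra R B1'] [Algebra R B01'] {g' : ℕ} {D' : CechData R B0' B1' B01' g'}
  (Sα Sβ : NormSys D D') (α β : B01' →ₗ[R] ↥(B0 ⊔ B1))
  (hα0 : ∀ a : B0', ∃ a0 : ↥B0, α (D'.ρ0 a) = D.ρ0 a0)
  (hα1 : ∀ a : B1', ∃ a1 : ↥B1, α (D'.ρ1 a) = D.ρ1 a1)
  (hβ0 : ∀ a : B0', ∃ a0 : ↥B0, β (D'.ρ0 a) = D.ρ0 a0)
  (hβ1 : ∀ a : B1', ∃ a1 : ↥B1, β (D'.ρ1 a) = D.ρ1 a1)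
  (hK2α : ∀ f : ↥(B0 ⊔ B1), ∃ c ∈ O1,
    ((α (Sα.trMap f) - f : ↥(B0 ⊔ B1)) : F) = algebraMap R F π * c)
  (hK2β : ∀ f : ↥(B0 ⊔ B1), ∃ c ∈ O2,
    ((β (Sβ.trMap f) - f : ↥(B0 ⊔ B1)) : F) = algebraMap R F π * c)
  (O : Type u) [CommRing O] [IsDomain O] [IsDiscreteValuationRing O] [Algebra R O]
  (hO : algebraMap R O π ∈ maximalIdeal O)
  {G : Type u} [Group G] (ρ : G →* (O ≃ₐ[R] O))

include hρ0 in
theorem hρ0_apply (x : ↥B0) : D.ρ0 x = algebraMap ↥B0 ↥(B0 ⊔ B1) x := by rw [hρ0]; rfl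

include hρ1 in
theorem hρ1_apply (x : ↥B1) : D.ρ1 x = algebraMap ↥B1 ↥(B0 ⊔ B1) x := by rw [hρ1]; rfl

/-- **The tower input of TORIC50 on the nodal model.** -/
def nodal_towerInput (hc : IsAdicComplete (maximalIdeal O) O) (p : ℕ)
    (χ : G → ℕ) (hχ : ∀ (s : G) (ζ : O), ζ ^ p = 1 → ρ s ζ = ζ ^ χ s)
    (β_ι : ∀ n (z : Tn (nodalR Hy) (maximalIdeal O) n),
      βn2 Sα Sβ (maximalIdeal O) n
        (iota (Hy.toricBase D hρ0 hρ1)
          (nodalNodeSys Hy hsurj hkκ hκ1 hκ2 hrat hstrong0 hstrong1 D hρ0 hρ1) O hO n z) = 1)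
    (hInj : CoordInjective c0 O)
    (hfin0 : Module.Finite O[X] (Module.AEval O (O ⊗[R] ↥B0) (c0.baseChange O).t))
    (hnzd : ∀ v : O ⊗[R] ↥(B0 ⊔ B1), v - 1 ∈ eI (maximalIdeal O) (O ⊗[R] ↥(B0 ⊔ B1)) →
      v ∈ nonZeroDivisors (O ⊗[R] ↥(B0 ⊔ B1))) :
    letI := j1Act c0 ρ
    letI : ∀ n, MulDistribMulAction G (Jn D (maximalIdeal O) n) := fun n => actJn ρ D n
    letI : ∀ n, MulDistribMulAction G (Tn (nodalR Hy) (maximalIdeal O) n) :=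
      fun n => actTn ρ (nodalR Hy) n
    letI := actTinf ρ (nodalR Hy)
    TowerInput c0 D (hρ0_apply D hρ0) (hρ1_apply D hρ1) O G p (nodalR Hy)
      (fun n => Jn D' (maximalIdeal O) n × Jn D' (maximalIdeal O) n) :=
  (Hy.toricBase D hρ0 hρ1).towerInput_of_fibre c0 (hρ0_apply D hρ0) (hρ1_apply D hρ1)
    (nodalFDFin Hy hsurj hkκ hκ1 hκ2 hrat hstrong0 hstrong1 D hρ0 hρ1) hsurj hkκ
    (nodalFDFin_hev Hy hsurj hkκ hκ1 hκ2 hrat hstrong0 hstrong1 D hρ0 hρ1)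
    (nodalFDFin_hinj Hy hsurj hkκ hκ1 hκ2 hrat hstrong0 hstrong1 D hρ0 hρ1)
    (nodalFDFin_P Hy hsurj hkκ hκ1 hκ2 hrat hstrong0 hstrong1 D hρ0 hρ1)
    (nodalFDFin_Q Hy hsurj hkκ hκ1 hκ2 hrat hstrong0 hstrong1 D hρ0 hρ1)
    Hy.satP Hy.satQ Sα Sβ α β hα0 hα1 hβ0 hβ1
    (fun f => by
      rw [nodalFDFin_P, Hyp.toricBase_P]
      exact hK2α f)
    (fun f => by
      rw [nodalFDFin_Q, Hyp.toricBase_Q]
      exact hK2β f)
    Fin.castSucc (Fin.castSucc_injective _) (Fin.last _) (castSucc_ne_last _)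
    (exists_castSucc_eq _) O hO ρ hc p χ hχ β_ι hInj hfin0 hnzd

end NodalModel

end Fermat.Agent.T1B.Toric98
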