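import Mathlib
import Fermat.Agent.T1B.K2Model94.Bridge

/-!
# T1B / TORIC50 (helper98): two generic facts on helper11's `Toric11.ChartMor`

For a finite projective morphism of two-chart data `M : ChartMor W B0 B1 B01 B0' B1' B01'` and Čech
data `D`, `D'` whose restriction maps are the algebra maps of the charts:

* `chartMor_lin_ρ0`, `chartMor_lin_ρ1` : the hypotheses `hα0`, `hα1` (resp. `hβ0`, `hβ1`) of
  `Toric50.Master.towerInput_of_base` / `Toric98.ToricBase.towerInput_of_fibre` for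
  `α := M.α01.toLinearMap`;
* `k2_chartMor` : (K2) `M.α01 (trMap f) - f ∈ vertIdeal π (B0 ⊔ B1) O1` for ANY `ChartMor` between
  subalgebras of fields whose overlap map is the restriction of `Phi : F' →ₐ[R] F`, from a
  `Toric98.K2Datum` for the algebra structure `Phi.toRingHom.toAlgebra` (variant of helper94's
  `K2Model94.k2_chartMorOfSub`, which is stated for the literal term `chartMorOfSub …`).
-/

set_option autoImplicit false
set_option linter.unusedSectionVars false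
set_option linter.unusedVariables false
set_option linter.style.haveILetI false

noncomputable section

namespace Fermat.Agent.T1B.Toric98

open Fermat.Agent.T1B.Norm84 Fermat.Agent.T1B.Toric11 Fermat.Agent.T1.Coh60
open Fermat.Agent.T1.CechFormal70 Fermat.Agent.T1B.K2Model94

section Lin

universe u

variable {W B0 B1 B01 B0' B1' B01' : Type u} [CommRing W]
  [CommRing B0] [CommRing B1] [CommRing B01] [Algebra W B0] [Algebra W B1] [Algebra W B01]
  [CommRing B0'] [CommRing B1'] [CommRing B01'] [Algebra W B0'] [Algebra W B1'] [Algebra W B01']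
  [Algebra B0 B01] [Algebra B1 B01] [IsScalarTower W B0 B01] [IsScalarTower W B1 B01]
  [Algebra B0' B01'] [Algebra B1' B01'] [IsScalarTower W B0' B01'] [IsScalarTower W B1' B01']
  (M : ChartMor W B0 B1 B01 B0' B1' B01')
  {g g' : ℕ} (D : CechData W B0 B1 B01 g) (D' : CechData W B0' B1' B01' g')
  (hρ0 : ∀ x, D.ρ0 x = algebraMap B0 B01 x) (hρ1 : ∀ x, D.ρ1 x = algebraMap B1 B01 x)
  (hρ0' : ∀ x, D'.ρ0 x = algebraMap B0' B01' x) (hρ1' : ∀ x, D'.ρ1 x = algebraMap B1' B01' x)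

include hρ0 hρ0' in
/-- the overlap map of a `ChartMor` maps chart `0` of the target into chart `0` of the source. -/
theorem chartMor_lin_ρ0 (a : B0') : ∃ a0 : B0, M.α01.toLinearMap (D'.ρ0 a) = D.ρ0 a0 :=
  ⟨M.α0 a, by rw [hρ0', hρ0]; exact M.comm0 a⟩

include hρ1 hρ1' in
/-- the overlap map of a `ChartMor` maps chart `1` of the target into chart `1` of the source. -/
theorem chartMor_lin_ρ1 (a : B1') : ∃ a1 : B1, M.α01.toLinearMap (D'.ρ1 a) = D.ρ1 a1 :=
  ⟨M.α1 a, by rw [hρ1', hρ1]; exact M.comm1 a⟩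

end Lin

section K2

universe u

variable {R F' F : Type u} [CommRing R] [Field F'] [Field F] [Algebra R F'] [Algebra R F]
  (Phi : F' →ₐ[R] F) {B0' B1' : Subalgebra R F'} {B0 B1 : Subalgebra R F}

attribute [local instance] algebra0 algebra1 isScalarTower0 isScalarTower1

variable (M : ChartMor R ↥B0 ↥B1 ↥(B0 ⊔ B1) ↥B0' ↥B1' ↥(B0' ⊔ B1'))
  (hM : ∀ x : ↥(B0' ⊔ B1'), ((M.α01 x : ↥(B0 ⊔ B1)) : F) = Phi (x : F'))
  {g g' : ℕ} (D : CechData R ↥B0 ↥B1 ↥(B0 ⊔ B1) g)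
  (D' : CechData R ↥B0' ↥B1' ↥(B0' ⊔ B1') g')
  (hρ0 : ∀ x, D.ρ0 x = algebraMap ↥B0 ↥(B0 ⊔ B1) x)
  (hρ1 : ∀ x, D.ρ1 x = algebraMap ↥B1 ↥(B0 ⊔ B1) x)
  (hρ0' : ∀ x, D'.ρ0 x = algebraMap ↥B0' ↥(B0' ⊔ B1') x)
  (hρ1' : ∀ x, D'.ρ1 x = algebraMap ↥B1' ↥(B0' ⊔ B1') x)

include hM in
/-- **(K2) for the Čech norm system of any `ChartMor` between subalgebras of fields** whose overlap
map is the restriction of `Phi`, from a `K2Datum` for the field extension `F / Phi(F')`. -/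
theorem k2_chartMor {π : R} {p : ℕ} {O1 O2 : ValuationSubring F}
    (K : letI := Phi.toRingHom.toAlgebra; K2Datum (algebraMap R F' π) p O1 O2)
    (le1 : ∀ x ∈ B0 ⊔ B1, x ∈ O1) (le2 : ∀ x ∈ B0 ⊔ B1, x ∈ O2)
    (hfrac' : ∀ x : F', ∃ a ∈ B0' ⊔ B1', ∃ b ∈ B0' ⊔ B1', b ≠ 0 ∧ x * b = a)
    (hfrac : ∀ x : F, ∃ a ∈ B0 ⊔ B1, ∃ b ∈ B0 ⊔ B1, b ≠ 0 ∧ x * b = a)
    (f : ↥(B0 ⊔ B1)) :
    M.α01.toLinearMap ((M.normSys D D' hρ0 hρ1 hρ0' hρ1').trMap f) - f
      ∈ vertIdeal π (B0 ⊔ B1) O1 le1 := by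
  letI : Algebra F' F := Phi.toRingHom.toAlgebra
  haveI : IsScalarTower R F' F := IsScalarTower.of_algebraMap_eq fun r => (Phi.commutes r).symm
  letI := M.alg01
  haveI := M.finite01
  haveI := M.projective01
  have halg : ∀ x : ↥(B0' ⊔ B1'),
      ((algebraMap ↥(B0' ⊔ B1') ↥(B0 ⊔ B1) x : ↥(B0 ⊔ B1)) : F) = algebraMap F' F (x : F') :=
    fun x => hM x
  exact k2_of_projective (B0' ⊔ B1') (B0 ⊔ B1) halg hfrac' hfrac K le1 le2 f

end K2

end Fermat.Agent.T1B.Toric98
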