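import Mathlib

/-!
# T1B / TORIC50 (helper98): norm ⇒ trace on square-zero thickenings

For a finite free `A`-algebra `B` and an ideal `I ⊂ A` with `I ^ 2 = 0`:
`N_{B/A}(1 + x) = 1 + Tr_{B/A}(x)` for every `x ∈ I·B`.  This is the tangent-space computation
"the push-forward of line bundles (norm of Čech cocycles) induces the trace on `H¹(𝒪)`".
-/

set_option autoImplicit false

namespace Fermat.Agent.T1B.Toric98

open Module

variable {A B : Type*} [CommRing A] [CommRing B] [Algebra A B]

theorem mul_eq_zero_of_mem_map {I : Ideal A} (hI : I ^ 2 = ⊥) {x y : B}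
    (hx : x ∈ I.map (algebraMap A B)) (hy : y ∈ I.map (algebraMap A B)) : x * y = 0 := by
  have h : x * y ∈ (I.map (algebraMap A B)) ^ 2 := by
    rw [pow_two]; exact Ideal.mul_mem_mul hx hy
  rw [← Ideal.map_pow, hI, Ideal.map_bot] at h
  exact h

variable [Module.Free A B] [Module.Finite A B]

theorem trace_mem_and_norm_one_add {I : Ideal A} (hI : I ^ 2 = ⊥) {x : B}
    (hx : x ∈ I.map (algebraMap A B)) :
    Algebra.trace A B x ∈ I ∧ Algebra.norm A (1 + x) = 1 + Algebra.trace A B x := by
  have hx' : x ∈ I • (⊤ : Submodule A B) := by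
    rw [Ideal.smul_top_eq_map]; exact hx
  have hmem : ∀ z ∈ I • (⊤ : Submodule A B), z ∈ I.map (algebraMap A B) := by
    intro z hz
    rw [Ideal.smul_top_eq_map] at hz; exact hz
  induction hx' using Submodule.smul_induction_on' with
  | smul a ha y _ =>
    refine ⟨?_, ?_⟩
    · rw [map_smul]
      exact I.mul_mem_right _ ha
    · obtain ⟨r, hr⟩ := Algebra.norm_one_add_smul (A := A) (B := B) a y
      have ha2 : a ^ 2 = 0 := by
        have : a ^ 2 ∈ I ^ 2 := Ideal.pow_mem_pow ha 2
        rw [hI] at this
        exact this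
      rw [hr, ha2, mul_zero, add_zero, map_smul, smul_eq_mul, mul_comm]
  | add y hy z hz ihy ihz =>
    have hy' := hmem y hy
    have hz' := hmem z hz
    obtain ⟨hy1, hy2⟩ := ihy hy'
    obtain ⟨hz1, hz2⟩ := ihz hz'
    refine ⟨?_, ?_⟩
    · rw [map_add]; exact I.add_mem hy1 hz1
    · have hyz : y * z = 0 := mul_eq_zero_of_mem_map hI hy' hz'
      have h1 : (1 + (y + z) : B) = (1 + y) * (1 + z) := by
        rw [add_mul, mul_add, mul_add, hyz]; ring
      have htr : Algebra.trace A B y * Algebra.trace A B z = 0 := by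
        have : Algebra.trace A B y * Algebra.trace A B z ∈ I ^ 2 := by
          rw [pow_two]; exact Ideal.mul_mem_mul hy1 hz1
        rw [hI] at this
        exact this
      rw [h1, map_mul, hy2, hz2, map_add, add_mul, mul_add, mul_add, htr]
      ring

/-- **Norm ⇒ trace** on a square-zero ideal. -/
theorem norm_one_add_of_mem_map {I : Ideal A} (hI : I ^ 2 = ⊥) {x : B}
    (hx : x ∈ I.map (algebraMap A B)) :
    Algebra.norm A (1 + x) = 1 + Algebra.trace A B x :=
  (trace_mem_and_norm_one_add hI hx).2

omit [Module.Free A B] [Module.Finite A B] in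
theorem trace_mem_of_mem_map {I : Ideal A} {x : B} (hx : x ∈ I.map (algebraMap A B)) :
    Algebra.trace A B x ∈ I := by
  have hx' : x ∈ I • (⊤ : Submodule A B) := by
    rw [Ideal.smul_top_eq_map]; exact hx
  clear hx
  induction hx' using Submodule.smul_induction_on' with
  | smul a ha y _ =>
    rw [map_smul]
    exact I.mul_mem_right _ ha
  | add y _ z _ ihy ihz =>
    rw [map_add]; exact I.add_mem ihy ihz

end Fermat.Agent.T1B.Toric98
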