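import Mathlib
import Fermat.Agent.T1B.Norm84.Iota10

/-!
# T1B / TORIC50 (helper98), NODE-FIBRE: `RadHyp` from the two branches

`Norm84.Iota.RadHyp α ev` (helper84, `Norm84/Iota10.lean`: the `W`-level hypothesis of NODE-FIBRE,
`ker ev ⊆ rad (α (α⁻¹ ker ev) C)`) from the three model facts on a chart `C` of the nodal curve with
branch ideals `P`, `Q2` (`P · Q2 ⊆ π C`), for a degeneracy map `α : A → C`:
 (a) `α` is onto `C ⧸ P`;
 (c) `b ^ q ≡ α y mod Q2` has a solution `y` for every `b : C` (Kronecker congruence; or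
     (b) + (c'): `β` onto `C ⧸ Q2` and `α x ≡ (β b') ^ q mod Q2` solvable);
and `ev` a rational point of the node (`ev` kills `P`, `Q2`, `π`).  Exponent `q + 1`.

* `radHyp_of_branches`, `radHyp_of_branches'` : the abstract statements;
* `ToricBase.radHyp_chart0`, `ToricBase.radHyp_chart1` : the fields `rad0`, `rad1` of
  `Norm84.Iota.WNodeHyp` for a toric base `H` and a fibre datum `FD` with `FD.P = H.P`, `FD.Q = H.Q`.
-/

set_option autoImplicit false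
set_option linter.unusedSectionVars false
set_option linter.style.haveILetI false

namespace Fermat.Agent.T1B.Toric98

open Fermat.Agent.T1.CechFormal70 Fermat.Agent.T1B.Norm84.Iota

section Abstract

variable {W A C κ : Type*} [CommRing W] [CommRing A] [CommRing C] [Algebra W A] [Algebra W C]
  [Field κ] [Algebra W κ]

/-- **`RadHyp` from the two branches.** -/
theorem radHyp_of_branches (α : A →ₐ[W] C) (ev : C →ₐ[W] κ) (P Q2 : Ideal C) (π : W) (q : ℕ)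
    (hq : q ≠ 0) (hπ : algebraMap W κ π = 0)
    (hevP : ∀ p ∈ P, ev p = 0) (hevQ : ∀ p ∈ Q2, ev p = 0)
    (hPQ : ∀ p ∈ P, ∀ p' ∈ Q2, ∃ c : C, p * p' = π • c)
    (ha : ∀ b : C, ∃ x : A, b - α x ∈ P)
    (hc : ∀ b : C, ∃ y : A, b ^ q - α y ∈ Q2) :
    RadHyp α ev := by
  intro c hc0
  refine ⟨q + 1, ?_⟩
  set J : Ideal C := Ideal.map α ((RingHom.ker ev).comap α) with hJ
  have hmemJ : ∀ x : A, ev (α x) = 0 → α x ∈ J := fun x hx =>
    Ideal.mem_map_of_mem _ (by rw [Ideal.mem_comap, RingHom.mem_ker]; exact hx)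
  -- `π ∈ J`
  have hπJ : ∀ c' : C, π • c' ∈ J := by
    intro c'
    have h1 : algebraMap W C π ∈ J := by
      rw [← α.commutes]
      apply hmemJ
      rw [α.commutes, ev.commutes, hπ]
    rw [Algebra.smul_def]
    exact J.mul_mem_right _ h1
  -- `c = α x + p`
  obtain ⟨x, hx⟩ := ha c
  obtain ⟨p, hpdef⟩ : ∃ p : C, p = c - α x := ⟨_, rfl⟩
  rw [← hpdef] at hx
  have hevp : ev p = 0 := hevP p hx
  have hαx : α x ∈ J := by
    apply hmemJ
    have h := hevp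
    rw [hpdef, map_sub, hc0, zero_sub, neg_eq_zero] at h
    exact h
  -- `p ^ q = α y + r`
  obtain ⟨y, hy⟩ := hc p
  obtain ⟨r, hrdef⟩ : ∃ r : C, r = p ^ q - α y := ⟨_, rfl⟩
  rw [← hrdef] at hy
  have hαy : α y ∈ J := by
    apply hmemJ
    have h := hevQ r hy
    rw [hrdef, map_sub, map_pow, hevp, zero_pow hq, zero_sub, neg_eq_zero] at h
    exact h
  -- `p ^ (q + 1) ∈ J`
  have hpJ : p ^ (q + 1) ∈ J := by
    obtain ⟨c', hc'⟩ := hPQ p hx r hy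
    have : p ^ (q + 1) = p * α y + π • c' := by
      rw [← hc', hrdef, pow_succ]; ring
    rw [this]
    exact J.add_mem (J.mul_mem_left _ hαy) (hπJ c')
  -- `c ^ (q + 1) ≡ p ^ (q + 1) mod J`
  have hsub : c ^ (q + 1) - p ^ (q + 1) ∈ J := by
    obtain ⟨d, hd⟩ := sub_dvd_pow_sub_pow c p (q + 1)
    rw [hd]
    have : c - p = α x := by rw [hpdef]; ring
    rw [this]
    exact J.mul_mem_right _ hαx
  have : c ^ (q + 1) = (c ^ (q + 1) - p ^ (q + 1)) + p ^ (q + 1) := by ring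
  rw [this]
  exact J.add_mem hsub hpJ

/-- **`RadHyp` from the two branches**, Kronecker congruence in the converse form
`α x ≡ (β b') ^ q mod Q2` with `β` onto `C ⧸ Q2`. -/
theorem radHyp_of_branches' (α β : A →ₐ[W] C) (ev : C →ₐ[W] κ) (P Q2 : Ideal C) (π : W) (q : ℕ)
    (hq : q ≠ 0) (hπ : algebraMap W κ π = 0)
    (hevP : ∀ p ∈ P, ev p = 0) (hevQ : ∀ p ∈ Q2, ev p = 0)
    (hPQ : ∀ p ∈ P, ∀ p' ∈ Q2, ∃ c : C, p * p' = π • c)
    (ha : ∀ b : C, ∃ x : A, b - α x ∈ P)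
    (hb : ∀ b : C, ∃ x : A, b - β x ∈ Q2)
    (hc : ∀ b' : A, ∃ x : A, α x - (β b') ^ q ∈ Q2) :
    RadHyp α ev := by
  refine radHyp_of_branches α ev P Q2 π q hq hπ hevP hevQ hPQ ha fun b => ?_
  obtain ⟨b', hb'⟩ := hb b
  obtain ⟨x, hx⟩ := hc b'
  refine ⟨x, ?_⟩
  have h1 : b ^ q - (β b') ^ q ∈ Q2 := by
    obtain ⟨d, hd⟩ := sub_dvd_pow_sub_pow b (β b') q
    rw [hd]
    exact Q2.mul_mem_right _ hb'
  have : b ^ q - α x = (b ^ q - (β b') ^ q) - (α x - (β b') ^ q) := by ring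
  rw [this]
  exact Q2.sub_mem h1 hx

end Abstract

section Model

variable {W B0 B1 B01 : Type*} [CommRing W] [CommRing B0] [CommRing B1] [CommRing B01]
  [Algebra W B0] [Algebra W B1] [Algebra W B01] {g : ℕ}
  {D : CechData W B0 B1 B01 g} {π : W} (H : ToricBase D π)
  {En : Type*} {κ : Type*} [Field κ] [Algebra W κ]
  (FD : FibreDatum π D.ρ0 D.ρ1 En κ) (hP : FD.P = H.P) (hQ : FD.Q = H.Q)
  (hπκ : algebraMap W κ π = 0) (q : ℕ) (hq : q ≠ 0)
  {B0' B1' : Type*} [CommRing B0'] [CommRing B1'] [Algebra W B0'] [Algebra W B1']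

namespace ToricBase

include hP hQ hπκ hq in
/-- **`rad0`** of `WNodeHyp` for a degeneracy map which is onto the FIRST branch (`α`):
`α0` onto `B0 ⧸ P0` and Kronecker `b ^ q ≡ α0 y mod Q0`. -/
theorem radHyp_chart0 (α0 : B0' →ₐ[W] B0)
    (ha : ∀ b : B0, ∃ x : B0', D.ρ0 (b - α0 x) ∈ H.P)
    (hc : ∀ b : B0, ∃ y : B0', D.ρ0 (b ^ q - α0 y) ∈ H.Q) (e : En) :
    RadHyp α0 ((FD.ev e).comp D.ρ0) := by
  refine radHyp_of_branches α0 ((FD.ev e).comp D.ρ0)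
    (H.P.comap (D.ρ0 : B0 →+* B01)) (H.Q.comap (D.ρ0 : B0 →+* B01)) π q hq hπκ
    (fun p hp => FD.ev_P e _ (hP ▸ hp)) (fun p hp => FD.ev_Q e _ (hQ ▸ hp))
    (fun p hp p' hp' => ?_) ha hc
  have h1 : D.ρ0 (p * p') ∈ H.P := by
    rw [map_mul]; exact H.P.mul_mem_right _ hp
  have h2 : D.ρ0 (p * p') ∈ H.Q := by
    rw [map_mul]; exact H.Q.mul_mem_left _ hp'
  exact H.red0 _ h1 h2

include hP hQ hπκ hq in
/-- **`rad0`** for a degeneracy map which is onto the SECOND branch (`β`). -/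
theorem radHyp_chart0' (β0 : B0' →ₐ[W] B0)
    (ha : ∀ b : B0, ∃ x : B0', D.ρ0 (b - β0 x) ∈ H.Q)
    (hc : ∀ b : B0, ∃ y : B0', D.ρ0 (b ^ q - β0 y) ∈ H.P) (e : En) :
    RadHyp β0 ((FD.ev e).comp D.ρ0) := by
  refine radHyp_of_branches β0 ((FD.ev e).comp D.ρ0)
    (H.Q.comap (D.ρ0 : B0 →+* B01)) (H.P.comap (D.ρ0 : B0 →+* B01)) π q hq hπκ
    (fun p hp => FD.ev_Q e _ (hQ ▸ hp)) (fun p hp => FD.ev_P e _ (hP ▸ hp))
    (fun p hp p' hp' => ?_) ha hc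
  have h1 : D.ρ0 (p * p') ∈ H.P := by
    rw [map_mul]; exact H.P.mul_mem_left _ hp'
  have h2 : D.ρ0 (p * p') ∈ H.Q := by
    rw [map_mul]; exact H.Q.mul_mem_right _ hp
  exact H.red0 _ h1 h2

include hP hQ hπκ hq in
/-- **`rad1`** of `WNodeHyp` for a degeneracy map which is onto the FIRST branch (`α`). -/
theorem radHyp_chart1 (α1 : B1' →ₐ[W] B1)
    (ha : ∀ b : B1, ∃ x : B1', D.ρ1 (b - α1 x) ∈ H.P)
    (hc : ∀ b : B1, ∃ y : B1', D.ρ1 (b ^ q - α1 y) ∈ H.Q) (e : En) :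
    RadHyp α1 ((FD.ev e).comp D.ρ1) := by
  refine radHyp_of_branches α1 ((FD.ev e).comp D.ρ1)
    (H.P.comap (D.ρ1 : B1 →+* B01)) (H.Q.comap (D.ρ1 : B1 →+* B01)) π q hq hπκ
    (fun p hp => FD.ev_P e _ (hP ▸ hp)) (fun p hp => FD.ev_Q e _ (hQ ▸ hp))
    (fun p hp p' hp' => ?_) ha hc
  have h1 : D.ρ1 (p * p') ∈ H.P := by
    rw [map_mul]; exact H.P.mul_mem_right _ hp
  have h2 : D.ρ1 (p * p') ∈ H.Q := by
    rw [map_mul]; exact H.Q.mul_mem_left _ hp'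
  exact H.red1 _ h1 h2

include hP hQ hπκ hq in
/-- **`rad1`** for a degeneracy map which is onto the SECOND branch (`β`). -/
theorem radHyp_chart1' (β1 : B1' →ₐ[W] B1)
    (ha : ∀ b : B1, ∃ x : B1', D.ρ1 (b - β1 x) ∈ H.Q)
    (hc : ∀ b : B1, ∃ y : B1', D.ρ1 (b ^ q - β1 y) ∈ H.P) (e : En) :
    RadHyp β1 ((FD.ev e).comp D.ρ1) := by
  refine radHyp_of_branches β1 ((FD.ev e).comp D.ρ1)
    (H.Q.comap (D.ρ1 : B1 →+* B01)) (H.P.comap (D.ρ1 : B1 →+* B01)) π q hq hπκ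
    (fun p hp => FD.ev_Q e _ (hQ ▸ hp)) (fun p hp => FD.ev_P e _ (hP ▸ hp))
    (fun p hp p' hp' => ?_) ha hc
  have h1 : D.ρ1 (p * p') ∈ H.P := by
    rw [map_mul]; exact H.P.mul_mem_left _ hp'
  have h2 : D.ρ1 (p * p') ∈ H.Q := by
    rw [map_mul]; exact H.Q.mul_mem_right _ hp
  exact H.red1 _ h1 h2

end ToricBase

end Model

end Fermat.Agent.T1B.Toric98
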